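-- The function u(z) = Delta(z)^N / Delta(N z) on the upper half plane (for statements S22, S23).
import Mathlib
import Fermat.Prelude.Thm_UpperHalfPlane_qExpansion_prod

set_option autoImplicit false
open UpperHalfPlane ModularForm Complex MatrixGroups CongruenceSubgroup Filter Asymptotics Function
open scoped ModularForm Manifold Real Topology

namespace Fermat.Agent.S23.UFunction

local notation "Δ" => ModularForm.discriminant
local notation "𝕢" => Periodic.qParam

/-- The map `z ↦ N z` on the upper half plane. -/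
noncomputable def scale (N : ℕ) [NeZero N] (z : ℍ) : ℍ :=
  (⟨(N : ℝ), Nat.cast_pos.mpr (NeZero.pos N)⟩ : {x : ℝ // 0 < x}) • z

@[simp] lemma coe_scale (N : ℕ) [NeZero N] (z : ℍ) : ((scale N z : ℍ) : ℂ) = (N : ℂ) * z := by
  simp [scale, UpperHalfPlane.coe_pos_real_smul]

lemma im_scale (N : ℕ) [NeZero N] (z : ℍ) : (scale N z).im = N * z.im := by
  simp [scale]

/-- The function `u(z) = Δ(z)^N / Δ(N z)`. -/
noncomputable def uFun (N : ℕ) [NeZero N] (z : ℍ) : ℂ := Δ z ^ N / Δ (scale N z)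

lemma denom_SL (γ : SL(2, ℤ)) (z : ℂ) : denom γ z = (γ 1 0 : ℂ) * z + (γ 1 1 : ℂ) := by
  simp [UpperHalfPlane.denom]

lemma discriminant_smul (γ : SL(2, ℤ)) (z : ℍ) :
    Δ (γ • z) = denom γ z ^ (12 : ℤ) * Δ z := by
  have hmem : (γ : GL (Fin 2) ℝ) ∈
      (Matrix.SpecialLinearGroup.mapGL ℝ : SL(2,ℤ) →* GL (Fin 2) ℝ).range := ⟨γ, rfl⟩
  have h := SlashInvariantForm.slash_action_eqn'' CuspForm.discriminant hmem z
  simpa using h

/-- The matrix `[[a, N b], [c / N, d]]` attached to `[[a, b], [c, d]]` in `Γ₀(N)`. -/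
def conjMat (N : ℕ) (γ : SL(2, ℤ)) (c' : ℤ) (hc : γ 1 0 = N * c') : SL(2, ℤ) :=
  ⟨!![γ 0 0, N * γ 0 1; c', γ 1 1], by
    have := γ.det_coe
    rw [Matrix.det_fin_two] at this
    rw [Matrix.det_fin_two_of]
    rw [hc] at this
    linarith⟩

@[simp] lemma conjMat_one_zero (N : ℕ) (γ : SL(2, ℤ)) (c' : ℤ) (hc : γ 1 0 = N * c') :
    (conjMat N γ c' hc) 1 0 = c' := rfl
@[simp] lemma conjMat_one_one (N : ℕ) (γ : SL(2, ℤ)) (c' : ℤ) (hc : γ 1 0 = N * c') :
    (conjMat N γ c' hc) 1 1 = γ 1 1 := rfl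
@[simp] lemma conjMat_zero_zero (N : ℕ) (γ : SL(2, ℤ)) (c' : ℤ) (hc : γ 1 0 = N * c') :
    (conjMat N γ c' hc) 0 0 = γ 0 0 := rfl
@[simp] lemma conjMat_zero_one (N : ℕ) (γ : SL(2, ℤ)) (c' : ℤ) (hc : γ 1 0 = N * c') :
    (conjMat N γ c' hc) 0 1 = N * γ 0 1 := rfl

lemma denom_conjMat (N : ℕ) [NeZero N] (γ : SL(2, ℤ)) (c' : ℤ) (hc : γ 1 0 = N * c') (z : ℍ) :
    denom (conjMat N γ c' hc) (scale N z) = denom γ z := by
  rw [denom_SL, denom_SL, conjMat_one_zero, conjMat_one_one, hc, coe_scale]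
  push_cast
  ring

lemma scale_smul (N : ℕ) [NeZero N] (γ : SL(2, ℤ)) (c' : ℤ) (hc : γ 1 0 = N * c') (z : ℍ) :
    scale N (γ • z) = conjMat N γ c' hc • scale N z := by
  apply UpperHalfPlane.ext
  rw [coe_scale, UpperHalfPlane.coe_specialLinearGroup_apply,
    UpperHalfPlane.coe_specialLinearGroup_apply, coe_scale]
  simp only [algebraMap_int_eq, eq_intCast, conjMat_one_zero, conjMat_one_one, conjMat_zero_zero,
    conjMat_zero_one, hc]
  have hN : (N : ℂ) ≠ 0 := Nat.cast_ne_zero.mpr (NeZero.ne N)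
  push_cast
  have hden : ((N : ℂ) * (c' : ℂ)) * z + (γ 1 1 : ℂ) ≠ 0 := by
    have := UpperHalfPlane.denom_ne_zero (γ : GL (Fin 2) ℝ) z
    rw [denom_SL, hc] at this
    simpa using this
  have hden' : (c' : ℂ) * ((N : ℂ) * z) + (γ 1 1 : ℂ) ≠ 0 := by
    convert hden using 1; ring
  field_simp

lemma uFun_smul (N : ℕ) [NeZero N] (γ : SL(2, ℤ)) (hγ : γ ∈ Gamma0 N) (z : ℍ) :
    uFun N (γ • z) = denom γ z ^ (12 * ((N : ℤ) - 1)) * uFun N z := by
  rw [Gamma0_mem, ZMod.intCast_zmod_eq_zero_iff_dvd] at hγ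
  obtain ⟨c', hc⟩ := hγ
  unfold uFun
  rw [scale_smul N γ c' hc, discriminant_smul, discriminant_smul, denom_conjMat]
  have hd : denom γ z ≠ 0 := UpperHalfPlane.denom_ne_zero (γ : GL (Fin 2) ℝ) z
  have hΔ : Δ (scale N z) ≠ 0 := discriminant_ne_zero _
  rw [mul_pow, ← zpow_natCast (denom γ z ^ (12:ℤ)) N, ← zpow_mul]
  rw [show (12 * ((N : ℤ) - 1)) = 12 * N - 12 by ring, zpow_sub₀ hd]
  field_simp


/-! ### Slash invariance -/

lemma uFun_slash (N : ℕ) [NeZero N] (γ : SL(2, ℤ)) (hγ : γ ∈ Gamma0 N) :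
    uFun N ∣[12 * ((N : ℤ) - 1)] γ = uFun N := by
  ext z
  rw [ModularForm.SL_slash_apply, uFun_smul N γ hγ z]
  have hd : denom γ z ≠ 0 := UpperHalfPlane.denom_ne_zero (γ : GL (Fin 2) ℝ) z
  rw [mul_comm, ← mul_assoc, zpow_neg, inv_mul_cancel₀ (zpow_ne_zero _ hd), one_mul]

/-- `u` as a slash invariant form on `Γ₀(N)`. -/
noncomputable def uSIF (N : ℕ) [NeZero N] :
    SlashInvariantForm (Gamma0 N) (12 * ((N : ℤ) - 1)) where
  toFun := uFun N
  slash_action_eq' := by
    rintro _ ⟨γ, hγ, rfl⟩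
    exact uFun_slash N γ hγ

@[simp] lemma coe_uSIF (N : ℕ) [NeZero N] : (uSIF N : ℍ → ℂ) = uFun N := rfl

lemma periodic_uFun (N : ℕ) [NeZero N] : Function.Periodic (uFun N ∘ ofComplex) 1 := by
  have h := SlashInvariantFormClass.periodic_comp_ofComplex (uSIF N) (h := 1)
    (by simp [CongruenceSubgroup.strictPeriods_Gamma0])
  simpa using h

/-! ### Scaling and q-expansions -/

lemma qExpansion_coeff_unique' {h : ℝ} {f : ℍ → ℂ} {c : ℕ → ℂ} (hh : 0 < h)
    (hfanalytic : AnalyticAt ℂ (cuspFunction h f) 0)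
    (hf : ∀ τ : ℍ, HasSum (fun m ↦ c m • 𝕢 h τ ^ m) (f τ)) (m : ℕ) :
    c m = (qExpansion h f).coeff m := by
  have h1 := (hasFPowerSeriesOnBall_cuspFunction hh hfanalytic hf).hasFPowerSeriesAt
  have h2 : HasFPowerSeriesAt (cuspFunction h f)
      (FormalMultilinearSeries.ofScalars ℂ fun m ↦ (qExpansion h f).coeff m) 0 := by
    simpa [qExpansion_coeff, div_eq_mul_inv, mul_comm]
      using hfanalytic.hasFPowerSeriesAt
  simpa [FormalMultilinearSeries.coeff_ofScalars] using
    congr_arg (FormalMultilinearSeries.coeff · m) (h1.eq_formalMultilinearSeries h2)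

lemma tendsto_scale (N : ℕ) [NeZero N] : Tendsto (scale N) atImInfty atImInfty := by
  rw [atImInfty, tendsto_comap_iff]
  have : (UpperHalfPlane.im ∘ scale N) = fun z : ℍ => (N : ℝ) * z.im := by
    ext z; simp [im_scale]
  rw [this]
  have hN : (0 : ℝ) < N := Nat.cast_pos.mpr (NeZero.pos N)
  exact (tendsto_comap).const_mul_atTop hN

lemma qParam_scale (N : ℕ) [NeZero N] (z : ℍ) : 𝕢 1 (scale N z) = 𝕢 1 z ^ N := by
  rw [Periodic.qParam, Periodic.qParam, coe_scale, ← Complex.exp_nat_mul]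
  congr 1
  ring

lemma scale_ofComplex (N : ℕ) [NeZero N] {z : ℂ} (hz : 0 < z.im) :
    scale N (ofComplex z) = ofComplex ((N : ℂ) * z) := by
  have hz' : 0 < ((N : ℂ) * z).im := by
    simp only [mul_im, natCast_re, natCast_im, zero_mul, add_zero]
    have : (0 : ℝ) < N := Nat.cast_pos.mpr (NeZero.pos N)
    positivity
  apply UpperHalfPlane.ext
  rw [coe_scale, ofComplex_apply_of_im_pos hz, ofComplex_apply_of_im_pos hz']

lemma mdiff_comp_scale (N : ℕ) [NeZero N] {f : ℍ → ℂ} (hf : MDiff f) :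
    MDiff (fun z : ℍ => f (scale N z)) := by
  rw [UpperHalfPlane.mdifferentiable_iff]
  have h1 : DifferentiableOn ℂ (f ∘ ofComplex) {z | 0 < z.im} :=
    UpperHalfPlane.mdifferentiable_iff.mp hf
  have h2 : DifferentiableOn ℂ (fun z : ℂ => (N : ℂ) * z) {z | 0 < z.im} :=
    (differentiable_id.const_mul _).differentiableOn
  have hmaps : Set.MapsTo (fun z : ℂ => (N : ℂ) * z) {z | 0 < z.im} {z | 0 < z.im} := by
    intro z hz
    have hz0 : 0 < z.im := hz
    show 0 < ((N : ℂ) * z).im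
    simp only [mul_im, natCast_re, natCast_im, zero_mul, add_zero]
    have : (0 : ℝ) < N := Nat.cast_pos.mpr (NeZero.pos N)
    positivity
  refine (h1.comp h2 hmaps).congr ?_
  intro z hz
  simp only [Function.comp_apply]
  rw [scale_ofComplex N hz]

lemma periodic_comp_scale (N : ℕ) [NeZero N] {f : ℍ → ℂ}
    (hf : Periodic (f ∘ ofComplex) 1) :
    Periodic ((fun z : ℍ => f (scale N z)) ∘ ofComplex) 1 := by
  intro z
  simp only [Function.comp_apply]
  by_cases hz : 0 < z.im
  · have hz1 : 0 < (z + 1).im := by simpa using hz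
    rw [scale_ofComplex N hz, scale_ofComplex N hz1]
    have := (hf.nat_mul N) ((N : ℂ) * z)
    simp only [Function.comp_apply] at this
    rw [← this]
    congr 2
    ring
  · have hz1 : ¬ 0 < (z + 1).im := by simpa using hz
    rw [ofComplex_apply_of_im_nonpos (not_lt.mp hz), ofComplex_apply_of_im_nonpos (not_lt.mp hz1)]

lemma isBoundedAtImInfty_comp_scale (N : ℕ) [NeZero N] {f : ℍ → ℂ}
    (hf : IsBoundedAtImInfty f) : IsBoundedAtImInfty (fun z : ℍ => f (scale N z)) := by
  rw [IsBoundedAtImInfty, BoundedAtFilter] at hf ⊢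
  exact hf.comp_tendsto (tendsto_scale N)

lemma qExpansion_comp_scale (N : ℕ) [NeZero N] {f : ℍ → ℂ}
    (hper : Periodic (f ∘ ofComplex) 1) (hhol : MDiff f) (hbdd : IsBoundedAtImInfty f) :
    qExpansion 1 (fun z : ℍ => f (scale N z)) =
      PowerSeries.expand N (NeZero.ne N) (qExpansion 1 f) := by
  have han : AnalyticAt ℂ (cuspFunction 1 (fun z : ℍ => f (scale N z))) 0 :=
    analyticAt_cuspFunction_zero one_pos (periodic_comp_scale N hper) (mdiff_comp_scale N hhol)
      (isBoundedAtImInfty_comp_scale N hbdd)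
  ext m
  symm
  refine qExpansion_coeff_unique' (c := fun m =>
    (PowerSeries.expand N (NeZero.ne N) (qExpansion 1 f)).coeff m) one_pos han (fun τ => ?_) m
  have h1 := hasSum_qExpansion one_pos hper hhol hbdd (scale N τ)
  rw [qParam_scale] at h1
  have hinj : Function.Injective (fun m : ℕ => N * m) :=
    fun a b h => Nat.eq_of_mul_eq_mul_left (NeZero.pos N) h
  rw [← hinj.hasSum_iff]
  · convert h1 using 1
    ext m
    simp only [Function.comp_apply, PowerSeries.coeff_expand_mul, pow_mul]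
  · intro n hn
    have : ¬ N ∣ n := fun ⟨k, hk⟩ => hn ⟨k, hk.symm⟩
    rw [PowerSeries.coeff_expand_of_not_dvd _ _ _ this, zero_smul]

/-! ### Boundedness at infinity -/

lemma discriminant_pow_isBigO (N : ℕ) [NeZero N] :
    (fun z : ℍ => Δ z ^ N) =O[atImInfty] fun z : ℍ => Δ (scale N z) := by
  have h1 : (Δ : ℍ → ℂ) =O[atImInfty] fun τ => Real.exp (-2 * π * τ.im / 1) :=
    CuspFormClass.exp_decay_atImInfty CuspForm.discriminant one_pos one_mem_strictPeriods_SL
  have h2 : (fun z : ℍ => Δ z ^ N) =O[atImInfty] fun τ => Real.exp (-2 * π * τ.im / 1) ^ N :=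
    h1.pow N
  have h3 : (fun τ : ℍ => Real.exp (-2 * π * (scale N τ).im)) =O[atImInfty]
      fun τ => Δ (scale N τ) := exp_isBigO_discriminant.comp_tendsto (tendsto_scale N)
  refine h2.trans (IsBigO.trans (IsBigO.of_bound 1 (Eventually.of_forall fun τ => ?_)) h3)
  rw [one_mul, ← Real.exp_nat_mul, im_scale]
  apply le_of_eq
  congr 2
  ring

lemma isBoundedAtImInfty_uFun (N : ℕ) [NeZero N] : IsBoundedAtImInfty (uFun N) := by
  rw [IsBoundedAtImInfty, BoundedAtFilter]
  exact (div_isBoundedUnder_of_isBigO (discriminant_pow_isBigO N)).isBigO_one ℝ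

/-! ### The discriminant -/

lemma mdiff_discriminant : MDiff Δ := CuspForm.discriminant.holo'

lemma periodic_discriminant : Periodic (Δ ∘ ofComplex) 1 := by
  have h := SlashInvariantFormClass.periodic_comp_ofComplex CuspForm.discriminant (h := 1)
    one_mem_strictPeriods_SL
  simpa using h

lemma isBoundedAtImInfty_discriminant : IsBoundedAtImInfty Δ :=
  discriminant_isZeroAtImInfty.isBoundedAtImInfty

lemma analyticAt_cuspFunction_discriminant : AnalyticAt ℂ (cuspFunction 1 Δ) 0 :=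
  analyticAt_cuspFunction_zero one_pos periodic_discriminant mdiff_discriminant
    isBoundedAtImInfty_discriminant

lemma qExpansion_discriminant_coeff_zero : (qExpansion 1 Δ).coeff 0 = 0 := by
  have h := CuspFormClass.qExpansion_coeff_zero CuspForm.discriminant one_pos
    one_mem_strictPeriods_SL
  simpa using h

lemma qExpansion_discriminant_pow (N : ℕ) :
    qExpansion 1 (fun z : ℍ => Δ z ^ N) = (qExpansion 1 Δ) ^ N := by
  have h := UpperHalfPlane.qExpansion_prod (h := 1) (Finset.range N) (F := fun _ => Δ)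
    (fun _ _ => analyticAt_cuspFunction_discriminant)
  rw [Finset.prod_const, Finset.prod_const, Finset.card_range] at h
  rw [← h]
  rfl

/-! ### Power series algebra -/

section PowerSeriesAlgebra
open PowerSeries

/-- Pure power series algebra: if `T = X * D` with `D(0) = 1`, `T` integral, and
`U * expand N T = T ^ N`, then `U` is integral with constant term `1`. -/
lemma exists_int_of_mul_expand_eq_pow (N : ℕ) (hN : N ≠ 0) (T U : PowerSeries ℂ)
    (h0 : T.coeff 0 = 0) (h1 : T.coeff 1 = 1)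
    (hU : U * PowerSeries.expand N hN T = T ^ N) :
    U.coeff 0 = 1 ∧
    ∀ P : PowerSeries ℤ, P.map (Int.castRingHom ℂ) = T →
      ∃ Q : PowerSeries ℤ, Q.constantCoeff = 1 ∧ Q.map (Int.castRingHom ℂ) = U := by
  set D : PowerSeries ℂ := PowerSeries.mk fun p => T.coeff (p + 1) with hD
  have hT : T = X * D := by
    have := PowerSeries.eq_X_mul_shift_add_const T
    rw [← coeff_zero_eq_constantCoeff_apply, h0, map_zero, add_zero] at this
    exact this
  have hD0 : D.constantCoeff = 1 := by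
    rw [← coeff_zero_eq_constantCoeff_apply, hD, coeff_mk, zero_add, h1]
  have hU' : U * PowerSeries.expand N hN D = D ^ N := by
    apply PowerSeries.X_pow_mul_cancel (k := N)
    rw [hT, map_mul, expand_X, mul_pow] at hU
    rw [← hU]; ring
  refine ⟨?_, ?_⟩
  · have := congrArg PowerSeries.constantCoeff hU'
    rw [map_mul, constantCoeff_expand, hD0, mul_one, map_pow, hD0, one_pow] at this
    rw [coeff_zero_eq_constantCoeff_apply]; exact this
  · intro P hP
    set DZ : PowerSeries ℤ := PowerSeries.mk fun p => P.coeff (p + 1) with hDZ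
    have hDZmap : DZ.map (Int.castRingHom ℂ) = D := by
      ext n
      rw [coeff_map, hDZ, hD, coeff_mk, coeff_mk, ← hP, coeff_map]
    have hDZ0 : DZ.constantCoeff = 1 := by
      have : ((DZ.constantCoeff : ℤ) : ℂ) = 1 := by
        rw [← hD0, ← hDZmap, ← coeff_zero_eq_constantCoeff_apply, ← coeff_zero_eq_constantCoeff_apply,
          coeff_map]
        rfl
      exact_mod_cast this
    set E : PowerSeries ℤ := PowerSeries.expand N hN DZ with hE
    have hE0 : E.constantCoeff = ((1 : ℤˣ) : ℤ) := by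
      rw [hE, constantCoeff_expand, hDZ0]; rfl
    refine ⟨DZ ^ N * E.invOfUnit 1, ?_, ?_⟩
    · rw [map_mul, map_pow, hDZ0, one_pow, one_mul, constantCoeff_invOfUnit]; rfl
    · have hEmap : E.map (Int.castRingHom ℂ) = PowerSeries.expand N hN D := by
        rw [hE, map_expand, hDZmap]
      have hEne : PowerSeries.expand N hN D ≠ 0 := by
        intro h
        have := congrArg PowerSeries.constantCoeff h
        rw [constantCoeff_expand, hD0, map_zero] at this
        exact one_ne_zero this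
      apply mul_right_cancel₀ hEne
      rw [hU', ← hEmap, ← map_mul, mul_assoc, mul_comm (E.invOfUnit 1), mul_invOfUnit E 1 hE0,
        mul_one, map_pow, hDZmap]

end PowerSeriesAlgebra

/-! ### Main results -/

lemma mdiff_uFun (N : ℕ) [NeZero N] : MDiff (uFun N) :=
  (mdiff_discriminant.pow N).div (mdiff_comp_scale N mdiff_discriminant)
    (fun z => discriminant_ne_zero (scale N z))

lemma analyticAt_cuspFunction_uFun (N : ℕ) [NeZero N] :
    AnalyticAt ℂ (cuspFunction 1 (uFun N)) 0 :=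
  analyticAt_cuspFunction_zero one_pos (periodic_uFun N) (mdiff_uFun N)
    (isBoundedAtImInfty_uFun N)

lemma uFun_mul_eq (N : ℕ) [NeZero N] :
    uFun N * (fun z : ℍ => Δ (scale N z)) = fun z : ℍ => Δ z ^ N := by
  ext z
  simp only [Pi.mul_apply, uFun]
  exact div_mul_cancel₀ _ (discriminant_ne_zero _)

lemma qExpansion_uFun_mul (N : ℕ) [NeZero N] :
    qExpansion 1 (uFun N) * PowerSeries.expand N (NeZero.ne N) (qExpansion 1 Δ) =
      (qExpansion 1 Δ) ^ N := by
  rw [← qExpansion_discriminant_pow, ← uFun_mul_eq N,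
    ← qExpansion_comp_scale N periodic_discriminant mdiff_discriminant
      isBoundedAtImInfty_discriminant]
  refine (qExpansion_mul (analyticAt_cuspFunction_uFun N) ?_).symm
  exact analyticAt_cuspFunction_zero one_pos (periodic_comp_scale N periodic_discriminant)
    (mdiff_comp_scale N mdiff_discriminant)
    (isBoundedAtImInfty_comp_scale N isBoundedAtImInfty_discriminant)

/-- The constant term of the `q`-expansion of `u` is `1`. -/
theorem qExpansion_uFun_coeff_zero (N : ℕ) [NeZero N] :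
    (qExpansion 1 (uFun N)).coeff 0 = 1 :=
  (exists_int_of_mul_expand_eq_pow N (NeZero.ne N) _ _ qExpansion_discriminant_coeff_zero
    discriminant_qExpansion_coeff_one (qExpansion_uFun_mul N)).1

/-- If the `q`-expansion of `Δ` is integral, then so is the `q`-expansion of `u`, and its
constant term is `1`. -/
theorem exists_int_qExpansion_uFun (N : ℕ) [NeZero N]
    (hΔ : ∃ P : PowerSeries ℤ, P.map (Int.castRingHom ℂ) = qExpansion 1 Δ) :
    ∃ Q : PowerSeries ℤ, Q.constantCoeff = 1 ∧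
      Q.map (Int.castRingHom ℂ) = qExpansion 1 (uFun N) := by
  obtain ⟨P, hP⟩ := hΔ
  exact (exists_int_of_mul_expand_eq_pow N (NeZero.ne N) _ _ qExpansion_discriminant_coeff_zero
    discriminant_qExpansion_coeff_one (qExpansion_uFun_mul N)).2 P hP

/-- `u` tends to `1` at `i∞`. -/
theorem tendsto_uFun (N : ℕ) [NeZero N] : Tendsto (uFun N) atImInfty (𝓝 1) := by
  have han := analyticAt_cuspFunction_uFun N
  have h0 : cuspFunction 1 (uFun N) 0 = 1 := by
    have := qExpansion_uFun_coeff_zero N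
    rw [qExpansion_coeff] at this
    simpa using this
  have hcomp : (cuspFunction 1 (uFun N) ∘ fun τ : ℍ ↦ 𝕢 1 τ) = uFun N := by
    funext τ
    simpa using eq_cuspFunction τ one_ne_zero (periodic_uFun N)
  have := han.continuousAt.tendsto.comp (qParam_tendsto_atImInfty one_pos)
  rw [h0, hcomp] at this
  exact this

/-- `u` as a modular form on `Γ₀(N)`, given boundedness of all its `SL(2, ℤ)`-translates at
`i∞`. -/
noncomputable def uForm (N : ℕ) [NeZero N]
    (hbdd : ∀ γ : SL(2, ℤ), IsBoundedAtImInfty (uFun N ∣[12 * ((N : ℤ) - 1)] γ)) :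
    ModularForm (Gamma0 N) (12 * ((N : ℤ) - 1)) where
  toSlashInvariantForm := uSIF N
  holo' := mdiff_uFun N
  bdd_at_cusps' {c} hc := by
    rw [Subgroup.IsArithmetic.isCusp_iff_isCusp_SL2Z] at hc
    rw [OnePoint.isBoundedAt_iff_forall_SL2Z hc]
    intro γ _
    exact hbdd γ

@[simp] lemma coe_uForm (N : ℕ) [NeZero N]
    (hbdd : ∀ γ : SL(2, ℤ), IsBoundedAtImInfty (uFun N ∣[12 * ((N : ℤ) - 1)] γ)) :
    (uForm N hbdd : ℍ → ℂ) = uFun N := rfl

end Fermat.Agent.S23.UFunction
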