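import Fermat.Agent.S23.Defs
import Fermat.Prelude.Thm_CongruenceSubgroup_one_mem_strictPeriods_Gamma0
import Fermat.Prelude.Thm_UpperHalfPlane_qExpansion_coeff_nat_mul

set_option autoImplicit false

namespace Fermat.Agent.S23

open UpperHalfPlane ModularForm CongruenceSubgroup SlashInvariantForm
open scoped MatrixGroups ModularForm Manifold

variable {N : ℕ} [NeZero N] {k w : ℤ}

/-- functions on ℍ that are `h`-periodic, holomorphic and bounded at `i∞`. -/
def PerAlg (h : ℝ) : Subalgebra ℂ (ℍ → ℂ) where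
  carrier := {F | Function.Periodic (F ∘ ofComplex) h ∧ MDiff F ∧ IsBoundedAtImInfty F}
  mul_mem' := by
    rintro F G ⟨hF1, hF2, hF3⟩ ⟨hG1, hG2, hG3⟩
    refine ⟨?_, hF2.mul hG2, hF3.mul hG3⟩
    intro z
    simp only [Function.comp_apply, Pi.mul_apply]
    have h1 := hF1 z
    have h2 := hG1 z
    simp only [Function.comp_apply] at h1 h2
    rw [h1, h2]
  add_mem' := by
    rintro F G ⟨hF1, hF2, hF3⟩ ⟨hG1, hG2, hG3⟩
    refine ⟨?_, hF2.add hG2, hF3.add hG3⟩
    intro z
    simp only [Function.comp_apply, Pi.add_apply]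
    have h1 := hF1 z
    have h2 := hG1 z
    simp only [Function.comp_apply] at h1 h2
    rw [h1, h2]
  algebraMap_mem' := by
    intro r
    refine ⟨fun z => rfl, mdifferentiable_const, ?_⟩
    exact Filter.const_boundedAtFilter _ r

theorem mem_PerAlg {h : ℝ} {F : ℍ → ℂ} :
    F ∈ PerAlg h ↔ Function.Periodic (F ∘ ofComplex) h ∧ MDiff F ∧ IsBoundedAtImInfty F :=
  Iff.rfl

theorem PerAlg.analyticAt {h : ℝ} (hh : 0 < h) {F : ℍ → ℂ} (hF : F ∈ PerAlg h) :
    AnalyticAt ℂ (cuspFunction h F) 0 :=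
  analyticAt_cuspFunction_zero hh hF.1 hF.2.1 hF.2.2

noncomputable def qExpHom (h : ℝ) (hh : 0 < h) : PerAlg h →ₐ[ℂ] PowerSeries ℂ where
  toFun F := qExpansion h (F : ℍ → ℂ)
  map_one' := qExpansion_one h
  map_mul' F G := qExpansion_mul (PerAlg.analyticAt hh F.2) (PerAlg.analyticAt hh G.2)
  map_zero' := qExpansion_zero h
  map_add' F G := qExpansion_add (PerAlg.analyticAt hh F.2) (PerAlg.analyticAt hh G.2)
  commutes' r := by
    have h1 : ((algebraMap ℂ (PerAlg h) r : PerAlg h) : ℍ → ℂ) = r • (1 : ℍ → ℂ) := by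
      funext z
      simp [Algebra.algebraMap_eq_smul_one]
    have h2 : AnalyticAt ℂ (cuspFunction h (1 : ℍ → ℂ)) 0 :=
      PerAlg.analyticAt hh (one_mem (PerAlg h))
    show qExpansion h ((algebraMap ℂ (PerAlg h) r : PerAlg h) : ℍ → ℂ) = _
    rw [h1, qExpansion_smul h2, qExpansion_one, Algebra.algebraMap_eq_smul_one]

theorem qExpHom_apply (h : ℝ) (hh : 0 < h) (F : PerAlg h) :
    qExpHom h hh F = qExpansion h (F : ℍ → ℂ) := rfl

theorem qExpHom_injective (h : ℝ) (hh : 0 < h) : Function.Injective (qExpHom h hh) := by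
  refine (injective_iff_map_eq_zero _).mpr fun F hF => ?_
  rw [qExpHom_apply] at hF
  exact Subtype.ext ((qExpansion_eq_zero_iff hh F.2.1 F.2.2.1 F.2.2.2).mp hF)

theorem one_mem_strictPeriods_G0 (N : ℕ) : (1 : ℝ) ∈ (G0 N).strictPeriods :=
  CongruenceSubgroup.one_mem_strictPeriods_Gamma0 N

omit [NeZero N] in
theorem coe_mem_PerAlg_one {F : Type*} [FunLike F ℍ ℂ] [ModularFormClass F (G0 N) k] (f : F) :
    (f : ℍ → ℂ) ∈ PerAlg 1 := by
  have hΓ := one_mem_strictPeriods_G0 N
  have : Fact (IsCusp OnePoint.infty (G0 N)) :=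
    ⟨(G0 N).isCusp_of_mem_strictPeriods one_pos hΓ⟩
  exact ⟨SlashInvariantFormClass.periodic_comp_ofComplex f hΓ, ModularFormClass.holo f,
    ModularFormClass.bdd_at_infty f⟩

/-- a `1`-periodic function is also `M`-periodic. -/
theorem PerAlg_one_le (M : ℕ) : PerAlg 1 ≤ PerAlg (M : ℝ) := by
  rintro F ⟨hF1, hF2, hF3⟩
  refine ⟨?_, hF2, hF3⟩
  have := hF1.nat_mul M
  simpa using this

/-- the `q`-expansion with respect to the period `M` of a `1`-periodic function is obtained from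
the `q`-expansion for the period `1` by `X ↦ X ^ M`. -/
theorem qExpansion_natCast_eq_expand {F : ℍ → ℂ} (hF : F ∈ PerAlg 1) {M : ℕ} (hM : M ≠ 0) :
    qExpansion (M : ℝ) F = (qExpansion 1 F).expand M hM := by
  ext n
  rw [PowerSeries.coeff_expand]
  have := UpperHalfPlane.qExpansion_coeff_nat_mul (h := 1) one_pos hF.1 hF.2.1 hF.2.2
    (Nat.pos_of_ne_zero hM) n
  rw [mul_one] at this
  exact this

theorem qExpansion_natCast_coeff {F : ℍ → ℂ} (hF : F ∈ PerAlg 1) {M : ℕ} (hM : M ≠ 0) (n : ℕ) :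
    (qExpansion (M : ℝ) F).coeff n = if M ∣ n then (qExpansion 1 F).coeff (n / M) else 0 := by
  rw [qExpansion_natCast_eq_expand hF hM, PowerSeries.coeff_expand]

/-- the inclusion of `1`-periodic functions into `M`-periodic ones, on `q`-expansions. -/
theorem qExpHom_inclusion {M : ℕ} (hM : M ≠ 0) (F : PerAlg 1) :
    qExpHom (M : ℝ) (by exact_mod_cast Nat.pos_of_ne_zero hM)
      (Subalgebra.inclusion (PerAlg_one_le M) F) = (qExpHom 1 one_pos F).expand M hM := by
  rw [qExpHom_apply, qExpHom_apply]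
  exact qExpansion_natCast_eq_expand F.2 hM

/-- the constant coefficient of the `q`-expansion is the value at infinity. -/
theorem PerAlg.coeff_zero {h : ℝ} (hh : 0 < h) {F : ℍ → ℂ} (hF : F ∈ PerAlg h) :
    (qExpansion h F).coeff 0 = valueAtInfty F :=
  qExpansion_coeff_zero hh (PerAlg.analyticAt hh hF) hF.1

/-- a function in `PerAlg h` tends to the constant coefficient of its `q`-expansion. -/
theorem PerAlg.tendsto_coeff_zero {h : ℝ} (hh : 0 < h) {F : ℍ → ℂ} (hF : F ∈ PerAlg h) :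
    Filter.Tendsto F atImInfty (nhds ((qExpansion h F).coeff 0)) := by
  have hana := PerAlg.analyticAt hh hF
  have hcomp : (cuspFunction h F ∘ fun τ : ℍ ↦ Function.Periodic.qParam h τ : ℍ → ℂ) = F := by
    funext τ
    simpa using eq_cuspFunction τ hh.ne' hF.1
  have h0 : (qExpansion h F).coeff 0 = cuspFunction h F 0 := by
    simp [qExpansion_coeff]
  rw [h0]
  have := hana.continuousAt.tendsto.comp (qParam_tendsto_atImInfty hh)
  rwa [hcomp] at this

end Fermat.Agent.S23
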