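import Mathlib

set_option autoImplicit false

namespace Fermat.Agent.S23

open MvPolynomial

section Aut

variable {R K : Type*} [Field R] [Field K] [Algebra R K] [IsAlgClosed K]

theorem exists_ringEquiv_of_transcendenceBasis {ι : Type*} (v : ι → K)
    (hv : IsTranscendenceBasis R v) (e : MvPolynomial ι R ≃+* MvPolynomial ι R) :
    ∃ σ : K ≃+* K, ∀ p : MvPolynomial ι R, σ (aeval v p) = aeval v (e p) := by
  let _ := IsAlgClosed.isAlgClosure_of_transcendence_basis v hv
  let E : MvPolynomial ι R ≃ₐ[R] Algebra.adjoin R (Set.range v) := hv.1.aevalEquiv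
  let e' : Algebra.adjoin R (Set.range v) ≃+* Algebra.adjoin R (Set.range v) :=
    E.symm.toRingEquiv.trans (e.trans E.toRingEquiv)
  refine ⟨IsAlgClosure.equivOfEquiv K K e', fun p => ?_⟩
  have h1 : aeval v p = algebraMap (Algebra.adjoin R (Set.range v)) K (E p) :=
    (hv.1.algebraMap_aevalEquiv p).symm
  have h2 : aeval v (e p) = algebraMap (Algebra.adjoin R (Set.range v)) K (E (e p)) :=
    (hv.1.algebraMap_aevalEquiv (e p)).symm
  rw [h1, h2, IsAlgClosure.equivOfEquiv_algebraMap]
  congr 1
  simp [e']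

/-- translation automorphism of a polynomial ring -/
noncomputable def shiftEquiv (ι : Type*) (R : Type*) [CommRing R] :
    MvPolynomial ι R ≃ₐ[R] MvPolynomial ι R :=
  AlgEquiv.ofAlgHom (aeval fun i => X i + 1) (aeval fun i => X i - 1)
    (by ext i; simp) (by ext i; simp)

theorem shiftEquiv_X (ι : Type*) (R : Type*) [CommRing R] (i : ι) :
    shiftEquiv ι R (X i) = X i + 1 := by
  simp [shiftEquiv]

theorem exists_ringEquiv_ne_of_transcendental (x : K) (hx : Transcendental R x) :
    ∃ σ : K ≃+* K, σ x ≠ x := by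
  have hind : AlgebraicIndepOn R id ({x} : Set K) := by
    have : AlgebraicIndependent R (fun i : ({x} : Set K) => id (i : K)) := by
      rw [algebraicIndependent_unique_type_iff]
      simpa using hx
    exact this
  obtain ⟨t, hst, ht⟩ := exists_isTranscendenceBasis_superset hind
  obtain ⟨σ, hσ⟩ := exists_ringEquiv_of_transcendenceBasis (R := R) ((↑) : t → K) ht
    (shiftEquiv t R).toRingEquiv
  refine ⟨σ, ?_⟩
  have hxt : x ∈ t := hst rfl
  have := hσ (X ⟨x, hxt⟩)
  simp only [aeval_X, AlgEquiv.coe_ringEquiv, shiftEquiv_X, map_add, map_one] at this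
  rw [this]
  simp

theorem exists_ringEquiv_ne_of_isAlgebraic [CharZero R] (x : K) (hx : IsAlgebraic R x)
    (hx' : x ∉ Set.range (algebraMap R K)) :
    ∃ σ : K ≃+* K, σ x ≠ x := by
  let A := algebraicClosure R K
  have hxA : x ∈ A := mem_algebraicClosure_iff.mpr hx
  have hnot : (⟨x, hxA⟩ : A) ∉ Set.range (algebraMap R A) := by
    rintro ⟨r, hr⟩
    exact hx' ⟨r, by simpa using congrArg (algebraMap A K) hr⟩
  rw [InfiniteGalois.mem_range_algebraMap_iff_fixed, not_forall] at hnot
  obtain ⟨f, hf⟩ := hnot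
  obtain ⟨ι, v, hv⟩ := exists_isTranscendenceBasis' A K
  obtain ⟨σ, hσ⟩ := exists_ringEquiv_of_transcendenceBasis (R := A) v hv
    (MvPolynomial.mapEquiv ι f.toRingEquiv)
  refine ⟨σ, ?_⟩
  have := hσ (C ⟨x, hxA⟩)
  simp only [aeval_C, mapEquiv_apply, map_C] at this
  intro h
  apply hf
  apply Subtype.ext
  have h3 : (algebraMap A K) (⟨x, hxA⟩ : A) = x := rfl
  rw [h3] at this
  rw [h] at this
  exact this.symm

theorem exists_ringEquiv_ne [CharZero R] (x : K) (hx' : x ∉ Set.range (algebraMap R K)) :
    ∃ σ : K ≃+* K, σ x ≠ x := by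
  by_cases hx : IsAlgebraic R x
  · exact exists_ringEquiv_ne_of_isAlgebraic x hx hx'
  · exact exists_ringEquiv_ne_of_transcendental (R := R) x hx

end Aut

section Descent

variable {K : Type*} [Field K] {I : Type*}

theorem exists_coord_basis (W : Submodule K (I → K)) [FiniteDimensional K W] :
    ∃ (n : ℕ) (c : Fin n → I) (b : Fin n → W),
      (∀ j l, ((b j : W) : I → K) (c l) = if j = l then 1 else 0) ∧
      (∀ w : W, w = ∑ j, (((w : W) : I → K) (c j)) • b j) := by
  classical
  let φ : I → Module.Dual K W := fun i => (LinearMap.proj i).comp W.subtype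
  have hφ : ∀ i (w : W), φ i w = (w : I → K) i := fun i w => rfl
  have hco : (Submodule.span K (Set.range φ)).dualCoannihilator = ⊥ := by
    rw [eq_bot_iff]
    intro w hw
    rw [Submodule.mem_dualCoannihilator] at hw
    rw [Submodule.mem_bot]
    apply Subtype.ext
    funext i
    have := hw (φ i) (Submodule.subset_span ⟨i, rfl⟩)
    simpa [hφ] using this
  have hspan : Submodule.span K (Set.range φ) = ⊤ := by
    apply Submodule.eq_top_of_finrank_eq
    have h := Subspace.finrank_add_finrank_dualCoannihilator_eq (Submodule.span K (Set.range φ))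
    rw [hco, finrank_bot, add_zero] at h
    rw [h, Subspace.dual_finrank_eq]
  obtain ⟨s, hs_sub, hs_span, hs_li⟩ := exists_linearIndependent K (Set.range φ)
  have hs_top : ⊤ ≤ Submodule.span K (Set.range ((↑) : s → Module.Dual K W)) := by
    rw [Subtype.range_coe, hs_span, hspan]
  let B : Module.Basis s K (Module.Dual K W) := Module.Basis.mk hs_li hs_top
  have hB : ∀ β : s, B β = (β : Module.Dual K W) := fun β => by simp [B]
  have : Fintype s := FiniteDimensional.fintypeBasisIndex B
  let b' : Module.Basis s K W := B.dualBasis.map (Module.evalEquiv K W).symm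
  have hb' : ∀ β β' : s, (β' : Module.Dual K W) (b' β) = if β = β' then 1 else 0 := by
    intro β β'
    have h1 : Module.evalEquiv K W (b' β) = B.dualBasis β := by simp [b']
    have h2 := congrArg (fun ψ => ψ (B β')) h1
    simp only [Module.evalEquiv_apply, Module.Dual.eval_apply] at h2
    rw [hB] at h2
    rw [h2, ← hB β', Module.Basis.dualBasis_apply_self]
    simp only [eq_comm]
  -- choose indices
  have hidx : ∀ β : s, ∃ i : I, φ i = (β : Module.Dual K W) := fun β => hs_sub β.2
  choose idx hidx using hidx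
  let e := Fintype.equivFin s
  refine ⟨Fintype.card s, fun l => idx (e.symm l), fun j => b' (e.symm j), ?_, ?_⟩
  · intro j l
    have := hb' (e.symm j) (e.symm l)
    rw [← hidx (e.symm l), hφ] at this
    rw [this]
    simp
  · intro w
    have hw := b'.sum_repr w
    have hrepr : ∀ β : s, b'.repr w β = ((w : W) : I → K) (idx β) := by
      intro β
      have h3 : (β : Module.Dual K W) w = (β : Module.Dual K W) (∑ i, b'.repr w i • b' i) := by
        rw [hw]
      rw [map_sum] at h3
      simp only [map_smul, smul_eq_mul, hb'] at h3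
      simp only [mul_ite, mul_one, mul_zero, Finset.sum_ite_eq', Finset.mem_univ, if_true] at h3
      rw [← h3, ← hidx β, hφ]
    conv_lhs => rw [← hw]
    rw [← e.symm.sum_comp]
    apply Finset.sum_congr rfl
    intro j _
    rw [hrepr]

theorem span_fixed_eq_of_stable (W : Submodule K (I → K)) [FiniteDimensional K W]
    (hW : ∀ (σ : K ≃+* K), ∀ w ∈ W, (fun i => σ (w i)) ∈ W) :
    Submodule.span K {w : I → K | w ∈ W ∧ ∀ (σ : K ≃+* K) (i : I), σ (w i) = w i} = W := by
  classical
  apply le_antisymm
  · exact Submodule.span_le.mpr fun w hw => hw.1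
  obtain ⟨n, c, b, hb, hrepr⟩ := exists_coord_basis W
  have huniq : ∀ w : W, (∀ l, ((w : W) : I → K) (c l) = 0) → w = 0 := by
    intro w hw
    rw [hrepr w]
    simp [hw]
  have hfix : ∀ (j : Fin n) (σ : K ≃+* K) (i : I), σ (((b j : W) : I → K) i) = ((b j : W) : I → K) i := by
    intro j σ i
    let w' : W := ⟨fun i => σ (((b j : W) : I → K) i), hW σ _ (b j).2⟩
    have h0 : w' - b j = 0 := by
      apply huniq
      intro l
      show σ (((b j : W) : I → K) (c l)) - ((b j : W) : I → K) (c l) = 0
      rw [hb]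
      split_ifs <;> simp
    have h1 : w' = b j := sub_eq_zero.mp h0
    have h2 := congrArg (fun w : W => (w : I → K) i) h1
    exact h2
  intro w hw
  have := hrepr ⟨w, hw⟩
  have h3 : w = ∑ j, (w (c j)) • ((b j : W) : I → K) := by
    have h4 := congrArg (fun w : W => (w : I → K)) this
    simpa using h4
  rw [h3]
  apply Submodule.sum_mem
  intro j _
  apply Submodule.smul_mem
  apply Submodule.subset_span
  exact ⟨(b j).2, fun σ i => hfix j σ i⟩

end Descent

theorem span_rational_eq_of_stable {I : Type*} (W : Submodule ℂ (I → ℂ)) [FiniteDimensional ℂ W]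
    (hW : ∀ (σ : ℂ ≃+* ℂ), ∀ w ∈ W, (fun i => σ (w i)) ∈ W) :
    Submodule.span ℂ {w : I → ℂ | w ∈ W ∧ ∀ i : I, ∃ r : ℚ, w i = (r : ℂ)} = W := by
  apply le_antisymm
  · exact Submodule.span_le.mpr fun w hw => hw.1
  · conv_lhs => rw [← span_fixed_eq_of_stable W hW]
    apply Submodule.span_mono
    rintro w ⟨hw, hfix⟩
    refine ⟨hw, fun i => ?_⟩
    by_contra hcon
    have hx : w i ∉ Set.range (algebraMap ℚ ℂ) := by
      rintro ⟨r, hr⟩
      exact hcon ⟨r, by rw [← hr]; rfl⟩
    obtain ⟨σ, hσ⟩ := exists_ringEquiv_ne (R := ℚ) (w i) hx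
    exact hσ (hfix σ i)

end Fermat.Agent.S23
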