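import Mathlib
import Fermat.Prelude.Def_CuspForm_IntegralStructure

/-!
Shared definitions for the S22/S23 project (integral structure of cusp forms on Gamma0(N)).
-/

set_option autoImplicit false

namespace Fermat.Agent.S23

open UpperHalfPlane ModularForm CongruenceSubgroup SlashInvariantForm
open scoped MatrixGroups ModularForm Manifold

/-- `Gamma0 N` viewed inside `GL (Fin 2) ℝ`. -/
abbrev G0 (N : ℕ) : Subgroup (GL (Fin 2) ℝ) :=
  ((Gamma0 N : Subgroup SL(2, ℤ)) : Subgroup (GL (Fin 2) ℝ))

/-- The coset space `SL(2,ℤ) / Gamma0 N` used by Mathlib's norm and trace maps. -/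
abbrev Q0 (N : ℕ) : Type := 𝒮ℒ ⧸ (G0 N).subgroupOf 𝒮ℒ

noncomputable instance instFintypeQ0 (N : ℕ) [NeZero N] : Fintype (Q0 N) := Fintype.ofFinite _

noncomputable instance instDecEqQ0 (N : ℕ) : DecidableEq (Q0 N) := Classical.decEq _

/-- The base coset (class of the identity). -/
def q0 (N : ℕ) : Q0 N := QuotientGroup.mk 1

/-- The number of cosets (the index of `Gamma0 N`). -/
noncomputable def mu (N : ℕ) : ℕ := Nat.card (Q0 N)

/-- A power series over `ℂ` all of whose coefficients are integers. -/
def IsIntPS (p : PowerSeries ℂ) : Prop := ∀ n : ℕ, ∃ m : ℤ, PowerSeries.coeff n p = (m : ℂ)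

/-- A power series over `ℂ` all of whose coefficients are rational. -/
def IsRatPS (p : PowerSeries ℂ) : Prop := ∀ n : ℕ, ∃ r : ℚ, PowerSeries.coeff n p = (r : ℂ)

/-- A power series over `ℂ` all of whose coefficients are algebraic integers. -/
def IsAlgIntPS (p : PowerSeries ℂ) : Prop := ∀ n : ℕ, IsIntegral ℤ (PowerSeries.coeff n p)

/-- A power series over `ℂ` all of whose coefficients are algebraic numbers. -/
def IsAlgPS (p : PowerSeries ℂ) : Prop := ∀ n : ℕ, IsAlgebraic ℚ (PowerSeries.coeff n p)

/-- Coefficientwise action of a ring automorphism of `ℂ` on power series. -/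
noncomputable abbrev conjPS (σ : ℂ ≃+* ℂ) (p : PowerSeries ℂ) : PowerSeries ℂ :=
  PowerSeries.map (σ : ℂ →+* ℂ) p

/-- The Lagrange denominator `∏_{q ≠ q0} (t - t_q)` attached to a modular form `t` on `Gamma0 N`,
the product running over the nontrivial cosets of `Gamma0 N` in `SL(2,ℤ)`. -/
noncomputable def lagrangeDen {N : ℕ} [NeZero N] {w : ℤ} (t : ModularForm (G0 N) w) : ℍ → ℂ :=
  fun z => ∏ q ∈ Finset.univ.erase (q0 N), (t z - quotientFunc t q z)

end Fermat.Agent.S23
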