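import Mathlib
import Fermat.Agent.S23.Defs

set_option autoImplicit false

namespace Fermat.Agent.S23

open Filter Topology

section RootBounds

/-- Cauchy type bound for a root of a monic polynomial relation. -/
theorem norm_le_one_add_sum_of_monic_root {n : ℕ} (a : Fin n → ℂ) (z : ℂ)
    (h : z ^ n + ∑ i, a i * z ^ (i : ℕ) = 0) : ‖z‖ ≤ 1 + ∑ i, ‖a i‖ := by
  by_cases hz : ‖z‖ ≤ 1
  · have : 0 ≤ ∑ i, ‖a i‖ := Finset.sum_nonneg fun i _ => norm_nonneg _
    linarith
  · have hz1 : 1 < ‖z‖ := lt_of_not_ge hz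
    have hz0 : 0 < ‖z‖ := lt_trans zero_lt_one hz1
    rcases Nat.eq_zero_or_pos n with hn | hn
    · subst hn
      simp at h
    have h1 : z ^ n = -∑ i, a i * z ^ (i : ℕ) := eq_neg_of_add_eq_zero_left h
    have h2 : ‖z‖ ^ n ≤ (∑ i, ‖a i‖) * ‖z‖ ^ (n - 1) := by
      calc ‖z‖ ^ n = ‖z ^ n‖ := (norm_pow z n).symm
        _ = ‖∑ i, a i * z ^ (i : ℕ)‖ := by rw [h1, norm_neg]
        _ ≤ ∑ i, ‖a i * z ^ (i : ℕ)‖ := norm_sum_le _ _
        _ ≤ ∑ i, ‖a i‖ * ‖z‖ ^ (n - 1) := by
            apply Finset.sum_le_sum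
            intro i _
            rw [norm_mul, norm_pow]
            apply mul_le_mul_of_nonneg_left _ (norm_nonneg _)
            exact pow_le_pow_right₀ hz1.le (by have := i.2; omega)
        _ = (∑ i, ‖a i‖) * ‖z‖ ^ (n - 1) := by rw [Finset.sum_mul]
    have h3 : ‖z‖ ^ n = ‖z‖ * ‖z‖ ^ (n - 1) := by
      rw [← pow_succ']
      congr 1
      omega
    rw [h3] at h2
    have h4 : ‖z‖ ≤ ∑ i, ‖a i‖ := le_of_mul_le_mul_right h2 (pow_pos hz0 _)
    linarith

/-- If all coefficients are at most `ε` and `n ε ≤ 1` then the root is small. -/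
theorem norm_pow_le_of_monic_root {n : ℕ} (a : Fin n → ℂ) (z : ℂ)
    (h : z ^ n + ∑ i, a i * z ^ (i : ℕ) = 0) (ε : ℝ) (ha : ∀ i, ‖a i‖ ≤ ε)
    (hε : (n : ℝ) * ε ≤ 1) : ‖z‖ ^ n ≤ n * ε := by
  have h1 : z ^ n = -∑ i, a i * z ^ (i : ℕ) := eq_neg_of_add_eq_zero_left h
  have hz1 : ‖z‖ ≤ 1 := by
    have := norm_le_one_add_sum_of_monic_root a z h
    by_contra hz
    have hz1 : 1 < ‖z‖ := lt_of_not_ge hz
    have hz0 : 0 < ‖z‖ := lt_trans zero_lt_one hz1
    rcases Nat.eq_zero_or_pos n with hn | hn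
    · subst hn
      simp at h
    have h2 : ‖z‖ ^ n ≤ (n * ε) * ‖z‖ ^ (n - 1) := by
      calc ‖z‖ ^ n = ‖z ^ n‖ := (norm_pow z n).symm
        _ = ‖∑ i, a i * z ^ (i : ℕ)‖ := by rw [h1, norm_neg]
        _ ≤ ∑ i, ‖a i * z ^ (i : ℕ)‖ := norm_sum_le _ _
        _ ≤ ∑ _i : Fin n, ε * ‖z‖ ^ (n - 1) := by
            apply Finset.sum_le_sum
            intro i _
            rw [norm_mul, norm_pow]
            apply mul_le_mul (ha i) _ (pow_nonneg (norm_nonneg _) _)
              (le_trans (norm_nonneg _) (ha i))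
            exact pow_le_pow_right₀ hz1.le (by have := i.2; omega)
        _ = (n * ε) * ‖z‖ ^ (n - 1) := by
            rw [Finset.sum_const, Finset.card_univ, Fintype.card_fin, nsmul_eq_mul, mul_assoc]
    have h3 : ‖z‖ ^ n = ‖z‖ * ‖z‖ ^ (n - 1) := by
      rw [← pow_succ']
      congr 1
      omega
    rw [h3] at h2
    have h4 : ‖z‖ ≤ n * ε := le_of_mul_le_mul_right h2 (pow_pos hz0 _)
    linarith
  calc ‖z‖ ^ n = ‖z ^ n‖ := (norm_pow z n).symm
    _ = ‖∑ i, a i * z ^ (i : ℕ)‖ := by rw [h1, norm_neg]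
    _ ≤ ∑ i, ‖a i * z ^ (i : ℕ)‖ := norm_sum_le _ _
    _ ≤ ∑ _i : Fin n, ε := by
        apply Finset.sum_le_sum
        intro i _
        rw [norm_mul, norm_pow]
        calc ‖a i‖ * ‖z‖ ^ (i : ℕ) ≤ ε * 1 :=
              mul_le_mul (ha i) (pow_le_one₀ (norm_nonneg _) hz1)
                (pow_nonneg (norm_nonneg _) _) (le_trans (norm_nonneg _) (ha i))
          _ = ε := mul_one ε
    _ = n * ε := by
        rw [Finset.sum_const, Finset.card_univ, Fintype.card_fin, nsmul_eq_mul]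

theorem tendsto_zero_of_monic_root {α : Type*} {l : Filter α} {n : ℕ} (hn : 0 < n)
    (a : Fin n → α → ℂ) (F : α → ℂ)
    (h : ∀ᶠ x in l, F x ^ n + ∑ i, a i x * F x ^ (i : ℕ) = 0)
    (ha : ∀ i, Tendsto (a i) l (𝓝 0)) : Tendsto F l (𝓝 0) := by
  rw [tendsto_zero_iff_norm_tendsto_zero, Metric.tendsto_nhds]
  intro ε hε
  set δ : ℝ := min 1 (ε ^ n) / (2 * n) with hδ
  have hnpos : (0 : ℝ) < n := Nat.cast_pos.mpr hn
  have hmin : 0 < min 1 (ε ^ n) := lt_min one_pos (pow_pos hε n)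
  have hδpos : 0 < δ := div_pos hmin (by positivity)
  have hnδ : (n : ℝ) * δ = min 1 (ε ^ n) / 2 := by
    rw [hδ]
    field_simp
  have hev : ∀ᶠ x in l, ∀ i, ‖a i x‖ ≤ δ := by
    rw [Filter.eventually_all]
    intro i
    have := (tendsto_zero_iff_norm_tendsto_zero.mp (ha i))
    exact (this.eventually (gt_mem_nhds hδpos)).mono fun x hx => le_of_lt hx
  filter_upwards [h, hev] with x hx hax
  have h1 : (n : ℝ) * δ ≤ 1 := by
    rw [hnδ]
    have : min 1 (ε ^ n) ≤ 1 := min_le_left _ _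
    linarith
  have h2 := norm_pow_le_of_monic_root (fun i => a i x) (F x) hx δ hax h1
  have h3 : ‖F x‖ ^ n < ε ^ n := by
    calc ‖F x‖ ^ n ≤ n * δ := h2
      _ = min 1 (ε ^ n) / 2 := hnδ
      _ < min 1 (ε ^ n) := by linarith
      _ ≤ ε ^ n := min_le_right _ _
  have h4 : ‖F x‖ < ε := lt_of_pow_lt_pow_left₀ n hε.le h3
  simpa using h4

theorem boundedAtFilter_of_monic_root {α : Type*} {l : Filter α} {n : ℕ}
    (a : Fin n → α → ℂ) (F : α → ℂ)
    (h : ∀ᶠ x in l, F x ^ n + ∑ i, a i x * F x ^ (i : ℕ) = 0)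
    (ha : ∀ i, BoundedAtFilter l (a i)) : BoundedAtFilter l F := by
  have hb : ∀ i, ∃ c : ℝ, ∀ᶠ x in l, ‖a i x‖ ≤ c := fun i => by
    obtain ⟨c, hc⟩ := (Asymptotics.isBigO_iff.mp (ha i))
    exact ⟨c, hc.mono fun x hx => by simpa using hx⟩
  choose c hc using hb
  have hev : ∀ᶠ x in l, ∀ i, ‖a i x‖ ≤ c i := by
    rw [Filter.eventually_all]
    exact hc
  refine Asymptotics.isBigO_iff.mpr ⟨1 + ∑ i, c i, ?_⟩
  filter_upwards [h, hev] with x hx hax
  have h1 := norm_le_one_add_sum_of_monic_root (fun i => a i x) (F x) hx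
  have h2 : ∑ i, ‖a i x‖ ≤ ∑ i, c i := Finset.sum_le_sum fun i _ => hax i
  simp only [Pi.one_apply, norm_one, mul_one]
  linarith

end RootBounds

section Removable

/-- A quotient of holomorphic functions on a connected open set which is integral over the
holomorphic functions (off the zeros of the denominator) extends holomorphically. -/
theorem exists_differentiableOn_of_integral {U : Set ℂ} (hU : IsOpen U) (hUc : IsPreconnected U)
    {n : ℕ} (num den : ℂ → ℂ) (a : Fin n → ℂ → ℂ)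
    (hnum : DifferentiableOn ℂ num U) (hden : DifferentiableOn ℂ den U)
    (ha : ∀ i, ContinuousOn (a i) U)
    (hden0 : ∃ z ∈ U, den z ≠ 0)
    (hrel : ∀ z ∈ U, den z ≠ 0 →
      (num z / den z) ^ n + ∑ i, a i z * (num z / den z) ^ (i : ℕ) = 0) :
    ∃ G : ℂ → ℂ, DifferentiableOn ℂ G U ∧ (∀ z ∈ U, G z * den z = num z) ∧
      (∀ z ∈ U, den z ≠ 0 → G z = num z / den z) ∧
      ∀ z ∈ U, G z ^ n + ∑ i, a i z * G z ^ (i : ℕ) = 0 := by
  classical
  set F : ℂ → ℂ := fun z => num z / den z with hF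
  let G : ℂ → ℂ := fun z => if den z = 0 then limUnder (𝓝[≠] z) F else F z
  have hGF : ∀ z, den z ≠ 0 → G z = F z := fun z hz => if_neg hz
  -- differentiability of F at good points
  have hFdiff : ∀ z ∈ U, den z ≠ 0 → DifferentiableAt ℂ F z := fun z hz hdz =>
    ((hnum z hz).differentiableAt (hU.mem_nhds hz)).div
      ((hden z hz).differentiableAt (hU.mem_nhds hz)) hdz
  have hdencont : ∀ z ∈ U, ContinuousAt den z := fun z hz =>
    ((hden z hz).differentiableAt (hU.mem_nhds hz)).continuousAt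
  -- key local statement
  have hlocal : ∀ z₀ ∈ U, ∃ s ∈ 𝓝 z₀, s ⊆ U ∧ DifferentiableOn ℂ G s := by
    intro z₀ hz₀
    by_cases hd0 : den z₀ = 0
    · -- isolated zero
      have han : AnalyticAt ℂ den z₀ := hden.analyticAt (hU.mem_nhds hz₀)
      rcases han.eventually_eq_zero_or_eventually_ne_zero with h0 | hne
      · exfalso
        have hzero := (hden.analyticOnNhd hU).eqOn_zero_of_preconnected_of_eventuallyEq_zero
          hUc hz₀ h0
        obtain ⟨z, hz, hdz⟩ := hden0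
        exact hdz (hzero hz)
      · -- den ≠ 0 on a punctured neighbourhood
        have hne' : ∀ᶠ z in 𝓝 z₀, z ≠ z₀ → den z ≠ 0 := by
          rw [eventually_nhdsWithin_iff] at hne
          exact hne.mono fun z hz hzz => hz hzz
        have hbd : ∀ i, ∀ᶠ z in 𝓝 z₀, ‖a i z‖ ≤ ‖a i z₀‖ + 1 := fun i => by
          have hc : ContinuousAt (a i) z₀ := (ha i).continuousAt (hU.mem_nhds hz₀)
          have : ∀ᶠ z in 𝓝 z₀, ‖a i z‖ < ‖a i z₀‖ + 1 :=
            (hc.norm).eventually (gt_mem_nhds (by linarith))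
          exact this.mono fun z hz => hz.le
        have hbd' : ∀ᶠ z in 𝓝 z₀, ∀ i, ‖a i z‖ ≤ ‖a i z₀‖ + 1 := by
          rw [Filter.eventually_all]
          exact hbd
        have hUn : ∀ᶠ z in 𝓝 z₀, z ∈ U := hU.mem_nhds hz₀
        obtain ⟨s, hs, hsopen, hz₀s⟩ :=
          eventually_nhds_iff.mp (hne'.and (hbd'.and hUn))
        have hsnhds : s ∈ 𝓝 z₀ := hsopen.mem_nhds hz₀s
        have hsU : s ⊆ U := fun z hz => (hs z hz).2.2
        refine ⟨s, hsnhds, hsU, ?_⟩
        have hFs : DifferentiableOn ℂ F (s \ {z₀}) := fun z hz =>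
          (hFdiff z (hsU hz.1) ((hs z hz.1).1 (by simpa using hz.2))).differentiableWithinAt
        have hbound : BddAbove (norm ∘ F '' (s \ {z₀})) := by
          refine ⟨1 + ∑ i, (‖a i z₀‖ + 1), ?_⟩
          rintro _ ⟨z, hz, rfl⟩
          have hdz : den z ≠ 0 := (hs z hz.1).1 (by simpa using hz.2)
          have hr := hrel z (hsU hz.1) hdz
          have h1 := norm_le_one_add_sum_of_monic_root (fun i => a i z) (F z) hr
          have h2 : ∑ i, ‖a i z‖ ≤ ∑ i, (‖a i z₀‖ + 1) :=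
            Finset.sum_le_sum fun i _ => (hs z hz.1).2.1 i
          simp only [Function.comp_apply]
          linarith
        have hupd := Complex.differentiableOn_update_limUnder_of_bddAbove hsnhds hFs hbound
        refine hupd.congr fun z hz => ?_
        by_cases hzz : z = z₀
        · subst hzz
          simp only [Function.update_self, G, if_pos hd0]
        · rw [Function.update_of_ne hzz]
          exact hGF z ((hs z hz).1 hzz)
    · -- good point
      have hev : ∀ᶠ z in 𝓝 z₀, den z ≠ 0 := (hdencont z₀ hz₀).eventually_ne hd0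
      have hUn : ∀ᶠ z in 𝓝 z₀, z ∈ U := hU.mem_nhds hz₀
      obtain ⟨s, hs, hsopen, hz₀s⟩ := eventually_nhds_iff.mp (hev.and hUn)
      refine ⟨s, hsopen.mem_nhds hz₀s, fun z hz => (hs z hz).2, ?_⟩
      intro z hz
      have : DifferentiableWithinAt ℂ F s z :=
        (hFdiff z (hs z hz).2 (hs z hz).1).differentiableWithinAt
      refine this.congr (fun w hw => hGF w (hs w hw).1) (hGF z (hs z hz).1)
  have hGdiff : DifferentiableOn ℂ G U := by
    intro z hz
    obtain ⟨s, hs, -, hGs⟩ := hlocal z hz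
    exact ((hGs z (mem_of_mem_nhds hs)).differentiableAt hs).differentiableWithinAt
  have hisol : ∀ z₀ ∈ U, den z₀ = 0 → ∀ᶠ z in 𝓝[≠] z₀, den z ≠ 0 := by
    intro z₀ hz₀ hd0
    have han : AnalyticAt ℂ den z₀ := hden.analyticAt (hU.mem_nhds hz₀)
    rcases han.eventually_eq_zero_or_eventually_ne_zero with h0 | hne
    · exfalso
      have hzero := (hden.analyticOnNhd hU).eqOn_zero_of_preconnected_of_eventuallyEq_zero
        hUc hz₀ h0
      obtain ⟨z, hz, hdz⟩ := hden0
      exact hdz (hzero hz)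
    · exact hne
  refine ⟨G, hGdiff, ?_, fun z _ hdz => hGF z hdz, ?_⟩
  rotate_left
  · intro z₀ hz₀
    by_cases hd0 : den z₀ = 0
    · have hne := hisol z₀ hz₀ hd0
      have hGc : ContinuousAt G z₀ :=
        ((hGdiff z₀ hz₀).differentiableAt (hU.mem_nhds hz₀)).continuousAt
      have hRc : ContinuousAt (fun z => G z ^ n + ∑ i, a i z * G z ^ (i : ℕ)) z₀ := by
        refine (hGc.pow n).add ?_
        refine tendsto_finsetSum _ fun i _ => ?_
        exact (((ha i).continuousAt (hU.mem_nhds hz₀)).mul (hGc.pow _))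
      have hUn : ∀ᶠ z in 𝓝[≠] z₀, z ∈ U := nhdsWithin_le_nhds (hU.mem_nhds hz₀)
      have heq : ∀ᶠ z in 𝓝[≠] z₀, G z ^ n + ∑ i, a i z * G z ^ (i : ℕ) = 0 := by
        filter_upwards [hne, hUn] with z hz hzU
        rw [hGF z hz]
        exact hrel z hzU hz
      have h1 : Tendsto (fun z => G z ^ n + ∑ i, a i z * G z ^ (i : ℕ)) (𝓝[≠] z₀)
          (𝓝 (G z₀ ^ n + ∑ i, a i z₀ * G z₀ ^ (i : ℕ))) :=
        hRc.tendsto.mono_left nhdsWithin_le_nhds
      have h2 : Tendsto (fun z => G z ^ n + ∑ i, a i z * G z ^ (i : ℕ)) (𝓝[≠] z₀) (𝓝 0) :=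
        (tendsto_const_nhds.congr' (heq.mono fun z hz => hz.symm))
      exact tendsto_nhds_unique h1 h2
    · rw [hGF z₀ hd0]
      exact hrel z₀ hz₀ hd0
  intro z₀ hz₀
  by_cases hd0 : den z₀ = 0
  · rw [hd0, mul_zero]
    -- num z₀ = 0 by continuity
    have han : AnalyticAt ℂ den z₀ := hden.analyticAt (hU.mem_nhds hz₀)
    rcases han.eventually_eq_zero_or_eventually_ne_zero with h0 | hne
    · exfalso
      have hzero := (hden.analyticOnNhd hU).eqOn_zero_of_preconnected_of_eventuallyEq_zero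
        hUc hz₀ h0
      obtain ⟨z, hz, hdz⟩ := hden0
      exact hdz (hzero hz)
    · have hGc : ContinuousAt G z₀ :=
        ((hGdiff z₀ hz₀).differentiableAt (hU.mem_nhds hz₀)).continuousAt
      have hnc : ContinuousAt num z₀ :=
        ((hnum z₀ hz₀).differentiableAt (hU.mem_nhds hz₀)).continuousAt
      have hprod : Tendsto (fun z => G z * den z) (𝓝[≠] z₀) (𝓝 (G z₀ * den z₀)) :=
        ((hGc.mul (hdencont z₀ hz₀)).tendsto).mono_left nhdsWithin_le_nhds
      have hnum' : Tendsto num (𝓝[≠] z₀) (𝓝 (num z₀)) := hnc.tendsto.mono_left nhdsWithin_le_nhds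
      have heq : ∀ᶠ z in 𝓝[≠] z₀, G z * den z = num z := by
        filter_upwards [hne] with z hz
        rw [hGF z hz, hF]
        field_simp
      have := tendsto_nhds_unique (hprod.congr' heq) hnum'
      rw [hd0, mul_zero] at this
      exact this
  · rw [hGF z₀ hd0, hF]
    field_simp

end Removable

section UpperHalfPlane

open UpperHalfPlane
open scoped Manifold

/-- Upper half plane version: a quotient of holomorphic functions which is integral over
holomorphic functions is holomorphic. -/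
theorem exists_mdifferentiable_of_integral {n : ℕ} (num den : ℍ → ℂ) (a : Fin n → ℍ → ℂ)
    (hnum : MDiff num) (hden : MDiff den) (ha : ∀ i, Continuous (a i))
    (hden0 : ∃ τ, den τ ≠ 0)
    (hrel : ∀ τ, den τ ≠ 0 →
      (num τ / den τ) ^ n + ∑ i, a i τ * (num τ / den τ) ^ (i : ℕ) = 0) :
    ∃ G : ℍ → ℂ, MDiff G ∧ (∀ τ, G τ * den τ = num τ) ∧
      (∀ τ, den τ ≠ 0 → G τ = num τ / den τ) ∧
      ∀ τ, G τ ^ n + ∑ i, a i τ * G τ ^ (i : ℕ) = 0 := by
  have hU : IsOpen upperHalfPlaneSet := isOpen_upperHalfPlaneSet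
  have hUc : IsPreconnected upperHalfPlaneSet := Convex.isPreconnected (convex_halfSpace_im_gt 0)
  have hof : ∀ z (hz : z ∈ upperHalfPlaneSet), ofComplex z = ⟨z, hz⟩ := fun z hz =>
    ofComplex_apply_of_im_pos hz
  have hacont : ∀ i, ContinuousOn (a i ∘ ofComplex) upperHalfPlaneSet := fun i => by
    refine (ha i).comp_continuousOn ?_
    exact (continuousOn_of_forall_continuousAt fun z hz =>
      (UpperHalfPlane.contMDiffAt_ofComplex (n := 0) hz).continuousAt)
  obtain ⟨G', hG'diff, hG'mul, hG'eq, hG'rel⟩ :=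
    exists_differentiableOn_of_integral hU hUc (num ∘ ofComplex) (den ∘ ofComplex)
      (fun i => a i ∘ ofComplex) (mdifferentiable_iff.mp hnum) (mdifferentiable_iff.mp hden)
      hacont
      (by
        obtain ⟨τ, hτ⟩ := hden0
        refine ⟨(τ : ℂ), τ.im_pos, ?_⟩
        simpa [Function.comp, ofComplex_apply] using hτ)
      (by
        intro z hz hdz
        have := hrel ⟨z, hz⟩ (by simpa [Function.comp, hof z hz] using hdz)
        simpa [Function.comp, hof z hz] using this)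
  refine ⟨fun τ => G' (τ : ℂ), ?_, ?_, ?_, ?_⟩
  · rw [mdifferentiable_iff]
    refine hG'diff.congr fun z hz => ?_
    simp [Function.comp, hof z hz]
  · intro τ
    have := hG'mul (τ : ℂ) τ.im_pos
    simpa [Function.comp, ofComplex_apply] using this
  · intro τ hτ
    have := hG'eq (τ : ℂ) τ.im_pos (by simpa [Function.comp, ofComplex_apply] using hτ)
    simpa [Function.comp, ofComplex_apply] using this
  · intro τ
    have := hG'rel (τ : ℂ) τ.im_pos
    simpa [Function.comp, ofComplex_apply] using this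

/-- The non-vanishing locus of a holomorphic function on the upper half plane which is not
identically zero is dense. -/
theorem dense_ne_zero_of_mdifferentiable (den : ℍ → ℂ) (hden : MDiff den)
    (hden0 : ∃ τ, den τ ≠ 0) : Dense {τ : ℍ | den τ ≠ 0} := by
  have hU : IsOpen upperHalfPlaneSet := isOpen_upperHalfPlaneSet
  have hUc : IsPreconnected upperHalfPlaneSet := Convex.isPreconnected (convex_halfSpace_im_gt 0)
  have hd : DifferentiableOn ℂ (den ∘ ofComplex) upperHalfPlaneSet := mdifferentiable_iff.mp hden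
  intro τ₀
  rw [mem_closure_iff_frequently]
  by_cases h0 : den τ₀ = 0
  · have hz₀ : (τ₀ : ℂ) ∈ upperHalfPlaneSet := τ₀.im_pos
    have han : AnalyticAt ℂ (den ∘ ofComplex) (τ₀ : ℂ) := hd.analyticAt (hU.mem_nhds hz₀)
    rcases han.eventually_eq_zero_or_eventually_ne_zero with h | h
    · exfalso
      have hzero := (hd.analyticOnNhd hU).eqOn_zero_of_preconnected_of_eventuallyEq_zero
        hUc hz₀ h
      obtain ⟨τ, hτ⟩ := hden0
      apply hτ
      have := hzero τ.im_pos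
      simpa [Function.comp, ofComplex_apply] using this
    · have hfreq : ∃ᶠ z in 𝓝 (τ₀ : ℂ), den (ofComplex z) ≠ 0 :=
        (h.frequently).filter_mono nhdsWithin_le_nhds
      have htend : Tendsto ofComplex (𝓝 (τ₀ : ℂ)) (𝓝 τ₀) := by
        have := (UpperHalfPlane.contMDiffAt_ofComplex (n := 0) hz₀).continuousAt
        simpa [ContinuousAt, ofComplex_apply] using this
      exact htend.frequently hfreq
  · exact Filter.Eventually.frequently
      ((hden.continuous.continuousAt).eventually_ne h0)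

open scoped MatrixGroups ModularForm

/-- The relation satisfied by a root is preserved by the slash action of `SL(2, ℤ)`. -/
theorem monic_relation_slash {n : ℕ} (k : ℤ) (G : ℍ → ℂ) (a : Fin n → ℍ → ℂ)
    (hrel : ∀ τ, G τ ^ n + ∑ i, a i τ * G τ ^ (i : ℕ) = 0) (γ : SL(2, ℤ)) (τ : ℍ) :
    (G ∣[k] γ) τ ^ n +
      ∑ i : Fin n, ((a i) ∣[((n : ℤ) - (i : ℕ)) * k] γ) τ * (G ∣[k] γ) τ ^ (i : ℕ) = 0 := by
  have hd : denom γ τ ≠ 0 := denom_ne_zero γ τ
  simp only [ModularForm.SL_slash_apply]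
  have key : ∀ i : Fin n,
      a i (γ • τ) * denom γ τ ^ (-(((n : ℤ) - (i : ℕ)) * k)) *
        (G (γ • τ) * denom γ τ ^ (-k)) ^ (i : ℕ) =
      denom γ τ ^ (-k * n) * (a i (γ • τ) * G (γ • τ) ^ (i : ℕ)) := by
    intro i
    rw [mul_pow, ← zpow_natCast (denom γ τ ^ (-k)) (i : ℕ), ← zpow_mul]
    have : denom γ τ ^ (-k * (n : ℤ)) =
        denom γ τ ^ (-(((n : ℤ) - (i : ℕ)) * k)) * denom γ τ ^ (-k * ((i : ℕ) : ℤ)) := by
      rw [← zpow_add₀ hd]
      congr 1
      ring
    rw [this]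
    ring
  have h0 : (G (γ • τ) * denom γ τ ^ (-k)) ^ n =
      denom γ τ ^ (-k * n) * G (γ • τ) ^ n := by
    rw [mul_pow, ← zpow_natCast (denom γ τ ^ (-k)) n, ← zpow_mul]
    ring
  rw [h0, Finset.sum_congr rfl fun i _ => key i, ← Finset.mul_sum, ← mul_add, hrel, mul_zero]

/-- Slash invariance descends to a holomorphic quotient. -/
theorem slash_eq_of_mul_eq {Γ : Subgroup (GL (Fin 2) ℝ)} [Γ.HasDetPlusMinusOne] (k w : ℤ)
    (G num den : ℍ → ℂ) (hG : MDiff G) (hden : MDiff den) (hden0 : ∃ τ, den τ ≠ 0)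
    (hmul : ∀ τ, G τ * den τ = num τ) (γ : GL (Fin 2) ℝ) (hγ : γ ∈ Γ)
    (hnum_inv : num ∣[k + w] γ = num) (hden_inv : den ∣[w] γ = den) :
    G ∣[k] γ = G := by
  have hfun : G * den = num := funext hmul
  have h1 : (G * den) ∣[k + w] γ = |(γ.det : ℝ)| • (G ∣[k] γ * den ∣[w] γ) :=
    ModularForm.mul_slash k w γ G den
  rw [hfun, hnum_inv, hden_inv, Subgroup.HasDetPlusMinusOne.abs_det hγ, one_smul] at h1
  have hdense := dense_ne_zero_of_mdifferentiable den hden hden0
  have hc1 : Continuous (G ∣[k] γ) := (hG.slash k γ).continuous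
  have hc2 : Continuous G := hG.continuous
  refine Continuous.ext_on hdense hc1 hc2 ?_
  intro τ hτ
  have h2 : num τ = (G ∣[k] γ) τ * den τ := by
    have := congrFun h1 τ
    simpa using this
  have h3 : G τ * den τ = (G ∣[k] γ) τ * den τ := by rw [hmul, h2]
  exact (mul_right_cancel₀ hτ h3).symm

/-- Pass from a homogeneous polynomial relation between `num` and `den` to the relation for the
quotient `num / den` off the zeros of `den`. -/
theorem quotient_relation_of_homogeneous {n : ℕ} (num den : ℍ → ℂ) (a : Fin n → ℍ → ℂ)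
    (h : ∀ τ, num τ ^ n + ∑ i : Fin n, a i τ * num τ ^ (i : ℕ) * den τ ^ (n - (i : ℕ)) = 0)
    (τ : ℍ) (hτ : den τ ≠ 0) :
    (num τ / den τ) ^ n + ∑ i, a i τ * (num τ / den τ) ^ (i : ℕ) = 0 := by
  have hdn : den τ ^ n ≠ 0 := pow_ne_zero n hτ
  have key : ∀ i : Fin n, a i τ * (num τ / den τ) ^ (i : ℕ) =
      (a i τ * num τ ^ (i : ℕ) * den τ ^ (n - (i : ℕ))) / den τ ^ n := by
    intro i
    have hi : (i : ℕ) ≤ n := i.2.le
    have : den τ ^ n = den τ ^ (n - (i : ℕ)) * den τ ^ (i : ℕ) := by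
      rw [← pow_add, Nat.sub_add_cancel hi]
    rw [div_pow, this]
    field_simp
  rw [div_pow, Finset.sum_congr rfl fun i _ => key i, ← Finset.sum_div, ← add_div, h τ, zero_div]

/-- Main packaging: a quotient of modular forms which is integral over functions vanishing at
all cusps is a cusp form. -/
theorem exists_cuspForm_of_integral_quotient {Γ : Subgroup (GL (Fin 2) ℝ)}
    [Γ.HasDetPlusMinusOne] [Γ.IsArithmetic] (k w : ℤ) {n : ℕ} (hn : 0 < n)
    (num : ModularForm Γ (k + w)) (den : ModularForm Γ w) (hden0 : ∃ τ, den τ ≠ 0)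
    (a : Fin n → ℍ → ℂ) (ha_cont : ∀ i, Continuous (a i))
    (ha_zero : ∀ (i : Fin n) (γ : SL(2, ℤ)),
      IsZeroAtImInfty ((a i) ∣[((n : ℤ) - (i : ℕ)) * k] γ))
    (hrel : ∀ τ, den τ ≠ 0 →
      (num τ / den τ) ^ n + ∑ i, a i τ * (num τ / den τ) ^ (i : ℕ) = 0) :
    ∃ G : CuspForm Γ k, ∀ τ, G τ * den τ = num τ := by
  obtain ⟨G, hGdiff, hGmul, -, hGrel⟩ := exists_mdifferentiable_of_integral (⇑num) (⇑den) a
    (ModularFormClass.holo num) (ModularFormClass.holo den) ha_cont hden0 hrel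
  refine ⟨{ toFun := G
            slash_action_eq' := fun γ hγ =>
              slash_eq_of_mul_eq (Γ := Γ) k w G num den hGdiff (ModularFormClass.holo den) hden0
                hGmul γ hγ (SlashInvariantFormClass.slash_action_eq num γ hγ)
                (SlashInvariantFormClass.slash_action_eq den γ hγ)
            holo' := hGdiff
            zero_at_cusps' := ?_ }, hGmul⟩
  intro c hc
  have hc' : IsCusp c 𝒮ℒ := (Subgroup.IsArithmetic.isCusp_iff_isCusp_SL2Z Γ).mp hc
  rw [OnePoint.isZeroAt_iff_forall_SL2Z hc']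
  intro γ _
  exact tendsto_zero_of_monic_root hn (fun i => (a i) ∣[((n : ℤ) - (i : ℕ)) * k] γ) (G ∣[k] γ)
    (Filter.Eventually.of_forall fun τ => monic_relation_slash k G a hGrel γ τ)
    (fun i => ha_zero i γ)

/-- Variant for modular forms: coefficients bounded at all cusps. -/
theorem exists_modularForm_of_integral_quotient {Γ : Subgroup (GL (Fin 2) ℝ)}
    [Γ.HasDetPlusMinusOne] [Γ.IsArithmetic] (k w : ℤ) {n : ℕ}
    (num : ModularForm Γ (k + w)) (den : ModularForm Γ w) (hden0 : ∃ τ, den τ ≠ 0)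
    (a : Fin n → ℍ → ℂ) (ha_cont : ∀ i, Continuous (a i))
    (ha_bdd : ∀ (i : Fin n) (γ : SL(2, ℤ)),
      IsBoundedAtImInfty ((a i) ∣[((n : ℤ) - (i : ℕ)) * k] γ))
    (hrel : ∀ τ, den τ ≠ 0 →
      (num τ / den τ) ^ n + ∑ i, a i τ * (num τ / den τ) ^ (i : ℕ) = 0) :
    ∃ G : ModularForm Γ k, ∀ τ, G τ * den τ = num τ := by
  obtain ⟨G, hGdiff, hGmul, -, hGrel⟩ := exists_mdifferentiable_of_integral (⇑num) (⇑den) a
    (ModularFormClass.holo num) (ModularFormClass.holo den) ha_cont hden0 hrel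
  refine ⟨{ toFun := G
            slash_action_eq' := fun γ hγ =>
              slash_eq_of_mul_eq (Γ := Γ) k w G num den hGdiff (ModularFormClass.holo den) hden0
                hGmul γ hγ (SlashInvariantFormClass.slash_action_eq num γ hγ)
                (SlashInvariantFormClass.slash_action_eq den γ hγ)
            holo' := hGdiff
            bdd_at_cusps' := ?_ }, hGmul⟩
  intro c hc
  have hc' : IsCusp c 𝒮ℒ := (Subgroup.IsArithmetic.isCusp_iff_isCusp_SL2Z Γ).mp hc
  rw [OnePoint.isBoundedAt_iff_forall_SL2Z hc']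
  intro γ _
  exact boundedAtFilter_of_monic_root (fun i => (a i) ∣[((n : ℤ) - (i : ℕ)) * k] γ) (G ∣[k] γ)
    (Filter.Eventually.of_forall fun τ => monic_relation_slash k G a hGrel γ τ)
    (fun i => ha_bdd i γ)

/-- Function level version of the main packaging (no boundedness of numerator or denominator
is needed). -/
theorem exists_cuspForm_of_integral_fun {Γ : Subgroup (GL (Fin 2) ℝ)}
    [Γ.HasDetPlusMinusOne] [Γ.IsArithmetic] (k w : ℤ) {n : ℕ} (hn : 0 < n)
    (num den : ℍ → ℂ) (hnum : MDiff num) (hden : MDiff den)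
    (hnum_inv : ∀ γ ∈ Γ, num ∣[k + w] γ = num) (hden_inv : ∀ γ ∈ Γ, den ∣[w] γ = den)
    (hden0 : ∃ τ, den τ ≠ 0)
    (a : Fin n → ℍ → ℂ) (ha_cont : ∀ i, Continuous (a i))
    (ha_zero : ∀ (i : Fin n) (γ : SL(2, ℤ)),
      IsZeroAtImInfty ((a i) ∣[((n : ℤ) - (i : ℕ)) * k] γ))
    (hrel : ∀ τ, den τ ≠ 0 →
      (num τ / den τ) ^ n + ∑ i, a i τ * (num τ / den τ) ^ (i : ℕ) = 0) :
    ∃ G : CuspForm Γ k, ∀ τ, G τ * den τ = num τ := by
  obtain ⟨G, hGdiff, hGmul, -, hGrel⟩ := exists_mdifferentiable_of_integral num den a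
    hnum hden ha_cont hden0 hrel
  refine ⟨{ toFun := G
            slash_action_eq' := fun γ hγ =>
              slash_eq_of_mul_eq (Γ := Γ) k w G num den hGdiff hden hden0
                hGmul γ hγ (hnum_inv γ hγ) (hden_inv γ hγ)
            holo' := hGdiff
            zero_at_cusps' := ?_ }, hGmul⟩
  intro c hc
  have hc' : IsCusp c 𝒮ℒ := (Subgroup.IsArithmetic.isCusp_iff_isCusp_SL2Z Γ).mp hc
  rw [OnePoint.isZeroAt_iff_forall_SL2Z hc']
  intro γ _
  exact tendsto_zero_of_monic_root hn (fun i => (a i) ∣[((n : ℤ) - (i : ℕ)) * k] γ) (G ∣[k] γ)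
    (Filter.Eventually.of_forall fun τ => monic_relation_slash k G a hGrel γ τ)
    (fun i => ha_zero i γ)

/-- Interface of the S23 blueprint (module D). -/
theorem exists_cuspForm_of_integral {N : ℕ} [NeZero N] {k m : ℤ} {n : ℕ}
    (H D : ℍ → ℂ) (hH : MDiff H) (hD : MDiff D)
    (hHinv : ∀ γ ∈ G0 N, H ∣[k + m] γ = H) (hDinv : ∀ γ ∈ G0 N, D ∣[m] γ = D) (hD0 : D ≠ 0)
    (p : ℕ → ℍ → ℂ) (hp : ∀ i, MDiff (p i))
    (hpinv : ∀ i : ℕ, ∀ γ : SL(2, ℤ), p i ∣[k * (i : ℤ)] γ = p i)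
    (hp0 : p 0 = 1) (hpz : ∀ i, 1 ≤ i → IsZeroAtImInfty (p i))
    (hrel : ∀ z, ∑ i ∈ Finset.range (n + 1), p i z * H z ^ (n - i) * D z ^ i = 0) :
    ∃ F : CuspForm (G0 N) k, ∀ z, F z * D z = H z := by
  have hn : 0 < n := by
    rcases Nat.eq_zero_or_pos n with h0 | h0
    · exfalso
      subst h0
      have := hrel UpperHalfPlane.I
      simp [hp0] at this
    · exact h0
  have hden0 : ∃ τ, D τ ≠ 0 := by
    by_contra hcon
    apply hD0
    funext τ
    by_contra hτ
    exact hcon ⟨τ, hτ⟩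
  let a : Fin n → ℍ → ℂ := fun j => p (n - (j : ℕ))
  have hhom : ∀ τ, H τ ^ n + ∑ j : Fin n, a j τ * H τ ^ (j : ℕ) * D τ ^ (n - (j : ℕ)) = 0 := by
    intro τ
    have h1 := hrel τ
    rw [Finset.sum_range_succ'] at h1
    simp only [hp0, Pi.one_apply, one_mul, Nat.sub_zero, pow_zero, mul_one] at h1
    rw [← Finset.sum_range_reflect] at h1
    rw [← h1, add_comm]
    congr 1
    rw [← Fin.sum_univ_eq_sum_range (fun j => p (n - 1 - j + 1) τ * H τ ^ (n - (n - 1 - j + 1)) *
      D τ ^ (n - 1 - j + 1)) n]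
    refine Finset.sum_congr rfl fun j _ => ?_
    have hj : (j : ℕ) < n := j.2
    have e1 : n - 1 - (j : ℕ) + 1 = n - (j : ℕ) := by omega
    have e2 : n - (n - (j : ℕ)) = (j : ℕ) := by omega
    simp only [a]
    rw [e1, e2]
  refine exists_cuspForm_of_integral_fun (Γ := G0 N) k m hn H D hH hD hHinv hDinv hden0 a
    (fun j => (hp _).continuous) ?_
    (fun τ hτ => quotient_relation_of_homogeneous H D a hhom τ hτ)
  intro j γ
  have hj : (j : ℕ) < n := j.2
  have hw : ((n : ℤ) - ((j : ℕ) : ℤ)) * k = k * ((n - (j : ℕ) : ℕ) : ℤ) := by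
    rw [Nat.cast_sub hj.le]
    ring
  simp only [a]
  rw [hw, hpinv]
  exact hpz _ (by omega)

end UpperHalfPlane

end Fermat.Agent.S23
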