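import Fermat.Agent.S23.Defs
import Fermat.Agent.S23.QAlg
import Fermat.Agent.S23.IntegralHolo

set_option autoImplicit false

namespace Fermat.Agent.S23

open UpperHalfPlane ModularForm CongruenceSubgroup SlashInvariantForm
open scoped MatrixGroups ModularForm Manifold

/-- Modular forms on an arithmetic group having `1` as a strict period lie in `PerAlg 1`. -/
theorem conj_mem_PerAlg_one {F : Type*} [FunLike F ℍ ℂ] {Γ : Subgroup (GL (Fin 2) ℝ)}
    [Γ.IsArithmetic] {k : ℤ} [ModularFormClass F Γ k] (hΓ : (1 : ℝ) ∈ Γ.strictPeriods) (f : F) :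
    (f : ℍ → ℂ) ∈ PerAlg 1 :=
  ⟨SlashInvariantFormClass.periodic_comp_ofComplex f hΓ, ModularFormClass.holo f,
    ModularFormClass.bdd_at_infty f⟩

theorem conjPS_mul (σ : ℂ ≃+* ℂ) (a b : PowerSeries ℂ) :
    conjPS σ (a * b) = conjPS σ a * conjPS σ b := map_mul _ a b

theorem conjPS_pow (σ : ℂ ≃+* ℂ) (a : PowerSeries ℂ) (n : ℕ) :
    conjPS σ (a ^ n) = conjPS σ a ^ n := map_pow _ a n

theorem conjPS_sum (σ : ℂ ≃+* ℂ) {ι : Type*} (s : Finset ι) (a : ι → PowerSeries ℂ) :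
    conjPS σ (∑ i ∈ s, a i) = ∑ i ∈ s, conjPS σ (a i) := map_sum _ a s

theorem conjPS_coeff (σ : ℂ ≃+* ℂ) (a : PowerSeries ℂ) (n : ℕ) :
    PowerSeries.coeff n (conjPS σ a) = σ (PowerSeries.coeff n a) := by
  simp [conjPS]

theorem conjPS_ne_zero (σ : ℂ ≃+* ℂ) {a : PowerSeries ℂ} (h : PowerSeries.coeff 0 a ≠ 0) :
    conjPS σ a ≠ 0 := by
  intro h0
  have := congrArg (PowerSeries.coeff 0) h0
  rw [conjPS_coeff, map_zero] at this
  exact h ((map_eq_zero_iff σ σ.injective).mp this)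

end Fermat.Agent.S23

namespace Fermat.Agent.S23

open UpperHalfPlane ModularForm CongruenceSubgroup SlashInvariantForm
open scoped MatrixGroups ModularForm Manifold

/-- A level one form whose q-expansion has vanishing constant term is zero at infinity. -/
theorem conj_isZeroAtImInfty_of_coeff_zero {a : ℤ} (c : ModularForm 𝒮ℒ a)
    (h : PowerSeries.coeff 0 (qExpansion 1 c) = 0) : IsZeroAtImInfty c := by
  have := CuspFormClass.zero_at_infty (ModularForm.toCuspForm c h)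
  exact this

/-- A level one form which is zero at infinity has vanishing constant term. -/
theorem conj_coeff_zero_of_isZeroAtImInfty {a : ℤ} (c : ModularForm 𝒮ℒ a)
    (h : IsZeroAtImInfty c) : PowerSeries.coeff 0 (qExpansion 1 c) = 0 := by
  rw [qExpansion_coeff_zero one_pos
    (ModularFormClass.analyticAt_cuspFunction_zero c one_pos one_mem_strictPeriods_SL)
    (SlashInvariantFormClass.periodic_comp_ofComplex c one_mem_strictPeriods_SL)]
  exact h.valueAtInfty_eq_zero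

/-- Abstract conjugation lemma: a cusp form `f` which is integral over level one forms (monic
relation with coefficients `p i`) and which can be written as a quotient `B0 / D0`, such that all
the data `p i`, `B0`, `D0` admit `σ`-conjugates, admits a `σ`-conjugate itself. -/
theorem conj_of_data {Γ : Subgroup (GL (Fin 2) ℝ)} [Γ.IsArithmetic] [Γ.HasDetPlusMinusOne]
    (hΓ : (1 : ℝ) ∈ Γ.strictPeriods) (σ : ℂ ≃+* ℂ) {k m : ℤ} {μ : ℕ} (hμ : 0 < μ)
    (f : CuspForm Γ k)
    (p pσ : (i : ℕ) → ModularForm 𝒮ℒ (k * i))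
    (hp0 : (p 0 : ℍ → ℂ) = 1)
    (hpz : ∀ i, 1 ≤ i → IsZeroAtImInfty (p i))
    (hroot : ∀ z, ∑ i ∈ Finset.range (μ + 1), p i z * f z ^ (μ - i) = 0)
    (hpσ : ∀ i, qExpansion 1 (pσ i) = conjPS σ (qExpansion 1 (p i)))
    (D0 D : ModularForm Γ m) (B0 B : ModularForm Γ (k + m))
    (hfD : ∀ z, f z * D0 z = B0 z)
    (hD : qExpansion 1 D = conjPS σ (qExpansion 1 D0))
    (hB : qExpansion 1 B = conjPS σ (qExpansion 1 B0))
    (hD0 : PowerSeries.coeff 0 (qExpansion 1 D0) ≠ 0) :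
    ∃ g : CuspForm Γ k, qExpansion 1 g = conjPS σ (qExpansion 1 f) := by
  classical
  have hSL : (1 : ℝ) ∈ (𝒮ℒ : Subgroup (GL (Fin 2) ℝ)).strictPeriods := one_mem_strictPeriods_SL
  let Q := qExpHom 1 one_pos
  let F : PerAlg 1 := ⟨f, conj_mem_PerAlg_one hΓ f⟩
  let P : ℕ → PerAlg 1 := fun i => ⟨p i, conj_mem_PerAlg_one hSL (p i)⟩
  let Pσ : ℕ → PerAlg 1 := fun i => ⟨pσ i, conj_mem_PerAlg_one hSL (pσ i)⟩
  let d0 : PerAlg 1 := ⟨D0, conj_mem_PerAlg_one hΓ D0⟩
  let d : PerAlg 1 := ⟨D, conj_mem_PerAlg_one hΓ D⟩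
  let b0 : PerAlg 1 := ⟨B0, conj_mem_PerAlg_one hΓ B0⟩
  let b : PerAlg 1 := ⟨B, conj_mem_PerAlg_one hΓ B⟩
  have hQF : Q F = qExpansion 1 f := qExpHom_apply 1 one_pos F
  have hQP : ∀ i, Q (P i) = qExpansion 1 (p i) := fun i => qExpHom_apply 1 one_pos (P i)
  have hQPσ : ∀ i, Q (Pσ i) = qExpansion 1 (pσ i) := fun i => qExpHom_apply 1 one_pos (Pσ i)
  have hQd0 : Q d0 = qExpansion 1 D0 := qExpHom_apply 1 one_pos d0
  have hQd : Q d = qExpansion 1 D := qExpHom_apply 1 one_pos d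
  have hQb0 : Q b0 = qExpansion 1 B0 := qExpHom_apply 1 one_pos b0
  have hQb : Q b = qExpansion 1 B := qExpHom_apply 1 one_pos b
  -- the relations inside `PerAlg 1`
  have hrel0 : ∑ i ∈ Finset.range (μ + 1), P i * F ^ (μ - i) = 0 := by
    apply Subtype.ext
    funext z
    have := hroot z
    simpa [P, F] using this
  have hbd : F * d0 = b0 := by
    apply Subtype.ext
    funext z
    exact hfD z
  have hrel1 : ∑ i ∈ Finset.range (μ + 1), P i * b0 ^ (μ - i) * d0 ^ i = 0 := by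
    have hterm : ∀ i ∈ Finset.range (μ + 1),
        P i * b0 ^ (μ - i) * d0 ^ i = d0 ^ μ * (P i * F ^ (μ - i)) := by
      intro i hi
      have hi' : i ≤ μ := Nat.lt_succ_iff.mp (Finset.mem_range.mp hi)
      have hpow : d0 ^ μ = d0 ^ (μ - i) * d0 ^ i := by
        rw [← pow_add, Nat.sub_add_cancel hi']
      rw [← hbd, mul_pow, hpow]
      ring
    rw [Finset.sum_congr rfl hterm, ← Finset.mul_sum, hrel0, mul_zero]
  have hrel2 : ∑ i ∈ Finset.range (μ + 1), Pσ i * b ^ (μ - i) * d ^ i = 0 := by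
    apply qExpHom_injective 1 one_pos
    have h1 := congrArg (fun x => conjPS σ (Q x)) hrel1
    simp only [map_sum, map_mul, map_pow, map_zero] at h1
    rw [map_sum, map_zero]
    rw [← h1]
    apply Finset.sum_congr rfl
    intro i _
    rw [map_mul, map_mul, map_pow, map_pow]
    show Q (Pσ i) * Q b ^ (μ - i) * Q d ^ i = _
    rw [hQPσ, hQb, hQd, hpσ, hB, hD, hQP, hQb0, hQd0]
  have hrelσ : ∀ z, ∑ i ∈ Finset.range (μ + 1), pσ i z * B z ^ (μ - i) * D z ^ i = 0 := by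
    intro z
    have := congrArg (fun x : PerAlg 1 => (x : ℍ → ℂ) z) hrel2
    simpa [Pσ, b, d] using this
  -- `pσ 0 = 1`
  have hpσ0 : (pσ 0 : ℍ → ℂ) = 1 := by
    have hP0 : P 0 = 1 := Subtype.ext hp0
    have h1 : Pσ 0 = 1 := by
      apply qExpHom_injective 1 one_pos
      show Q (Pσ 0) = Q 1
      rw [hQPσ, hpσ, ← hQP, hP0, map_one]
      exact map_one (PowerSeries.map (σ : ℂ →+* ℂ))
    exact congrArg (fun x : PerAlg 1 => (x : ℍ → ℂ)) h1
  -- nonvanishing of the denominator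
  have hDne : qExpansion 1 D ≠ 0 := hD ▸ conjPS_ne_zero σ hD0
  have hden0 : ∃ τ, D τ ≠ 0 := by
    by_contra hcon
    have hcon' : ∀ τ, D τ = 0 := fun τ => by_contra fun h => hcon ⟨τ, h⟩
    apply hDne
    have : (D : ℍ → ℂ) = 0 := funext hcon'
    rw [this, qExpansion_zero]
  -- the monic relation in the required shape
  let a : Fin μ → ℍ → ℂ := fun j => pσ (μ - j)
  have hrel : ∀ τ, D τ ≠ 0 →
      (B τ / D τ) ^ μ + ∑ j : Fin μ, a j τ * (B τ / D τ) ^ (j : ℕ) = 0 := by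
    intro τ hτ
    have h1 := hrelσ τ
    have h2 : ∑ i ∈ Finset.range (μ + 1), pσ i τ * B τ ^ (μ - i) * D τ ^ i =
        D τ ^ μ * ∑ i ∈ Finset.range (μ + 1), pσ i τ * (B τ / D τ) ^ (μ - i) := by
      rw [Finset.mul_sum]
      apply Finset.sum_congr rfl
      intro i hi
      have hi' : i ≤ μ := Nat.lt_succ_iff.mp (Finset.mem_range.mp hi)
      have hpow : D τ ^ μ = D τ ^ (μ - i) * D τ ^ i := by
        rw [← pow_add, Nat.sub_add_cancel hi']
      rw [div_pow, hpow]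
      field_simp
    rw [h2] at h1
    have h3 := (mul_eq_zero.mp h1).resolve_left (pow_ne_zero _ hτ)
    rw [Finset.sum_range_succ', ← Finset.sum_range_reflect] at h3
    have h4 : pσ 0 τ = 1 := congrFun hpσ0 τ
    rw [h4, one_mul, Nat.sub_zero, add_comm] at h3
    rw [Fin.sum_univ_eq_sum_range (fun j => pσ (μ - j) τ * (B τ / D τ) ^ j) μ]
    rw [← h3]
    congr 1
    apply Finset.sum_congr rfl
    intro j hj
    have hj' : j < μ := Finset.mem_range.mp hj
    have e1 : μ - 1 - j + 1 = μ - j := by omega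
    have e2 : μ - (μ - j) = j := by omega
    rw [e1, e2]
  have ha_cont : ∀ j, Continuous (a j) := fun j => (ModularFormClass.holo (pσ (μ - j))).continuous
  have ha_zero : ∀ (j : Fin μ) (γ : SL(2, ℤ)),
      IsZeroAtImInfty ((a j) ∣[((μ : ℤ) - (j : ℕ)) * k] γ) := by
    intro j γ
    have hj : (j : ℕ) < μ := j.2
    have hw : ((μ : ℤ) - (j : ℕ)) * k = k * ((μ - j : ℕ) : ℤ) := by
      rw [Nat.cast_sub hj.le]
      ring
    rw [hw]
    have hinv : (a j) ∣[k * ((μ - j : ℕ) : ℤ)] γ = a j := by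
      have := SlashInvariantFormClass.slash_action_eq (pσ (μ - j)) (γ : GL (Fin 2) ℝ) ⟨γ, rfl⟩
      simpa [ModularForm.SL_slash] using this
    rw [hinv]
    have h1 : 1 ≤ μ - (j : ℕ) := by omega
    apply conj_isZeroAtImInfty_of_coeff_zero
    rw [hpσ, conjPS_coeff, conj_coeff_zero_of_isZeroAtImInfty _ (hpz _ h1), map_zero]
  obtain ⟨G, hG⟩ := exists_cuspForm_of_integral_quotient (Γ := Γ) k m hμ B D hden0 a ha_cont
    ha_zero hrel
  refine ⟨G, ?_⟩
  have hmul : (G : ℍ → ℂ) * (D : ℍ → ℂ) = (B : ℍ → ℂ) := funext hG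
  have hq : qExpansion 1 G * qExpansion 1 D = qExpansion 1 B := by
    rw [← ModularForm.qExpansion_mul_coe one_pos hΓ G D, hmul]
  have hq0 : qExpansion 1 f * qExpansion 1 D0 = qExpansion 1 B0 := by
    rw [← ModularForm.qExpansion_mul_coe one_pos hΓ f D0]
    congr 1
    exact funext hfD
  apply mul_right_cancel₀ hDne
  rw [hq, hB, ← hq0, conjPS_mul, hD]

end Fermat.Agent.S23
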