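import Fermat.Agent.S23.Interp.Algebra
import Fermat.Agent.S23.Interp.Esymm
import Fermat.Agent.S23.Interp.Main
import Fermat.Agent.S23.Interp.Indep

/-!
Coset interpolation for the S22/S23 project (namespace `Fermat.Agent.S23.Interp`).

Setting: `𝒢` an arithmetic subgroup of `GL(2,ℝ)`, `𝒬 = 𝒮ℒ ⧸ 𝒢.subgroupOf 𝒮ℒ`, `μ = idx 𝒢`,
`u` of weight `w`, `f` of weight `k` on `𝒢`; conjugates `quotientFunc u q`.

Main API
* `mkLevelOne`, `mkLevelOneCusp` : constructors of level-one forms.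
* `phiFun u j`, `phiForm u j : ModularForm 𝒮ℒ (w * ↑(μ - j))`, `phiCusp f j`,
  `phiFun_idx : phiFun u μ = 1`.
* `charpoly_identity f τ : ∑ j ∈ range (μ + 1), phiFun f j τ * f τ ^ j = 0`
  (and `charpoly_identity_conj` for every conjugate).
* `trPowFun u f b = ∑_q f_q u_q^b`, `cFun u f a`, `cForm`, `cCusp u f a :
  CuspForm 𝒮ℒ (k + w * ↑(μ - 1 - a))`.
* `dFun u τ = ∑ j ∈ range (μ + 1), j * phiFun u j τ * u τ ^ (j - 1)`, `dFun_eq_prod`,
  `tendsto_dFun`.
* `interp_identity u f τ : f τ * dFun u τ = ∑ a ∈ range μ, u τ ^ a * cFun u f a τ`.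
* `coeff_eq_zero_of_sum_eq_zero` : independence of `1, u, …, u^(μ-1)` over level-one forms.
* `eq_zero_or_eq_zero_of_mul_eq_zero_of_mdiff` : holomorphic functions on `ℍ` form a domain.
-/
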