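import Mathlib
import Fermat.Agent.S23.Defs
import Fermat.Agent.S23.Interp

/-!
Module C of the S22/S23 blueprint (coset symmetric functions and Lagrange interpolation),
specialised to `Gamma0 N` with the exact names of the blueprint.  Everything is derived from
the generic library `Fermat.Agent.S23.Interp`.
-/

set_option autoImplicit false

namespace Fermat.Agent.S23

open UpperHalfPlane ModularForm CongruenceSubgroup SlashInvariantForm Filter
open scoped MatrixGroups ModularForm Manifold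

variable {N : ℕ} [NeZero N] {k w : ℤ}

theorem Cosets_idx_eq_mu : Interp.idx (G0 N) = mu N := by
  rw [Interp.idx_eq_natCard, mu]

theorem Cosets_q0_eq : (q0 N : Q0 N) = (⟦(1 : 𝒮ℒ)⟧ : Q0 N) := rfl

/-- `(-1)^i e_i` of the conjugates of `f`: the coefficient of `X^(mu-i)` in `∏_q (X - f_q)`. -/
noncomputable def charCoeff (f : ModularForm (G0 N) k) (i : ℕ) : ModularForm 𝒮ℒ (k * i) :=
  (-1 : ℂ) ^ i • Interp.esymmForm f i

theorem charCoeff_apply (f : ModularForm (G0 N) k) (i : ℕ) (z : ℍ) :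
    charCoeff f i z = (-1 : ℂ) ^ i * Interp.esymmFun f i z := rfl

theorem charCoeff_eq_phiFun (f : ModularForm (G0 N) k) {i : ℕ} (hi : i ≤ mu N) (z : ℍ) :
    charCoeff f i z = Interp.phiFun f (mu N - i) z := by
  rw [charCoeff_apply, Interp.phiFun, Cosets_idx_eq_mu, Nat.sub_sub_self hi]
  rfl

theorem charCoeff_zero (f : ModularForm (G0 N) k) : (charCoeff f 0 : ℍ → ℂ) = 1 := by
  funext z
  rw [charCoeff_apply, Interp.esymmFun_zero]
  simp

theorem charCoeff_root (f : ModularForm (G0 N) k) (z : ℍ) :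
    ∑ i ∈ Finset.range (mu N + 1), charCoeff f i z * f z ^ (mu N - i) = 0 := by
  have h := Interp.charpoly_identity f z
  rw [Cosets_idx_eq_mu] at h
  rw [← h, ← Finset.sum_range_reflect]
  refine Finset.sum_congr rfl fun i hi => ?_
  have hi' : i ≤ mu N := Nat.lt_succ_iff.mp (Finset.mem_range.mp hi)
  have h1 : mu N + 1 - 1 - i = mu N - i := by omega
  rw [h1, charCoeff_eq_phiFun f (Nat.sub_le _ _), Nat.sub_sub_self hi']

theorem charCoeff_isZeroAtImInfty (f : ModularForm (G0 N) k)
    (hf : ∀ q : Q0 N, IsZeroAtImInfty (quotientFunc f q))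
    (i : ℕ) (hi : 1 ≤ i) : IsZeroAtImInfty (charCoeff f i) := by
  have h : IsZeroAtImInfty (Interp.esymmFun f i) :=
    Interp.isZeroAtImInfty_esymmFun_of f hf (Nat.lt_of_lt_of_le Nat.zero_lt_one hi)
  exact h.smul ((-1 : ℂ) ^ i)

theorem lagrangeDen_eq_dFun (t : ModularForm (G0 N) w) : lagrangeDen t = Interp.dFun t := by
  funext z
  rw [Interp.dFun_eq_prod]
  unfold lagrangeDen
  refine Finset.prod_congr ?_ fun _ _ => rfl
  ext q
  simp only [Finset.mem_erase, Finset.mem_univ, and_true]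
  rfl

theorem lagrangeDen_eq_sum (t : ModularForm (G0 N) w) (z : ℍ) :
    lagrangeDen t z = ∑ i ∈ Finset.range (mu N),
      ((mu N - i : ℕ) : ℂ) * charCoeff t i z * t z ^ (mu N - 1 - i) := by
  rw [lagrangeDen_eq_dFun, Interp.dFun, Cosets_idx_eq_mu, ← Finset.sum_range_reflect,
    Finset.sum_range_succ]
  have hlast : ((mu N + 1 - 1 - mu N : ℕ) : ℂ) * Interp.phiFun t (mu N + 1 - 1 - mu N) z
      * t z ^ (mu N + 1 - 1 - mu N - 1) = 0 := by
    have : mu N + 1 - 1 - mu N = 0 := by omega
    rw [this]; simp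
  rw [hlast, add_zero]
  refine Finset.sum_congr rfl fun i hi => ?_
  have hi' : i < mu N := Finset.mem_range.mp hi
  have h1 : mu N + 1 - 1 - i = mu N - i := by omega
  have h2 : mu N - i - 1 = mu N - 1 - i := by omega
  rw [h1, h2, charCoeff_eq_phiFun t hi'.le]

/-- The Lagrange coefficients `c_m` (level-one forms). -/
noncomputable def lagrangeCoeff (f : ModularForm (G0 N) k) (t : ModularForm (G0 N) w) (m : ℕ) :
    ModularForm 𝒮ℒ (k + w * ((mu N : ℤ) - 1 - m)) :=
  if h : m < mu N then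
    ModularForm.mcast (by
      rw [Cosets_idx_eq_mu]
      have : ((mu N - 1 - m : ℕ) : ℤ) = (mu N : ℤ) - 1 - m := by omega
      rw [this]) (Interp.cForm t f m)
  else 0

theorem lagrangeCoeff_apply (f : ModularForm (G0 N) k) (t : ModularForm (G0 N) w) {m : ℕ}
    (hm : m < mu N) (z : ℍ) : lagrangeCoeff f t m z = Interp.cFun t f m z := by
  rw [lagrangeCoeff, dif_pos hm]
  rfl

theorem lagrange_identity (f : ModularForm (G0 N) k) (t : ModularForm (G0 N) w) (z : ℍ) :
    f z * lagrangeDen t z = ∑ m ∈ Finset.range (mu N), lagrangeCoeff f t m z * t z ^ m := by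
  rw [lagrangeDen_eq_dFun, Interp.interp_identity t f z, Cosets_idx_eq_mu]
  refine Finset.sum_congr rfl fun m hm => ?_
  rw [lagrangeCoeff_apply f t (Finset.mem_range.mp hm), mul_comm]

end Fermat.Agent.S23
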