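import Mathlib
import Fermat.Prelude.Def_CuspForm_IntegralStructure
import Fermat.Prelude.Thm_ModularForm_sturm_bound_Gamma0
import Fermat.Prelude.Thm_CongruenceSubgroup_one_mem_strictPeriods_Gamma0
import Fermat.Agent.S23.Descent

set_option autoImplicit false

open UpperHalfPlane ModularFormClass
open scoped MatrixGroups

namespace Fermat.Agent.S23

local notation "Γ₀(" N ")" => CongruenceSubgroup.Gamma0 N

/-- The q-expansion coefficients of a cusp form can be conjugated by any field automorphism. -/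
def GaloisStable (N : ℕ) (k : ℤ) : Prop :=
  ∀ (σ : ℂ ≃+* ℂ) (f : CuspForm Γ₀(N) k),
    ∃ g : CuspForm Γ₀(N) k, ∀ n : ℕ, qCoeff g n = σ (qCoeff f n)

/-- Cusp forms with rational q-expansion coefficients have bounded denominators. -/
def BoundedDenominators (N : ℕ) (k : ℤ) : Prop :=
  ∀ f : CuspForm Γ₀(N) k, (∀ n : ℕ, ∃ r : ℚ, qCoeff f n = (r : ℂ)) →
    ∃ M : ℕ, M ≠ 0 ∧ ∀ n : ℕ, ∃ m : ℤ, (M : ℂ) * qCoeff f n = (m : ℂ)

theorem one_mem_strictPeriods (N : ℕ) :
    (1 : ℝ) ∈ (Subgroup.map (Matrix.SpecialLinearGroup.mapGL ℝ) Γ₀(N)).strictPeriods :=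
  CongruenceSubgroup.one_mem_strictPeriods_Gamma0 N

theorem qCoeff_add {N : ℕ} {k : ℤ} (f g : CuspForm Γ₀(N) k) (n : ℕ) :
    qCoeff ⇑(f + g) n = qCoeff ⇑f n + qCoeff ⇑g n := by
  simp only [qCoeff, FunLike.coe_add]
  rw [ModularForm.qExpansion_add one_pos (one_mem_strictPeriods N) f g, map_add]

theorem qCoeff_smul {N : ℕ} {k : ℤ} (c : ℂ) (f : CuspForm Γ₀(N) k) (n : ℕ) :
    qCoeff ⇑(c • f) n = c * qCoeff ⇑f n := by
  have h1 : ⇑(c • f) = c • ⇑f := by
    ext z
    simp
  simp only [qCoeff, h1]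
  rw [ModularForm.qExpansion_smul one_pos (one_mem_strictPeriods N) c f]
  simp

/-- The q-expansion map, as a linear map to sequences. -/
noncomputable def qMap (N : ℕ) (k : ℤ) : CuspForm Γ₀(N) k →ₗ[ℂ] (ℕ → ℂ) where
  toFun f n := qCoeff ⇑f n
  map_add' f g := by
    funext n
    exact qCoeff_add f g n
  map_smul' c f := by
    funext n
    simp only [Pi.smul_apply, RingHom.id_apply, smul_eq_mul]
    exact qCoeff_smul c f n

theorem qMap_apply {N : ℕ} {k : ℤ} (f : CuspForm Γ₀(N) k) (n : ℕ) :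
    qMap N k f n = qCoeff ⇑f n := rfl

theorem eq_zero_of_qCoeff_trunc (N : ℕ) [NeZero N] (k : ℤ) (f : CuspForm Γ₀(N) k)
    (hf : ∀ n : ℕ, n ≤ (k * (Γ₀(N)).index).toNat / 12 → qCoeff ⇑f n = 0) : f = 0 := by
  have hmf : (ModularFormClass.modularForm f : ModularForm Γ₀(N) k) = 0 := by
    refine ModularForm.sturm_bound_Gamma0 N _ fun n hn ↦ ?_
    have := hf n hn
    simpa [qCoeff] using this
  have hcoe : (⇑f : ℍ → ℂ) = 0 := by
    have := congrArg (fun F : ModularForm Γ₀(N) k ↦ (⇑F : ℍ → ℂ)) hmf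
    simpa using this
  exact DFunLike.coe_injective (hcoe.trans (FunLike.coe_zero (F := CuspForm Γ₀(N) k)).symm)

theorem qMap_injective (N : ℕ) [NeZero N] (k : ℤ) : Function.Injective (qMap N k) := by
  refine (injective_iff_map_eq_zero _).mpr fun f hf ↦ ?_
  apply eq_zero_of_qCoeff_trunc N k f
  intro n _
  have := congrFun hf n
  simpa [qMap_apply] using this

/-- Truncated q-expansion map. -/
noncomputable def qTrunc (N : ℕ) (k : ℤ) :
    CuspForm Γ₀(N) k →ₗ[ℂ] (Fin ((k * (Γ₀(N)).index).toNat / 12 + 1) → ℂ) where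
  toFun f i := qCoeff ⇑f i
  map_add' f g := by
    funext i
    exact qCoeff_add f g i
  map_smul' c f := by
    funext i
    simp only [Pi.smul_apply, RingHom.id_apply, smul_eq_mul]
    exact qCoeff_smul c f i

theorem qTrunc_injective (N : ℕ) [NeZero N] (k : ℤ) : Function.Injective (qTrunc N k) := by
  refine (injective_iff_map_eq_zero _).mpr fun f hf ↦ ?_
  apply eq_zero_of_qCoeff_trunc N k f
  intro n hn
  have := congrFun hf ⟨n, Nat.lt_succ_of_le hn⟩
  simpa [qTrunc] using this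

theorem finiteDimensional_cuspForm (N : ℕ) [NeZero N] (k : ℤ) :
    FiniteDimensional ℂ (CuspForm Γ₀(N) k) :=
  FiniteDimensional.of_injective (qTrunc N k) (qTrunc_injective N k)

theorem hasIntegralStructure_of (N : ℕ) [NeZero N] (k : ℤ) (h1 : GaloisStable N k)
    (h2 : BoundedDenominators N k) : CuspForm.HasIntegralStructure N k := by
  classical
  have := finiteDimensional_cuspForm N k
  unfold CuspForm.HasIntegralStructure
  set L : Submodule ℂ (CuspForm Γ₀(N) k) :=
    Submodule.span ℂ ((CuspForm.intLattice N k : Submodule ℤ (CuspForm Γ₀(N) k)) :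
      Set (CuspForm Γ₀(N) k)) with hL
  set W : Submodule ℂ (ℕ → ℂ) := LinearMap.range (qMap N k) with hW
  have : FiniteDimensional ℂ W := LinearMap.finiteDimensional_range (qMap N k)
  have hstable : ∀ (σ : ℂ ≃+* ℂ), ∀ w ∈ W, (fun i => σ (w i)) ∈ W := by
    rintro σ w ⟨f, rfl⟩
    obtain ⟨g, hg⟩ := h1 σ f
    refine ⟨g, ?_⟩
    funext n
    rw [qMap_apply, hg n, qMap_apply]
  have hspan := span_rational_eq_of_stable W hstable
  -- rational vectors of W come from L
  have hrat : ∀ w : ℕ → ℂ, (w ∈ W ∧ ∀ i : ℕ, ∃ r : ℚ, w i = (r : ℂ)) → w ∈ L.map (qMap N k) := by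
    rintro w ⟨⟨f, rfl⟩, hr⟩
    obtain ⟨M, hM0, hM⟩ := h2 f (fun n => hr n)
    have hMf : ((M : ℂ) • f) ∈ L := by
      apply Submodule.subset_span
      apply Submodule.subset_span
      intro n
      obtain ⟨m, hm⟩ := hM n
      exact ⟨m, by rw [qCoeff_smul, hm]⟩
    have hMC : (M : ℂ) ≠ 0 := by exact_mod_cast hM0
    have hf : f ∈ L := by
      have := L.smul_mem ((M : ℂ)⁻¹) hMf
      rwa [smul_smul, inv_mul_cancel₀ hMC, one_smul] at this
    exact ⟨f, hf, rfl⟩
  have hWle : W ≤ L.map (qMap N k) := by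
    rw [← hspan]
    exact Submodule.span_le.mpr fun w hw => hrat w hw
  rw [eq_top_iff]
  intro f _
  have hfW : qMap N k f ∈ W := ⟨f, rfl⟩
  obtain ⟨g, hg, hgf⟩ := hWle hfW
  have := qMap_injective N k hgf
  rwa [← this]

end Fermat.Agent.S23
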