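import Fermat.Agent.S23.Defs

set_option autoImplicit false

/-!
Integrality of level-one q-expansions (E4, E6, Delta) and power-series facts about
coefficient subrings, for project S22/S23.
-/

noncomputable section

namespace Fermat.Agent.S23.IntSeries

open PowerSeries

section CoeffSubring

variable {A : Type*} [CommRing A]

/-- Power series over `A` all of whose coefficients lie in the subring `R`. -/
def coeffSubring (R : Subring A) : Subring (PowerSeries A) where
  carrier := {f | ∀ n, coeff n f ∈ R}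
  mul_mem' := by
    intro f g hf hg n
    rw [coeff_mul]
    exact Subring.sum_mem _ fun p _ => R.mul_mem (hf p.1) (hg p.2)
  one_mem' := by
    intro n
    rw [coeff_one]
    split_ifs
    · exact R.one_mem
    · exact R.zero_mem
  add_mem' := by
    intro f g hf hg n
    rw [map_add]
    exact R.add_mem (hf n) (hg n)
  zero_mem' := by
    intro n
    rw [map_zero]
    exact R.zero_mem
  neg_mem' := by
    intro f hf n
    rw [map_neg]
    exact R.neg_mem (hf n)

theorem mem_coeffSubring {R : Subring A} {f : PowerSeries A} :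
    f ∈ coeffSubring R ↔ ∀ n, coeff n f ∈ R := Iff.rfl

theorem coeffSubring_mono {R S : Subring A} (h : R ≤ S) : coeffSubring R ≤ coeffSubring S :=
  fun _ hf n => h (hf n)

theorem coeffSubring_inf (R S : Subring A) :
    coeffSubring (R ⊓ S) = coeffSubring R ⊓ coeffSubring S := by
  ext f
  simp only [mem_coeffSubring, Subring.mem_inf]
  exact ⟨fun h => ⟨fun n => (h n).1, fun n => (h n).2⟩, fun h n => ⟨h.1 n, h.2 n⟩⟩

theorem C_mem_coeffSubring {R : Subring A} {a : A} (ha : a ∈ R) :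
    C a ∈ coeffSubring R := by
  intro n
  rw [coeff_C]
  split_ifs
  · exact ha
  · exact R.zero_mem

theorem X_mem_coeffSubring (R : Subring A) : (X : PowerSeries A) ∈ coeffSubring R := by
  intro n
  rw [coeff_X]
  split_ifs
  · exact R.one_mem
  · exact R.zero_mem

theorem smul_mem_coeffSubring {R : Subring A} {a : A} (ha : a ∈ R) {f : PowerSeries A}
    (hf : f ∈ coeffSubring R) : a • f ∈ coeffSubring R := by
  intro n
  rw [coeff_smul]
  exact R.mul_mem ha (hf n)

/-- A power series is in the image of `PowerSeries.map φ` iff all coefficients are in the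
range of `φ`. -/
theorem mem_coeffSubring_range_iff {B : Type*} [CommRing B] (φ : B →+* A) {f : PowerSeries A} :
    f ∈ coeffSubring φ.range ↔ ∃ g : PowerSeries B, g.map φ = f := by
  constructor
  · intro hf
    choose c hc using hf
    exact ⟨PowerSeries.mk c, by ext n; simp [hc n]⟩
  · rintro ⟨g, rfl⟩ n
    exact ⟨coeff n g, by simp⟩

theorem map_mem_coeffSubring_range {B : Type*} [CommRing B] (φ : B →+* A) (g : PowerSeries B) :
    g.map φ ∈ coeffSubring φ.range :=
  (mem_coeffSubring_range_iff φ).2 ⟨g, rfl⟩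

/-- If `X * g` has coefficients in `R` then so does `g`. -/
theorem mem_coeffSubring_of_X_mul {R : Subring A} {g : PowerSeries A}
    (h : X * g ∈ coeffSubring R) : g ∈ coeffSubring R := by
  intro n
  have := h (n + 1)
  rwa [coeff_succ_X_mul] at this

/-- Inverse of a series with coefficients in `R` whose constant coefficient is invertible
in `R`: any right inverse has coefficients in `R`. -/
theorem mem_coeffSubring_of_mul_eq_one {R : Subring A} {f g : PowerSeries A}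
    (hf : f ∈ coeffSubring R) (hfg : f * g = 1) {u : A} (hu : u ∈ R)
    (hu1 : constantCoeff f * u = 1) : g ∈ coeffSubring R := by
  intro n
  induction n using Nat.strong_induction_on with
  | _ n ih =>
    have h0 : constantCoeff f * constantCoeff g = 1 := by
      rw [← map_mul, hfg, map_one]
    have hug : constantCoeff g = u := by
      calc constantCoeff g = (constantCoeff f * u) * constantCoeff g := by rw [hu1, one_mul]
        _ = u * (constantCoeff f * constantCoeff g) := by ring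
        _ = u := by rw [h0, mul_one]
    rcases Nat.eq_zero_or_pos n with rfl | hn
    · rw [coeff_zero_eq_constantCoeff_apply, hug]
      exact hu
    · have hc : coeff n (f * g) = 0 := by
        rw [hfg, coeff_one, if_neg hn.ne']
      rw [coeff_mul, Finset.Nat.sum_antidiagonal_eq_sum_range_succ_mk,
        Finset.sum_range_succ'] at hc
      simp only [Nat.sub_zero, coeff_zero_eq_constantCoeff] at hc
      have hsum : (∑ i ∈ Finset.range n, coeff (i + 1) f * coeff (n - (i + 1)) g) ∈ R := by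
        refine Subring.sum_mem _ fun i hi => R.mul_mem (hf _) (ih _ ?_)
        have := Finset.mem_range.mp hi
        omega
      have hcg : coeff n g = -(u * ∑ i ∈ Finset.range n,
          coeff (i + 1) f * coeff (n - (i + 1)) g) := by
        have h1 : constantCoeff f * coeff n g =
            -(∑ i ∈ Finset.range n, coeff (i + 1) f * coeff (n - (i + 1)) g) := by
          linear_combination hc
        calc coeff n g = (constantCoeff f * u) * coeff n g := by rw [hu1, one_mul]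
          _ = u * (constantCoeff f * coeff n g) := by ring
          _ = _ := by rw [h1]; ring
      rw [hcg]
      exact R.neg_mem (R.mul_mem hu hsum)

/-- A series with coefficients in `R` and constant coefficient `1` has a two-sided inverse
with coefficients in `R`. -/
theorem exists_inverse_mem_coeffSubring {R : Subring A} {f : PowerSeries A}
    (hf : f ∈ coeffSubring R) (h1 : constantCoeff f = 1) :
    ∃ g ∈ coeffSubring R, f * g = 1 ∧ g * f = 1 := by
  have hu : IsUnit f := by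
    rw [PowerSeries.isUnit_iff_constantCoeff, h1]
    exact isUnit_one
  obtain ⟨v, rfl⟩ := hu
  refine ⟨((v⁻¹ : (PowerSeries A)ˣ) : PowerSeries A), ?_, v.mul_inv, v.inv_mul⟩
  exact mem_coeffSubring_of_mul_eq_one hf v.mul_inv R.one_mem (by rw [h1, one_mul])

/-- Cancellation: if `f` has coefficients in `R` and constant coefficient `1`, and `f * g` has
coefficients in `R`, then so does `g`. -/
theorem mem_coeffSubring_of_mul_mem {R : Subring A} {f g : PowerSeries A}
    (hf : f ∈ coeffSubring R) (h1 : constantCoeff f = 1) (hfg : f * g ∈ coeffSubring R) :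
    g ∈ coeffSubring R := by
  obtain ⟨e, he, _, hef⟩ := exists_inverse_mem_coeffSubring hf h1
  have : g = e * (f * g) := by rw [← mul_assoc, hef, one_mul]
  rw [this]
  exact (coeffSubring R).mul_mem he hfg

theorem expand_mem_coeffSubring {R : Subring A} {f : PowerSeries A} (hf : f ∈ coeffSubring R)
    (p : ℕ) (hp : p ≠ 0) : f.expand p hp ∈ coeffSubring R := by
  intro n
  rw [coeff_expand]
  split_ifs
  · exact hf _
  · exact R.zero_mem

theorem mem_coeffSubring_of_expand {R : Subring A} {f : PowerSeries A} (p : ℕ) (hp : p ≠ 0)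
    (hf : f.expand p hp ∈ coeffSubring R) : f ∈ coeffSubring R := by
  intro n
  have := hf (p * n)
  rwa [coeff_expand_mul] at this

theorem map_mem_coeffSubring {B : Type*} [CommRing B] (φ : A →+* B) {R : Subring A}
    {S : Subring B} (hφ : ∀ x ∈ R, φ x ∈ S) {f : PowerSeries A} (hf : f ∈ coeffSubring R) :
    f.map φ ∈ coeffSubring S := by
  intro n
  rw [coeff_map]
  exact hφ _ (hf n)

end CoeffSubring

section ComplexSubrings

/-- The subring of integers inside `ℂ`. -/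
def intSubring : Subring ℂ := (Int.castRingHom ℂ).range

/-- The subring of rationals inside `ℂ`. -/
def ratSubring : Subring ℂ := (algebraMap ℚ ℂ).range

/-- The subring of algebraic integers inside `ℂ`. -/
def algIntSubring : Subring ℂ := (integralClosure ℤ ℂ).toSubring

/-- The subring of algebraic numbers inside `ℂ`. -/
def algSubring : Subring ℂ := (integralClosure ℚ ℂ).toSubring

theorem mem_algSubring {x : ℂ} : x ∈ algSubring ↔ IsAlgebraic ℚ x := by
  simp [algSubring, mem_integralClosure_iff, isAlgebraic_iff_isIntegral]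

theorem mem_intSubring {x : ℂ} : x ∈ intSubring ↔ ∃ n : ℤ, (n : ℂ) = x := by
  simp [intSubring, RingHom.mem_range]

theorem mem_ratSubring {x : ℂ} : x ∈ ratSubring ↔ ∃ r : ℚ, (r : ℂ) = x := by
  simp [ratSubring, RingHom.mem_range]

theorem mem_algIntSubring {x : ℂ} : x ∈ algIntSubring ↔ IsIntegral ℤ x := by
  simp [algIntSubring, mem_integralClosure_iff]

theorem intCast_mem_intSubring (n : ℤ) : (n : ℂ) ∈ intSubring := mem_intSubring.2 ⟨n, rfl⟩

theorem natCast_mem_intSubring (n : ℕ) : (n : ℂ) ∈ intSubring :=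
  mem_intSubring.2 ⟨n, by simp⟩

theorem ratCast_mem_ratSubring (r : ℚ) : (r : ℂ) ∈ ratSubring := mem_ratSubring.2 ⟨r, rfl⟩

theorem intSubring_le (R : Subring ℂ) : intSubring ≤ R := by
  rintro x hx
  obtain ⟨n, rfl⟩ := mem_intSubring.1 hx
  exact intCast_mem R n

theorem intSubring_le_ratSubring : intSubring ≤ ratSubring := intSubring_le _

theorem intSubring_le_algIntSubring : intSubring ≤ algIntSubring := intSubring_le _

/-- A rational algebraic integer is an integer. -/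
theorem algIntSubring_inf_ratSubring : algIntSubring ⊓ ratSubring = intSubring := by
  apply le_antisymm
  · rintro x ⟨hx1, hx2⟩
    obtain ⟨r, rfl⟩ := mem_ratSubring.1 hx2
    have h1 : IsIntegral ℤ (r : ℂ) := mem_algIntSubring.1 hx1
    have h2 : IsIntegral ℤ r := by
      refine (isIntegral_algebraMap_iff (R := ℤ) (A := ℚ) (B := ℂ)
        (algebraMap ℚ ℂ).injective (x := r)).mp ?_
      simpa using h1
    obtain ⟨n, hn⟩ := IsIntegrallyClosed.isIntegral_iff.mp h2
    refine mem_intSubring.2 ⟨n, ?_⟩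
    rw [← hn]
    simp
  · exact le_inf intSubring_le_algIntSubring intSubring_le_ratSubring

/-- `Zbar[[q]] ∩ Q[[q]] = Z[[q]]` inside `ℂ[[q]]`. -/
theorem coeffSubring_algInt_inf_rat :
    coeffSubring algIntSubring ⊓ coeffSubring ratSubring = coeffSubring intSubring := by
  rw [← coeffSubring_inf, algIntSubring_inf_ratSubring]

theorem mem_coeffSubring_int_of_algInt_of_rat {f : PowerSeries ℂ}
    (h1 : f ∈ coeffSubring algIntSubring) (h2 : f ∈ coeffSubring ratSubring) :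
    f ∈ coeffSubring intSubring := by
  rw [← coeffSubring_algInt_inf_rat]
  exact ⟨h1, h2⟩

theorem mem_coeffSubring_int_iff {f : PowerSeries ℂ} :
    f ∈ coeffSubring intSubring ↔ ∃ g : PowerSeries ℤ, g.map (Int.castRingHom ℂ) = f :=
  mem_coeffSubring_range_iff (Int.castRingHom ℂ)

theorem mem_coeffSubring_rat_iff {f : PowerSeries ℂ} :
    f ∈ coeffSubring ratSubring ↔ ∃ g : PowerSeries ℚ, g.map (algebraMap ℚ ℂ) = f :=
  mem_coeffSubring_range_iff (algebraMap ℚ ℂ)

theorem map_int_mem_coeffSubring (g : PowerSeries ℤ) (R : Subring ℂ) :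
    g.map (Int.castRingHom ℂ) ∈ coeffSubring R :=
  coeffSubring_mono (intSubring_le R) (map_mem_coeffSubring_range _ g)

/-- Series over `ℂ` with bounded denominators: some nonzero integer multiple has integer
coefficients. -/
def boundedDenSubring : Subring (PowerSeries ℂ) where
  carrier := {f | ∃ M : ℕ, M ≠ 0 ∧ (M : ℂ) • f ∈ coeffSubring intSubring}
  mul_mem' := by
    rintro f g ⟨M, hM, hf⟩ ⟨M', hM', hg⟩
    refine ⟨M * M', Nat.mul_ne_zero hM hM', ?_⟩
    have : ((M * M' : ℕ) : ℂ) • (f * g) = ((M : ℂ) • f) * ((M' : ℂ) • g) := by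
      rw [smul_mul_smul_comm, Nat.cast_mul]
    rw [this]
    exact (coeffSubring intSubring).mul_mem hf hg
  one_mem' := ⟨1, one_ne_zero, by
    rw [Nat.cast_one, one_smul]
    exact (coeffSubring intSubring).one_mem⟩
  add_mem' := by
    rintro f g ⟨M, hM, hf⟩ ⟨M', hM', hg⟩
    refine ⟨M * M', Nat.mul_ne_zero hM hM', ?_⟩
    have : ((M * M' : ℕ) : ℂ) • (f + g) = (M' : ℂ) • ((M : ℂ) • f) + (M : ℂ) • ((M' : ℂ) • g) := by
      rw [smul_add, smul_smul, smul_smul, Nat.cast_mul, mul_comm (M' : ℂ)]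
    rw [this]
    exact (coeffSubring intSubring).add_mem
      (smul_mem_coeffSubring (natCast_mem_intSubring M') hf)
      (smul_mem_coeffSubring (natCast_mem_intSubring M) hg)
  zero_mem' := ⟨1, one_ne_zero, by
    rw [smul_zero]
    exact (coeffSubring intSubring).zero_mem⟩
  neg_mem' := by
    rintro f ⟨M, hM, hf⟩
    refine ⟨M, hM, ?_⟩
    rw [smul_neg]
    exact (coeffSubring intSubring).neg_mem hf

theorem mem_boundedDenSubring {f : PowerSeries ℂ} :
    f ∈ boundedDenSubring ↔ ∃ M : ℕ, M ≠ 0 ∧ (M : ℂ) • f ∈ coeffSubring intSubring := Iff.rfl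

theorem coeffSubring_int_le_boundedDen : coeffSubring intSubring ≤ boundedDenSubring :=
  fun f hf => ⟨1, one_ne_zero, by rwa [Nat.cast_one, one_smul]⟩

theorem boundedDenSubring_le_rat : boundedDenSubring ≤ coeffSubring ratSubring := by
  rintro f ⟨M, hM, hf⟩ n
  obtain ⟨m, hm⟩ := mem_intSubring.1 (hf n)
  rw [coeff_smul] at hm
  refine mem_ratSubring.2 ⟨(m : ℚ) / M, ?_⟩
  have hM' : (M : ℂ) ≠ 0 := Nat.cast_ne_zero.mpr hM
  push_cast
  rw [hm, smul_eq_mul]
  field_simp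

/-- Rational multiples of bounded-denominator series have bounded denominators. -/
theorem ratCast_smul_mem_boundedDenSubring (r : ℚ) {f : PowerSeries ℂ}
    (hf : f ∈ boundedDenSubring) : (r : ℂ) • f ∈ boundedDenSubring := by
  obtain ⟨M, hM, hf⟩ := hf
  refine ⟨r.den * M, Nat.mul_ne_zero r.den_nz hM, ?_⟩
  have : ((r.den * M : ℕ) : ℂ) • (r : ℂ) • f = ((r.num : ℤ) : ℂ) • ((M : ℂ) • f) := by
    rw [smul_smul, smul_smul]
    congr 1
    have h := Rat.num_div_den r
    have hd : ((r.den : ℚ) : ℂ) ≠ 0 := by exact_mod_cast r.den_nz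
    have : (r : ℂ) = (r.num : ℂ) / (r.den : ℂ) := by
      conv_lhs => rw [← h]
      push_cast
      rfl
    rw [this]
    push_cast
    field_simp
  rw [this]
  exact smul_mem_coeffSubring (intCast_mem_intSubring _) hf

end ComplexSubrings

section LevelOne

open ArithmeticFunction UpperHalfPlane ModularForm ModularFormClass MatrixGroups EisensteinSeries
open scoped ArithmeticFunction.sigma

theorem twelve_dvd_aux (d : ℕ) : (12 : ℤ) ∣ 5 * (d : ℤ) ^ 3 + 7 * (d : ℤ) ^ 5 := by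
  have h : ∀ x : ZMod 12, 5 * x ^ 3 + 7 * x ^ 5 = 0 := by decide
  have h1 := h (d : ZMod 12)
  have h2 := (ZMod.intCast_zmod_eq_zero_iff_dvd (5 * (d : ℤ) ^ 3 + 7 * (d : ℤ) ^ 5) 12).mp
  apply h2
  push_cast
  exact h1

theorem twelve_dvd_sigma (n : ℕ) : (12 : ℤ) ∣ 5 * (σ 3 n : ℤ) + 7 * (σ 5 n : ℤ) := by
  rw [sigma_apply, sigma_apply]
  push_cast
  rw [Finset.mul_sum, Finset.mul_sum, ← Finset.sum_add_distrib]
  exact Finset.dvd_sum fun d _ => twelve_dvd_aux d

/-- The formal series `∑ σ_k(n) q^n` over `ℤ`. -/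
def sigmaSeries (k : ℕ) : PowerSeries ℤ := PowerSeries.mk fun n => (σ k n : ℤ)

@[simp] theorem coeff_sigmaSeries (k n : ℕ) : coeff n (sigmaSeries k) = (σ k n : ℤ) := by
  simp [sigmaSeries]

theorem constantCoeff_sigmaSeries (k : ℕ) : constantCoeff (sigmaSeries k) = 0 := by
  rw [← coeff_zero_eq_constantCoeff_apply, coeff_sigmaSeries]
  simp

/-- The integer q-expansion `1 + 240 ∑ σ_3(n) q^n` of `E₄`. -/
def E4Z : PowerSeries ℤ := 1 + 240 * sigmaSeries 3

/-- The integer q-expansion `1 - 504 ∑ σ_5(n) q^n` of `E₆`. -/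
def E6Z : PowerSeries ℤ := 1 - 504 * sigmaSeries 5

theorem coeff_E4Z (n : ℕ) : coeff n E4Z = if n = 0 then 1 else 240 * (σ 3 n : ℤ) := by
  have h : (240 : PowerSeries ℤ) = C (240 : ℤ) := (map_ofNat C 240).symm
  rw [E4Z, map_add, h, coeff_C_mul, coeff_sigmaSeries, coeff_one]
  split_ifs with hn
  · subst hn; simp
  · simp

theorem coeff_E6Z (n : ℕ) : coeff n E6Z = if n = 0 then 1 else -504 * (σ 5 n : ℤ) := by
  have h : (504 : PowerSeries ℤ) = C (504 : ℤ) := (map_ofNat C 504).symm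
  rw [E6Z, map_sub, h, coeff_C_mul, coeff_sigmaSeries, coeff_one]
  split_ifs with hn
  · subst hn; simp
  · simp

theorem constantCoeff_E4Z : constantCoeff E4Z = 1 := by
  rw [← coeff_zero_eq_constantCoeff_apply, coeff_E4Z, if_pos rfl]

theorem constantCoeff_E6Z : constantCoeff E6Z = 1 := by
  rw [← coeff_zero_eq_constantCoeff_apply, coeff_E6Z, if_pos rfl]

/-- The q-expansion of `E₄` has integer coefficients, given by `E4Z`. -/
theorem qExpansion_E4 : qExpansion 1 E₄ = E4Z.map (Int.castRingHom ℂ) := by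
  ext n
  rw [E_qExpansion_coeff _ ⟨2, rfl⟩, coeff_map, coeff_E4Z,
    show bernoulli 4 = -1 / 30 by decide +kernel]
  split_ifs with hn
  · simp
  · simp only [eq_intCast]
    push_cast
    ring

/-- The q-expansion of `E₆` has integer coefficients, given by `E6Z`. -/
theorem qExpansion_E6 : qExpansion 1 E₆ = E6Z.map (Int.castRingHom ℂ) := by
  ext n
  rw [E_qExpansion_coeff _ ⟨3, rfl⟩, coeff_map, coeff_E6Z,
    show bernoulli 6 = 1 / 42 by decide +kernel]
  split_ifs with hn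
  · simp
  · simp only [eq_intCast]
    push_cast
    ring

/-- Auxiliary integer series `(5 σ_3 + 7 σ_5) / 12`. -/
def cSeries : PowerSeries ℤ :=
  PowerSeries.mk fun n => (5 * (σ 3 n : ℤ) + 7 * (σ 5 n : ℤ)) / 12

theorem twelve_mul_cSeries : 12 * cSeries = 5 * sigmaSeries 3 + 7 * sigmaSeries 5 := by
  ext n
  have h12 : (12 : PowerSeries ℤ) = C (12 : ℤ) := (map_ofNat C 12).symm
  have h5 : (5 : PowerSeries ℤ) = C (5 : ℤ) := (map_ofNat C 5).symm
  have h7 : (7 : PowerSeries ℤ) = C (7 : ℤ) := (map_ofNat C 7).symm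
  rw [h12, h5, h7, map_add, coeff_C_mul, coeff_C_mul, coeff_C_mul, coeff_sigmaSeries,
    coeff_sigmaSeries, cSeries, coeff_mk]
  exact Int.mul_ediv_cancel' (twelve_dvd_sigma n)

/-- The integer q-expansion of the discriminant `Δ = (E₄³ - E₆²)/1728`. -/
def DeltaZ : PowerSeries ℤ :=
  cSeries + 100 * sigmaSeries 3 ^ 2 + 8000 * sigmaSeries 3 ^ 3 - 147 * sigmaSeries 5 ^ 2

theorem E4Z_cube_sub_E6Z_sq : E4Z ^ 3 - E6Z ^ 2 = 1728 * DeltaZ := by
  unfold E4Z E6Z DeltaZ
  linear_combination (-144 : PowerSeries ℤ) * twelve_mul_cSeries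

/-- `E₄³ - E₆²` as a level-one form of weight 12. -/
def e4CubeSubE6Sq : ModularForm 𝒮ℒ 12 :=
  ModularForm.mcast (by decide) (E₄.pow 3) - ModularForm.mcast (by decide) (E₆.pow 2)

theorem e4CubeSubE6Sq_apply (z : ℍ) : e4CubeSubE6Sq z = E₄ z ^ 3 - E₆ z ^ 2 := by
  simp only [e4CubeSubE6Sq, coe_mcast, ModularForm.coe_pow, sub_apply, Pi.pow_apply]

theorem qExpansion_e4CubeSubE6Sq :
    qExpansion 1 e4CubeSubE6Sq = qExpansion 1 E₄ ^ 3 - qExpansion 1 E₆ ^ 2 := by
  simp only [e4CubeSubE6Sq, FunLike.coe_sub, coe_mcast,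
    ModularForm.qExpansion_sub one_pos one_mem_strictPeriods_SL,
    ModularForm.qExpansion_pow one_pos one_mem_strictPeriods_SL]

theorem discriminant_eq_smul :
    (discriminant : ℍ → ℂ) = (1 / 1728 : ℂ) • ⇑e4CubeSubE6Sq := by
  funext z
  rw [Pi.smul_apply, e4CubeSubE6Sq_apply, discriminant_eq_E₄_cube_sub_E₆_sq, smul_eq_mul]
  ring

theorem qExpansion_discriminant_eq :
    qExpansion 1 discriminant =
      (1 / 1728 : ℂ) • (qExpansion 1 E₄ ^ 3 - qExpansion 1 E₆ ^ 2) := by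
  rw [discriminant_eq_smul, ModularForm.qExpansion_smul one_pos one_mem_strictPeriods_SL,
    qExpansion_e4CubeSubE6Sq]

/-- The q-expansion of the discriminant has integer coefficients, given by `DeltaZ`. -/
theorem qExpansion_discriminant :
    qExpansion 1 discriminant = DeltaZ.map (Int.castRingHom ℂ) := by
  rw [qExpansion_discriminant_eq, qExpansion_E4, qExpansion_E6, ← map_pow, ← map_pow,
    ← map_sub, E4Z_cube_sub_E6Z_sq, map_mul]
  ext n
  have h : (PowerSeries.map (Int.castRingHom ℂ)) (1728 : PowerSeries ℤ) = C (1728 : ℂ) := by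
    rw [← map_ofNat (C (R := ℤ)) 1728, map_C]
    simp
  rw [h, coeff_smul, coeff_C_mul, smul_eq_mul]
  ring

theorem qExpansion_cuspForm_discriminant :
    qExpansion 1 CuspForm.discriminant = DeltaZ.map (Int.castRingHom ℂ) := by
  rw [← qExpansion_discriminant]
  rfl

theorem coeff_zero_DeltaZ : coeff 0 DeltaZ = 0 := by
  have h1 : constantCoeff (sigmaSeries 3) = 0 := constantCoeff_sigmaSeries 3
  have h2 : constantCoeff (sigmaSeries 5) = 0 := constantCoeff_sigmaSeries 5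
  have h3 : constantCoeff cSeries = 0 := by
    rw [← coeff_zero_eq_constantCoeff_apply, cSeries, coeff_mk]
    simp
  rw [coeff_zero_eq_constantCoeff_apply, DeltaZ]
  simp [h1, h2, h3]

theorem coeff_one_DeltaZ : coeff 1 DeltaZ = 1 := by
  have h := discriminant_qExpansion_coeff_one
  rw [qExpansion_discriminant, coeff_map] at h
  have : ((coeff 1 DeltaZ : ℤ) : ℂ) = ((1 : ℤ) : ℂ) := by simpa using h
  exact_mod_cast this

/-- `DeltaZ = q * (1 + ...)`: the cofactor. -/
def DeltaUnitZ : PowerSeries ℤ := PowerSeries.mk fun n => coeff (n + 1) DeltaZ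

theorem DeltaZ_eq_X_mul : DeltaZ = X * DeltaUnitZ := by
  ext n
  rcases n with _ | n
  · rw [coeff_zero_DeltaZ]
    simp
  · rw [coeff_succ_X_mul, DeltaUnitZ, coeff_mk]

theorem constantCoeff_DeltaUnitZ : constantCoeff DeltaUnitZ = 1 := by
  rw [← coeff_zero_eq_constantCoeff_apply, DeltaUnitZ, coeff_mk, zero_add, coeff_one_DeltaZ]

theorem isUnit_DeltaUnitZ : IsUnit DeltaUnitZ := by
  rw [PowerSeries.isUnit_iff_constantCoeff, constantCoeff_DeltaUnitZ]
  exact isUnit_one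

theorem qExpansion_E4_mem (R : Subring ℂ) : qExpansion 1 E₄ ∈ coeffSubring R := by
  rw [qExpansion_E4]
  exact map_int_mem_coeffSubring _ R

theorem qExpansion_E6_mem (R : Subring ℂ) : qExpansion 1 E₆ ∈ coeffSubring R := by
  rw [qExpansion_E6]
  exact map_int_mem_coeffSubring _ R

theorem qExpansion_discriminant_mem (R : Subring ℂ) :
    qExpansion 1 discriminant ∈ coeffSubring R := by
  rw [qExpansion_discriminant]
  exact map_int_mem_coeffSubring _ R

/-- Division by the discriminant preserves coefficient subrings: if `Δ_q * g` has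
coefficients in `R` then so does `g`. -/
theorem mem_coeffSubring_of_discriminant_mul {R : Subring ℂ} {g : PowerSeries ℂ}
    (h : qExpansion 1 discriminant * g ∈ coeffSubring R) : g ∈ coeffSubring R := by
  rw [qExpansion_discriminant, DeltaZ_eq_X_mul, map_mul, map_X, mul_assoc] at h
  have h1 := mem_coeffSubring_of_X_mul h
  refine mem_coeffSubring_of_mul_mem (map_int_mem_coeffSubring DeltaUnitZ R) ?_ h1
  rw [← coeff_zero_eq_constantCoeff_apply, coeff_map, coeff_zero_eq_constantCoeff_apply,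
    constantCoeff_DeltaUnitZ]
  simp

/-- Division by the discriminant preserves bounded denominators. -/
theorem mem_boundedDenSubring_of_discriminant_mul {g : PowerSeries ℂ}
    (h : qExpansion 1 discriminant * g ∈ boundedDenSubring) : g ∈ boundedDenSubring := by
  obtain ⟨M, hM, hg⟩ := h
  refine ⟨M, hM, ?_⟩
  apply mem_coeffSubring_of_discriminant_mul
  rwa [mul_smul_comm]

/-- All normalised level-one Eisenstein series have rational q-expansions. -/
theorem qExpansion_E_mem_rat {k : ℕ} (hk : 3 ≤ k) (hk2 : Even k) :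
    qExpansion 1 (E hk) ∈ coeffSubring ratSubring := by
  intro n
  rw [E_qExpansion_coeff hk hk2]
  split_ifs
  · exact ratSubring.one_mem
  · refine mem_ratSubring.2 ⟨-(2 * k / bernoulli k) * (σ (k - 1) n : ℚ), ?_⟩
    push_cast
    rfl

end LevelOne

end Fermat.Agent.S23.IntSeries

/-! ## API in terms of the shared predicates `IsIntPS`, `IsRatPS`, `IsAlgIntPS`, `IsAlgPS` -/

namespace Fermat.Agent.S23

open IntSeries UpperHalfPlane ModularForm

/-! ### `IsIntPS` -/

theorem isIntPS_iff_mem {p : PowerSeries ℂ} : IsIntPS p ↔ p ∈ coeffSubring intSubring := by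
  unfold IsIntPS
  rw [mem_coeffSubring]
  refine forall_congr' fun n => ?_
  rw [mem_intSubring]
  exact exists_congr fun m => eq_comm

theorem isIntPS_zero : IsIntPS (0 : PowerSeries ℂ) := isIntPS_iff_mem.2 (Subring.zero_mem _)

theorem isIntPS_one : IsIntPS (1 : PowerSeries ℂ) := isIntPS_iff_mem.2 (Subring.one_mem _)

theorem isIntPS_X : IsIntPS (PowerSeries.X : PowerSeries ℂ) :=
  isIntPS_iff_mem.2 (X_mem_coeffSubring _)

theorem isIntPS_C {a : ℂ} (ha : a ∈ intSubring) : IsIntPS (PowerSeries.C a) :=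
  isIntPS_iff_mem.2 (C_mem_coeffSubring ha)

theorem isIntPS_intCast (n : ℤ) : IsIntPS ((n : ℂ) • (1 : PowerSeries ℂ)) :=
  isIntPS_iff_mem.2 (smul_mem_coeffSubring (intSubring_le _ (intCast_mem_intSubring n))
    (Subring.one_mem _))

theorem IsIntPS.add {p q : PowerSeries ℂ} (hp : IsIntPS p) (hq : IsIntPS q) : IsIntPS (p + q) :=
  isIntPS_iff_mem.2 (Subring.add_mem _ (isIntPS_iff_mem.1 hp) (isIntPS_iff_mem.1 hq))

theorem IsIntPS.neg {p : PowerSeries ℂ} (hp : IsIntPS p) : IsIntPS (-p) :=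
  isIntPS_iff_mem.2 (Subring.neg_mem _ (isIntPS_iff_mem.1 hp))

theorem IsIntPS.sub {p q : PowerSeries ℂ} (hp : IsIntPS p) (hq : IsIntPS q) : IsIntPS (p - q) :=
  isIntPS_iff_mem.2 (Subring.sub_mem _ (isIntPS_iff_mem.1 hp) (isIntPS_iff_mem.1 hq))

theorem IsIntPS.mul {p q : PowerSeries ℂ} (hp : IsIntPS p) (hq : IsIntPS q) : IsIntPS (p * q) :=
  isIntPS_iff_mem.2 (Subring.mul_mem _ (isIntPS_iff_mem.1 hp) (isIntPS_iff_mem.1 hq))

theorem IsIntPS.pow {p : PowerSeries ℂ} (hp : IsIntPS p) (n : ℕ) : IsIntPS (p ^ n) :=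
  isIntPS_iff_mem.2 (Subring.pow_mem _ (isIntPS_iff_mem.1 hp) n)

theorem IsIntPS.sum {ι : Type*} (s : Finset ι) {f : ι → PowerSeries ℂ}
    (h : ∀ i ∈ s, IsIntPS (f i)) : IsIntPS (∑ i ∈ s, f i) :=
  isIntPS_iff_mem.2 (Subring.sum_mem _ fun i hi => isIntPS_iff_mem.1 (h i hi))

theorem IsIntPS.prod {ι : Type*} (s : Finset ι) {f : ι → PowerSeries ℂ}
    (h : ∀ i ∈ s, IsIntPS (f i)) : IsIntPS (∏ i ∈ s, f i) :=
  isIntPS_iff_mem.2 (Subring.prod_mem _ fun i hi => isIntPS_iff_mem.1 (h i hi))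

theorem IsIntPS.smul {a : ℂ} (ha : a ∈ intSubring) {p : PowerSeries ℂ} (hp : IsIntPS p) :
    IsIntPS (a • p) :=
  isIntPS_iff_mem.2 (smul_mem_coeffSubring ha (isIntPS_iff_mem.1 hp))

theorem IsIntPS.intCast_smul (n : ℤ) {p : PowerSeries ℂ} (hp : IsIntPS p) : IsIntPS ((n : ℂ) • p) :=
  hp.smul (intSubring_le _ (intCast_mem_intSubring n))

theorem IsIntPS.natCast_smul (n : ℕ) {p : PowerSeries ℂ} (hp : IsIntPS p) : IsIntPS ((n : ℂ) • p) :=
  hp.smul (intSubring_le _ (natCast_mem_intSubring n))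

theorem IsIntPS.expand {p : PowerSeries ℂ} (hp : IsIntPS p) (n : ℕ) (hn : n ≠ 0) :
    IsIntPS (p.expand n hn) :=
  isIntPS_iff_mem.2 (expand_mem_coeffSubring (isIntPS_iff_mem.1 hp) n hn)

theorem IsIntPS.of_expand {p : PowerSeries ℂ} (n : ℕ) (hn : n ≠ 0) (hp : IsIntPS (p.expand n hn)) :
    IsIntPS p :=
  isIntPS_iff_mem.2 (mem_coeffSubring_of_expand n hn (isIntPS_iff_mem.1 hp))

theorem IsIntPS.of_X_mul {p : PowerSeries ℂ} (hp : IsIntPS (PowerSeries.X * p)) : IsIntPS p :=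
  isIntPS_iff_mem.2 (mem_coeffSubring_of_X_mul (isIntPS_iff_mem.1 hp))

/-- A series in the class with constant coefficient `1` is a unit of the class. -/
theorem IsIntPS.exists_mul_eq_one {p : PowerSeries ℂ} (hp : IsIntPS p)
    (hp0 : PowerSeries.coeff 0 p = 1) : ∃ p' : PowerSeries ℂ, IsIntPS p' ∧ p * p' = 1 := by
  rw [PowerSeries.coeff_zero_eq_constantCoeff_apply] at hp0
  obtain ⟨g, hg, h1, -⟩ := exists_inverse_mem_coeffSubring (isIntPS_iff_mem.1 hp) hp0
  exact ⟨g, isIntPS_iff_mem.2 hg, h1⟩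

/-- Cancellation of a factor with constant coefficient `1`. -/
theorem IsIntPS.of_mul {p q : PowerSeries ℂ} (hp : IsIntPS p) (hp0 : PowerSeries.coeff 0 p = 1)
    (hpq : IsIntPS (p * q)) : IsIntPS q := by
  rw [PowerSeries.coeff_zero_eq_constantCoeff_apply] at hp0
  exact isIntPS_iff_mem.2
    (mem_coeffSubring_of_mul_mem (isIntPS_iff_mem.1 hp) hp0 (isIntPS_iff_mem.1 hpq))

/-- Division by the discriminant stays in the class. -/
theorem IsIntPS.of_discriminant_mul {p : PowerSeries ℂ}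
    (hp : IsIntPS (qExpansion 1 ModularForm.discriminant * p)) : IsIntPS p :=
  isIntPS_iff_mem.2 (mem_coeffSubring_of_discriminant_mul (isIntPS_iff_mem.1 hp))

/-! ### `IsRatPS` -/

theorem isRatPS_iff_mem {p : PowerSeries ℂ} : IsRatPS p ↔ p ∈ coeffSubring ratSubring := by
  unfold IsRatPS
  rw [mem_coeffSubring]
  refine forall_congr' fun n => ?_
  rw [mem_ratSubring]
  exact exists_congr fun m => eq_comm

theorem isRatPS_zero : IsRatPS (0 : PowerSeries ℂ) := isRatPS_iff_mem.2 (Subring.zero_mem _)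

theorem isRatPS_one : IsRatPS (1 : PowerSeries ℂ) := isRatPS_iff_mem.2 (Subring.one_mem _)

theorem isRatPS_X : IsRatPS (PowerSeries.X : PowerSeries ℂ) :=
  isRatPS_iff_mem.2 (X_mem_coeffSubring _)

theorem isRatPS_C {a : ℂ} (ha : a ∈ ratSubring) : IsRatPS (PowerSeries.C a) :=
  isRatPS_iff_mem.2 (C_mem_coeffSubring ha)

theorem isRatPS_intCast (n : ℤ) : IsRatPS ((n : ℂ) • (1 : PowerSeries ℂ)) :=
  isRatPS_iff_mem.2 (smul_mem_coeffSubring (intSubring_le _ (intCast_mem_intSubring n))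
    (Subring.one_mem _))

theorem IsRatPS.add {p q : PowerSeries ℂ} (hp : IsRatPS p) (hq : IsRatPS q) : IsRatPS (p + q) :=
  isRatPS_iff_mem.2 (Subring.add_mem _ (isRatPS_iff_mem.1 hp) (isRatPS_iff_mem.1 hq))

theorem IsRatPS.neg {p : PowerSeries ℂ} (hp : IsRatPS p) : IsRatPS (-p) :=
  isRatPS_iff_mem.2 (Subring.neg_mem _ (isRatPS_iff_mem.1 hp))

theorem IsRatPS.sub {p q : PowerSeries ℂ} (hp : IsRatPS p) (hq : IsRatPS q) : IsRatPS (p - q) :=
  isRatPS_iff_mem.2 (Subring.sub_mem _ (isRatPS_iff_mem.1 hp) (isRatPS_iff_mem.1 hq))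

theorem IsRatPS.mul {p q : PowerSeries ℂ} (hp : IsRatPS p) (hq : IsRatPS q) : IsRatPS (p * q) :=
  isRatPS_iff_mem.2 (Subring.mul_mem _ (isRatPS_iff_mem.1 hp) (isRatPS_iff_mem.1 hq))

theorem IsRatPS.pow {p : PowerSeries ℂ} (hp : IsRatPS p) (n : ℕ) : IsRatPS (p ^ n) :=
  isRatPS_iff_mem.2 (Subring.pow_mem _ (isRatPS_iff_mem.1 hp) n)

theorem IsRatPS.sum {ι : Type*} (s : Finset ι) {f : ι → PowerSeries ℂ}
    (h : ∀ i ∈ s, IsRatPS (f i)) : IsRatPS (∑ i ∈ s, f i) :=
  isRatPS_iff_mem.2 (Subring.sum_mem _ fun i hi => isRatPS_iff_mem.1 (h i hi))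

theorem IsRatPS.prod {ι : Type*} (s : Finset ι) {f : ι → PowerSeries ℂ}
    (h : ∀ i ∈ s, IsRatPS (f i)) : IsRatPS (∏ i ∈ s, f i) :=
  isRatPS_iff_mem.2 (Subring.prod_mem _ fun i hi => isRatPS_iff_mem.1 (h i hi))

theorem IsRatPS.smul {a : ℂ} (ha : a ∈ ratSubring) {p : PowerSeries ℂ} (hp : IsRatPS p) :
    IsRatPS (a • p) :=
  isRatPS_iff_mem.2 (smul_mem_coeffSubring ha (isRatPS_iff_mem.1 hp))

theorem IsRatPS.intCast_smul (n : ℤ) {p : PowerSeries ℂ} (hp : IsRatPS p) : IsRatPS ((n : ℂ) • p) :=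
  hp.smul (intSubring_le _ (intCast_mem_intSubring n))

theorem IsRatPS.natCast_smul (n : ℕ) {p : PowerSeries ℂ} (hp : IsRatPS p) : IsRatPS ((n : ℂ) • p) :=
  hp.smul (intSubring_le _ (natCast_mem_intSubring n))

theorem IsRatPS.expand {p : PowerSeries ℂ} (hp : IsRatPS p) (n : ℕ) (hn : n ≠ 0) :
    IsRatPS (p.expand n hn) :=
  isRatPS_iff_mem.2 (expand_mem_coeffSubring (isRatPS_iff_mem.1 hp) n hn)

theorem IsRatPS.of_expand {p : PowerSeries ℂ} (n : ℕ) (hn : n ≠ 0) (hp : IsRatPS (p.expand n hn)) :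
    IsRatPS p :=
  isRatPS_iff_mem.2 (mem_coeffSubring_of_expand n hn (isRatPS_iff_mem.1 hp))

theorem IsRatPS.of_X_mul {p : PowerSeries ℂ} (hp : IsRatPS (PowerSeries.X * p)) : IsRatPS p :=
  isRatPS_iff_mem.2 (mem_coeffSubring_of_X_mul (isRatPS_iff_mem.1 hp))

/-- A series in the class with constant coefficient `1` is a unit of the class. -/
theorem IsRatPS.exists_mul_eq_one {p : PowerSeries ℂ} (hp : IsRatPS p)
    (hp0 : PowerSeries.coeff 0 p = 1) : ∃ p' : PowerSeries ℂ, IsRatPS p' ∧ p * p' = 1 := by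
  rw [PowerSeries.coeff_zero_eq_constantCoeff_apply] at hp0
  obtain ⟨g, hg, h1, -⟩ := exists_inverse_mem_coeffSubring (isRatPS_iff_mem.1 hp) hp0
  exact ⟨g, isRatPS_iff_mem.2 hg, h1⟩

/-- Cancellation of a factor with constant coefficient `1`. -/
theorem IsRatPS.of_mul {p q : PowerSeries ℂ} (hp : IsRatPS p) (hp0 : PowerSeries.coeff 0 p = 1)
    (hpq : IsRatPS (p * q)) : IsRatPS q := by
  rw [PowerSeries.coeff_zero_eq_constantCoeff_apply] at hp0
  exact isRatPS_iff_mem.2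
    (mem_coeffSubring_of_mul_mem (isRatPS_iff_mem.1 hp) hp0 (isRatPS_iff_mem.1 hpq))

/-- Division by the discriminant stays in the class. -/
theorem IsRatPS.of_discriminant_mul {p : PowerSeries ℂ}
    (hp : IsRatPS (qExpansion 1 ModularForm.discriminant * p)) : IsRatPS p :=
  isRatPS_iff_mem.2 (mem_coeffSubring_of_discriminant_mul (isRatPS_iff_mem.1 hp))

/-! ### `IsAlgIntPS` -/

theorem isAlgIntPS_iff_mem {p : PowerSeries ℂ} : IsAlgIntPS p ↔ p ∈ coeffSubring algIntSubring := by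
  unfold IsAlgIntPS
  rw [mem_coeffSubring]
  refine forall_congr' fun n => ?_
  rw [mem_algIntSubring]
  

theorem isAlgIntPS_zero : IsAlgIntPS (0 : PowerSeries ℂ) := isAlgIntPS_iff_mem.2 (Subring.zero_mem _)

theorem isAlgIntPS_one : IsAlgIntPS (1 : PowerSeries ℂ) := isAlgIntPS_iff_mem.2 (Subring.one_mem _)

theorem isAlgIntPS_X : IsAlgIntPS (PowerSeries.X : PowerSeries ℂ) :=
  isAlgIntPS_iff_mem.2 (X_mem_coeffSubring _)

theorem isAlgIntPS_C {a : ℂ} (ha : a ∈ algIntSubring) : IsAlgIntPS (PowerSeries.C a) :=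
  isAlgIntPS_iff_mem.2 (C_mem_coeffSubring ha)

theorem isAlgIntPS_intCast (n : ℤ) : IsAlgIntPS ((n : ℂ) • (1 : PowerSeries ℂ)) :=
  isAlgIntPS_iff_mem.2 (smul_mem_coeffSubring (intSubring_le _ (intCast_mem_intSubring n))
    (Subring.one_mem _))

theorem IsAlgIntPS.add {p q : PowerSeries ℂ} (hp : IsAlgIntPS p) (hq : IsAlgIntPS q) : IsAlgIntPS (p + q) :=
  isAlgIntPS_iff_mem.2 (Subring.add_mem _ (isAlgIntPS_iff_mem.1 hp) (isAlgIntPS_iff_mem.1 hq))

theorem IsAlgIntPS.neg {p : PowerSeries ℂ} (hp : IsAlgIntPS p) : IsAlgIntPS (-p) :=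
  isAlgIntPS_iff_mem.2 (Subring.neg_mem _ (isAlgIntPS_iff_mem.1 hp))

theorem IsAlgIntPS.sub {p q : PowerSeries ℂ} (hp : IsAlgIntPS p) (hq : IsAlgIntPS q) : IsAlgIntPS (p - q) :=
  isAlgIntPS_iff_mem.2 (Subring.sub_mem _ (isAlgIntPS_iff_mem.1 hp) (isAlgIntPS_iff_mem.1 hq))

theorem IsAlgIntPS.mul {p q : PowerSeries ℂ} (hp : IsAlgIntPS p) (hq : IsAlgIntPS q) : IsAlgIntPS (p * q) :=
  isAlgIntPS_iff_mem.2 (Subring.mul_mem _ (isAlgIntPS_iff_mem.1 hp) (isAlgIntPS_iff_mem.1 hq))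

theorem IsAlgIntPS.pow {p : PowerSeries ℂ} (hp : IsAlgIntPS p) (n : ℕ) : IsAlgIntPS (p ^ n) :=
  isAlgIntPS_iff_mem.2 (Subring.pow_mem _ (isAlgIntPS_iff_mem.1 hp) n)

theorem IsAlgIntPS.sum {ι : Type*} (s : Finset ι) {f : ι → PowerSeries ℂ}
    (h : ∀ i ∈ s, IsAlgIntPS (f i)) : IsAlgIntPS (∑ i ∈ s, f i) :=
  isAlgIntPS_iff_mem.2 (Subring.sum_mem _ fun i hi => isAlgIntPS_iff_mem.1 (h i hi))

theorem IsAlgIntPS.prod {ι : Type*} (s : Finset ι) {f : ι → PowerSeries ℂ}
    (h : ∀ i ∈ s, IsAlgIntPS (f i)) : IsAlgIntPS (∏ i ∈ s, f i) :=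
  isAlgIntPS_iff_mem.2 (Subring.prod_mem _ fun i hi => isAlgIntPS_iff_mem.1 (h i hi))

theorem IsAlgIntPS.smul {a : ℂ} (ha : a ∈ algIntSubring) {p : PowerSeries ℂ} (hp : IsAlgIntPS p) :
    IsAlgIntPS (a • p) :=
  isAlgIntPS_iff_mem.2 (smul_mem_coeffSubring ha (isAlgIntPS_iff_mem.1 hp))

theorem IsAlgIntPS.intCast_smul (n : ℤ) {p : PowerSeries ℂ} (hp : IsAlgIntPS p) : IsAlgIntPS ((n : ℂ) • p) :=
  hp.smul (intSubring_le _ (intCast_mem_intSubring n))

theorem IsAlgIntPS.natCast_smul (n : ℕ) {p : PowerSeries ℂ} (hp : IsAlgIntPS p) : IsAlgIntPS ((n : ℂ) • p) :=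
  hp.smul (intSubring_le _ (natCast_mem_intSubring n))

theorem IsAlgIntPS.expand {p : PowerSeries ℂ} (hp : IsAlgIntPS p) (n : ℕ) (hn : n ≠ 0) :
    IsAlgIntPS (p.expand n hn) :=
  isAlgIntPS_iff_mem.2 (expand_mem_coeffSubring (isAlgIntPS_iff_mem.1 hp) n hn)

theorem IsAlgIntPS.of_expand {p : PowerSeries ℂ} (n : ℕ) (hn : n ≠ 0) (hp : IsAlgIntPS (p.expand n hn)) :
    IsAlgIntPS p :=
  isAlgIntPS_iff_mem.2 (mem_coeffSubring_of_expand n hn (isAlgIntPS_iff_mem.1 hp))

theorem IsAlgIntPS.of_X_mul {p : PowerSeries ℂ} (hp : IsAlgIntPS (PowerSeries.X * p)) : IsAlgIntPS p :=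
  isAlgIntPS_iff_mem.2 (mem_coeffSubring_of_X_mul (isAlgIntPS_iff_mem.1 hp))

/-- A series in the class with constant coefficient `1` is a unit of the class. -/
theorem IsAlgIntPS.exists_mul_eq_one {p : PowerSeries ℂ} (hp : IsAlgIntPS p)
    (hp0 : PowerSeries.coeff 0 p = 1) : ∃ p' : PowerSeries ℂ, IsAlgIntPS p' ∧ p * p' = 1 := by
  rw [PowerSeries.coeff_zero_eq_constantCoeff_apply] at hp0
  obtain ⟨g, hg, h1, -⟩ := exists_inverse_mem_coeffSubring (isAlgIntPS_iff_mem.1 hp) hp0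
  exact ⟨g, isAlgIntPS_iff_mem.2 hg, h1⟩

/-- Cancellation of a factor with constant coefficient `1`. -/
theorem IsAlgIntPS.of_mul {p q : PowerSeries ℂ} (hp : IsAlgIntPS p) (hp0 : PowerSeries.coeff 0 p = 1)
    (hpq : IsAlgIntPS (p * q)) : IsAlgIntPS q := by
  rw [PowerSeries.coeff_zero_eq_constantCoeff_apply] at hp0
  exact isAlgIntPS_iff_mem.2
    (mem_coeffSubring_of_mul_mem (isAlgIntPS_iff_mem.1 hp) hp0 (isAlgIntPS_iff_mem.1 hpq))

/-- Division by the discriminant stays in the class. -/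
theorem IsAlgIntPS.of_discriminant_mul {p : PowerSeries ℂ}
    (hp : IsAlgIntPS (qExpansion 1 ModularForm.discriminant * p)) : IsAlgIntPS p :=
  isAlgIntPS_iff_mem.2 (mem_coeffSubring_of_discriminant_mul (isAlgIntPS_iff_mem.1 hp))

/-! ### `IsAlgPS` -/

theorem isAlgPS_iff_mem {p : PowerSeries ℂ} : IsAlgPS p ↔ p ∈ coeffSubring algSubring := by
  unfold IsAlgPS
  rw [mem_coeffSubring]
  refine forall_congr' fun n => ?_
  rw [mem_algSubring]
  

theorem isAlgPS_zero : IsAlgPS (0 : PowerSeries ℂ) := isAlgPS_iff_mem.2 (Subring.zero_mem _)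

theorem isAlgPS_one : IsAlgPS (1 : PowerSeries ℂ) := isAlgPS_iff_mem.2 (Subring.one_mem _)

theorem isAlgPS_X : IsAlgPS (PowerSeries.X : PowerSeries ℂ) :=
  isAlgPS_iff_mem.2 (X_mem_coeffSubring _)

theorem isAlgPS_C {a : ℂ} (ha : a ∈ algSubring) : IsAlgPS (PowerSeries.C a) :=
  isAlgPS_iff_mem.2 (C_mem_coeffSubring ha)

theorem isAlgPS_intCast (n : ℤ) : IsAlgPS ((n : ℂ) • (1 : PowerSeries ℂ)) :=
  isAlgPS_iff_mem.2 (smul_mem_coeffSubring (intSubring_le _ (intCast_mem_intSubring n))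
    (Subring.one_mem _))

theorem IsAlgPS.add {p q : PowerSeries ℂ} (hp : IsAlgPS p) (hq : IsAlgPS q) : IsAlgPS (p + q) :=
  isAlgPS_iff_mem.2 (Subring.add_mem _ (isAlgPS_iff_mem.1 hp) (isAlgPS_iff_mem.1 hq))

theorem IsAlgPS.neg {p : PowerSeries ℂ} (hp : IsAlgPS p) : IsAlgPS (-p) :=
  isAlgPS_iff_mem.2 (Subring.neg_mem _ (isAlgPS_iff_mem.1 hp))

theorem IsAlgPS.sub {p q : PowerSeries ℂ} (hp : IsAlgPS p) (hq : IsAlgPS q) : IsAlgPS (p - q) :=
  isAlgPS_iff_mem.2 (Subring.sub_mem _ (isAlgPS_iff_mem.1 hp) (isAlgPS_iff_mem.1 hq))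

theorem IsAlgPS.mul {p q : PowerSeries ℂ} (hp : IsAlgPS p) (hq : IsAlgPS q) : IsAlgPS (p * q) :=
  isAlgPS_iff_mem.2 (Subring.mul_mem _ (isAlgPS_iff_mem.1 hp) (isAlgPS_iff_mem.1 hq))

theorem IsAlgPS.pow {p : PowerSeries ℂ} (hp : IsAlgPS p) (n : ℕ) : IsAlgPS (p ^ n) :=
  isAlgPS_iff_mem.2 (Subring.pow_mem _ (isAlgPS_iff_mem.1 hp) n)

theorem IsAlgPS.sum {ι : Type*} (s : Finset ι) {f : ι → PowerSeries ℂ}
    (h : ∀ i ∈ s, IsAlgPS (f i)) : IsAlgPS (∑ i ∈ s, f i) :=
  isAlgPS_iff_mem.2 (Subring.sum_mem _ fun i hi => isAlgPS_iff_mem.1 (h i hi))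

theorem IsAlgPS.prod {ι : Type*} (s : Finset ι) {f : ι → PowerSeries ℂ}
    (h : ∀ i ∈ s, IsAlgPS (f i)) : IsAlgPS (∏ i ∈ s, f i) :=
  isAlgPS_iff_mem.2 (Subring.prod_mem _ fun i hi => isAlgPS_iff_mem.1 (h i hi))

theorem IsAlgPS.smul {a : ℂ} (ha : a ∈ algSubring) {p : PowerSeries ℂ} (hp : IsAlgPS p) :
    IsAlgPS (a • p) :=
  isAlgPS_iff_mem.2 (smul_mem_coeffSubring ha (isAlgPS_iff_mem.1 hp))

theorem IsAlgPS.intCast_smul (n : ℤ) {p : PowerSeries ℂ} (hp : IsAlgPS p) : IsAlgPS ((n : ℂ) • p) :=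
  hp.smul (intSubring_le _ (intCast_mem_intSubring n))

theorem IsAlgPS.natCast_smul (n : ℕ) {p : PowerSeries ℂ} (hp : IsAlgPS p) : IsAlgPS ((n : ℂ) • p) :=
  hp.smul (intSubring_le _ (natCast_mem_intSubring n))

theorem IsAlgPS.expand {p : PowerSeries ℂ} (hp : IsAlgPS p) (n : ℕ) (hn : n ≠ 0) :
    IsAlgPS (p.expand n hn) :=
  isAlgPS_iff_mem.2 (expand_mem_coeffSubring (isAlgPS_iff_mem.1 hp) n hn)

theorem IsAlgPS.of_expand {p : PowerSeries ℂ} (n : ℕ) (hn : n ≠ 0) (hp : IsAlgPS (p.expand n hn)) :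
    IsAlgPS p :=
  isAlgPS_iff_mem.2 (mem_coeffSubring_of_expand n hn (isAlgPS_iff_mem.1 hp))

theorem IsAlgPS.of_X_mul {p : PowerSeries ℂ} (hp : IsAlgPS (PowerSeries.X * p)) : IsAlgPS p :=
  isAlgPS_iff_mem.2 (mem_coeffSubring_of_X_mul (isAlgPS_iff_mem.1 hp))

/-- A series in the class with constant coefficient `1` is a unit of the class. -/
theorem IsAlgPS.exists_mul_eq_one {p : PowerSeries ℂ} (hp : IsAlgPS p)
    (hp0 : PowerSeries.coeff 0 p = 1) : ∃ p' : PowerSeries ℂ, IsAlgPS p' ∧ p * p' = 1 := by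
  rw [PowerSeries.coeff_zero_eq_constantCoeff_apply] at hp0
  obtain ⟨g, hg, h1, -⟩ := exists_inverse_mem_coeffSubring (isAlgPS_iff_mem.1 hp) hp0
  exact ⟨g, isAlgPS_iff_mem.2 hg, h1⟩

/-- Cancellation of a factor with constant coefficient `1`. -/
theorem IsAlgPS.of_mul {p q : PowerSeries ℂ} (hp : IsAlgPS p) (hp0 : PowerSeries.coeff 0 p = 1)
    (hpq : IsAlgPS (p * q)) : IsAlgPS q := by
  rw [PowerSeries.coeff_zero_eq_constantCoeff_apply] at hp0
  exact isAlgPS_iff_mem.2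
    (mem_coeffSubring_of_mul_mem (isAlgPS_iff_mem.1 hp) hp0 (isAlgPS_iff_mem.1 hpq))

/-- Division by the discriminant stays in the class. -/
theorem IsAlgPS.of_discriminant_mul {p : PowerSeries ℂ}
    (hp : IsAlgPS (qExpansion 1 ModularForm.discriminant * p)) : IsAlgPS p :=
  isAlgPS_iff_mem.2 (mem_coeffSubring_of_discriminant_mul (isAlgPS_iff_mem.1 hp))

/-! ### Relations between the classes -/

theorem IsIntPS.isRatPS {p : PowerSeries ℂ} (hp : IsIntPS p) : IsRatPS p :=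
  isRatPS_iff_mem.2 (coeffSubring_mono intSubring_le_ratSubring (isIntPS_iff_mem.1 hp))

theorem IsIntPS.isAlgIntPS {p : PowerSeries ℂ} (hp : IsIntPS p) : IsAlgIntPS p :=
  isAlgIntPS_iff_mem.2 (coeffSubring_mono intSubring_le_algIntSubring (isIntPS_iff_mem.1 hp))

theorem IsRatPS.isAlgPS {p : PowerSeries ℂ} (hp : IsRatPS p) : IsAlgPS p := by
  intro n
  obtain ⟨r, hr⟩ := hp n
  rw [hr]
  exact isAlgebraic_algebraMap (R := ℚ) (A := ℂ) r

theorem IsAlgIntPS.isAlgPS {p : PowerSeries ℂ} (hp : IsAlgIntPS p) : IsAlgPS p :=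
  fun n => ((hp n).tower_top (A := ℚ)).isAlgebraic

theorem IsIntPS.isAlgPS {p : PowerSeries ℂ} (hp : IsIntPS p) : IsAlgPS p := hp.isRatPS.isAlgPS

/-- `Zbar[[q]] ∩ Q[[q]] = Z[[q]]`. -/
theorem isIntPS_of_isAlgIntPS_of_isRatPS {p : PowerSeries ℂ} (h1 : IsAlgIntPS p)
    (h2 : IsRatPS p) : IsIntPS p :=
  isIntPS_iff_mem.2
    (mem_coeffSubring_int_of_algInt_of_rat (isAlgIntPS_iff_mem.1 h1) (isRatPS_iff_mem.1 h2))

theorem isIntPS_iff_exists_map {p : PowerSeries ℂ} :
    IsIntPS p ↔ ∃ g : PowerSeries ℤ, g.map (Int.castRingHom ℂ) = p :=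
  isIntPS_iff_mem.trans mem_coeffSubring_int_iff

theorem isRatPS_iff_exists_map {p : PowerSeries ℂ} :
    IsRatPS p ↔ ∃ g : PowerSeries ℚ, g.map (algebraMap ℚ ℂ) = p :=
  isRatPS_iff_mem.trans mem_coeffSubring_rat_iff

theorem isIntPS_map_int (g : PowerSeries ℤ) : IsIntPS (g.map (Int.castRingHom ℂ)) :=
  isIntPS_iff_exists_map.2 ⟨g, rfl⟩

/-- Rational scalars preserve rationality. -/
theorem IsRatPS.ratCast_smul (r : ℚ) {p : PowerSeries ℂ} (hp : IsRatPS p) :
    IsRatPS ((r : ℂ) • p) := hp.smul (ratCast_mem_ratSubring r)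

/-- A rational series has an integral multiple iff it has bounded denominators. -/
theorem exists_isIntPS_smul_iff {p : PowerSeries ℂ} :
    (∃ M : ℕ, M ≠ 0 ∧ IsIntPS ((M : ℂ) • p)) ↔ p ∈ boundedDenSubring := by
  simp only [mem_boundedDenSubring, isIntPS_iff_mem]

/-! ### Action of field automorphisms -/

theorem conjPS_eq_self_of_isRatPS (σ : ℂ ≃+* ℂ) {p : PowerSeries ℂ} (hp : IsRatPS p) :
    conjPS σ p = p := by
  ext n
  obtain ⟨r, hr⟩ := hp n
  rw [PowerSeries.coeff_map, hr]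
  exact map_ratCast (σ : ℂ →+* ℂ) r

theorem IsIntPS.conjPS_eq (σ : ℂ ≃+* ℂ) {p : PowerSeries ℂ} (hp : IsIntPS p) :
    conjPS σ p = p := conjPS_eq_self_of_isRatPS σ hp.isRatPS

theorem IsRatPS.conjPS (σ : ℂ ≃+* ℂ) {p : PowerSeries ℂ} (hp : IsRatPS p) :
    IsRatPS (conjPS σ p) := by
  rw [conjPS_eq_self_of_isRatPS σ hp]
  exact hp

theorem IsIntPS.conjPS (σ : ℂ ≃+* ℂ) {p : PowerSeries ℂ} (hp : IsIntPS p) :
    IsIntPS (conjPS σ p) := by
  rw [hp.conjPS_eq σ]
  exact hp

theorem IsAlgIntPS.conjPS (σ : ℂ ≃+* ℂ) {p : PowerSeries ℂ} (hp : IsAlgIntPS p) :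
    IsAlgIntPS (conjPS σ p) := by
  intro n
  rw [PowerSeries.coeff_map]
  exact (hp n).map (σ : ℂ →+* ℂ).toIntAlgHom

theorem IsAlgPS.conjPS (σ : ℂ ≃+* ℂ) {p : PowerSeries ℂ} (hp : IsAlgPS p) :
    IsAlgPS (conjPS σ p) := by
  intro n
  rw [PowerSeries.coeff_map]
  have h := hp n
  rw [isAlgebraic_iff_isIntegral] at h ⊢
  exact h.map (σ : ℂ →+* ℂ).toRatAlgHom

theorem conjPS_conjPS_symm (σ : ℂ ≃+* ℂ) (p : PowerSeries ℂ) :
    conjPS σ (conjPS σ.symm p) = p := by
  ext n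
  simp [PowerSeries.coeff_map]

theorem conjPS_symm_conjPS (σ : ℂ ≃+* ℂ) (p : PowerSeries ℂ) :
    conjPS σ.symm (conjPS σ p) = p := by
  ext n
  simp [PowerSeries.coeff_map]

/-! ### Level one -/

/-- The q-expansion of `E₄` has integer coefficients. -/
theorem E4_isIntPS : IsIntPS (qExpansion 1 E₄) := by
  rw [qExpansion_E4]
  exact isIntPS_map_int _

/-- The q-expansion of `E₆` has integer coefficients. -/
theorem E6_isIntPS : IsIntPS (qExpansion 1 E₆) := by
  rw [qExpansion_E6]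
  exact isIntPS_map_int _

/-- The q-expansion of the discriminant has integer coefficients. -/
theorem discriminant_isIntPS : IsIntPS (qExpansion 1 ModularForm.discriminant) := by
  rw [qExpansion_discriminant]
  exact isIntPS_map_int _

theorem cuspForm_discriminant_isIntPS : IsIntPS (qExpansion 1 CuspForm.discriminant) :=
  discriminant_isIntPS

theorem E4_coeff_zero : PowerSeries.coeff 0 (qExpansion 1 E₄) = 1 :=
  EisensteinSeries.E_qExpansion_coeff_zero _ ⟨2, rfl⟩

theorem E6_coeff_zero : PowerSeries.coeff 0 (qExpansion 1 E₆) = 1 :=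
  EisensteinSeries.E_qExpansion_coeff_zero _ ⟨3, rfl⟩

theorem discriminant_coeff_zero :
    PowerSeries.coeff 0 (qExpansion 1 ModularForm.discriminant) = 0 := by
  rw [qExpansion_discriminant, PowerSeries.coeff_map, coeff_zero_DeltaZ]
  simp

theorem discriminant_coeff_one :
    PowerSeries.coeff 1 (qExpansion 1 ModularForm.discriminant) = 1 :=
  discriminant_qExpansion_coeff_one

/-- `Δ_q = X * v` with `v` an integer series with constant coefficient `1`. -/
theorem discriminant_eq_X_mul_unit :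
    ∃ v : PowerSeries ℂ, IsIntPS v ∧ PowerSeries.coeff 0 v = 1 ∧
      qExpansion 1 ModularForm.discriminant = PowerSeries.X * v := by
  refine ⟨DeltaUnitZ.map (Int.castRingHom ℂ), isIntPS_map_int _, ?_, ?_⟩
  · rw [PowerSeries.coeff_map, PowerSeries.coeff_zero_eq_constantCoeff_apply,
      constantCoeff_DeltaUnitZ]
    simp
  · rw [qExpansion_discriminant, DeltaZ_eq_X_mul, map_mul, PowerSeries.map_X]

/-- All normalised level-one Eisenstein series have rational q-expansions. -/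
theorem E_isRatPS {k : ℕ} (hk : 3 ≤ k) (hk2 : Even k) : IsRatPS (qExpansion 1 (E hk)) :=
  isRatPS_iff_mem.2 (qExpansion_E_mem_rat hk hk2)

end Fermat.Agent.S23

end
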