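import Mathlib
import Fermat.Agent.S23.Defs
import Fermat.Agent.S23.IntSeries

set_option autoImplicit false

/-!
Level one modular forms are spanned by forms with integer q-expansions (monomials in E4, E6 and
the discriminant), with control of the ring of coefficients.  Consequences: conjugation of
q-expansions by a ring endomorphism of the complex numbers, and bounded denominators for level one
forms with rational q-expansions.
-/

namespace Fermat.Agent.S23

open UpperHalfPlane ModularForm MatrixGroups EisensteinSeries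
open scoped ModularForm

namespace LevelOne

open IntSeries

/-- The q-expansion of the level one form `f` has all its coefficients in `R`. -/
def HasCoeffsIn (R : Subring ℂ) {k : ℤ} (f : ModularForm 𝒮ℒ k) : Prop :=
  qExpansion 1 f ∈ coeffSubring R

/-- Level one forms of weight `k` with integer q-expansion. -/
def intForms (k : ℤ) : Set (ModularForm 𝒮ℒ k) := {g | HasCoeffsIn intSubring g}

theorem hasCoeffsIn_mono {R S : Subring ℂ} (h : R ≤ S) {k : ℤ} {f : ModularForm 𝒮ℒ k}
    (hf : HasCoeffsIn R f) : HasCoeffsIn S f := coeffSubring_mono h hf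

theorem hasCoeffsIn_of_int {R : Subring ℂ} {k : ℤ} {f : ModularForm 𝒮ℒ k}
    (hf : HasCoeffsIn intSubring f) : HasCoeffsIn R f := hasCoeffsIn_mono (intSubring_le R) hf

theorem hasCoeffsIn_zero (R : Subring ℂ) (k : ℤ) : HasCoeffsIn R (0 : ModularForm 𝒮ℒ k) := by
  unfold HasCoeffsIn
  rw [show ((0 : ModularForm 𝒮ℒ k) : ℍ → ℂ) = 0 from rfl, qExpansion_zero]
  exact Subring.zero_mem _

theorem hasCoeffsIn_add {R : Subring ℂ} {k : ℤ} {f g : ModularForm 𝒮ℒ k}
    (hf : HasCoeffsIn R f) (hg : HasCoeffsIn R g) : HasCoeffsIn R (f + g) := by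
  unfold HasCoeffsIn at *
  rw [show ((f + g : ModularForm 𝒮ℒ k) : ℍ → ℂ) = ⇑f + ⇑g from rfl,
    ModularForm.qExpansion_add one_pos one_mem_strictPeriods_SL f g]
  exact Subring.add_mem _ hf hg

theorem hasCoeffsIn_sub {R : Subring ℂ} {k : ℤ} {f g : ModularForm 𝒮ℒ k}
    (hf : HasCoeffsIn R f) (hg : HasCoeffsIn R g) : HasCoeffsIn R (f - g) := by
  unfold HasCoeffsIn at *
  rw [show ((f - g : ModularForm 𝒮ℒ k) : ℍ → ℂ) = ⇑f - ⇑g from rfl,
    ModularForm.qExpansion_sub one_pos one_mem_strictPeriods_SL f g]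
  exact Subring.sub_mem _ hf hg

theorem hasCoeffsIn_smul {R : Subring ℂ} {k : ℤ} {c : ℂ} (hc : c ∈ R) {f : ModularForm 𝒮ℒ k}
    (hf : HasCoeffsIn R f) : HasCoeffsIn R (c • f) := by
  unfold HasCoeffsIn at *
  rw [show ((c • f : ModularForm 𝒮ℒ k) : ℍ → ℂ) = c • ⇑f from rfl,
    ModularForm.qExpansion_smul one_pos one_mem_strictPeriods_SL c f]
  exact smul_mem_coeffSubring hc hf

theorem hasCoeffsIn_mul {R : Subring ℂ} {a b : ℤ} {f : ModularForm 𝒮ℒ a} {g : ModularForm 𝒮ℒ b}
    (hf : HasCoeffsIn R f) (hg : HasCoeffsIn R g) : HasCoeffsIn R (f.mul g) := by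
  unfold HasCoeffsIn at *
  rw [ModularForm.qExpansion_mul one_pos one_mem_strictPeriods_SL f g]
  exact Subring.mul_mem _ hf hg

theorem hasCoeffsIn_pow {R : Subring ℂ} {a : ℤ} {f : ModularForm 𝒮ℒ a}
    (hf : HasCoeffsIn R f) (n : ℕ) : HasCoeffsIn R (f.pow n) := by
  unfold HasCoeffsIn at *
  rw [ModularForm.qExpansion_pow one_pos one_mem_strictPeriods_SL f n]
  exact Subring.pow_mem _ hf n

theorem hasCoeffsIn_mcast {R : Subring ℂ} {a b : ℤ} (h : a = b) {f : ModularForm 𝒮ℒ a}
    (hf : HasCoeffsIn R f) : HasCoeffsIn R (ModularForm.mcast h f) := by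
  unfold HasCoeffsIn at *
  rwa [ModularForm.qExpansion_mcast]

theorem hasCoeffsIn_one (R : Subring ℂ) : HasCoeffsIn R (1 : ModularForm 𝒮ℒ 0) := by
  unfold HasCoeffsIn
  rw [ModularForm.qExpansion_one]
  exact Subring.one_mem _

theorem hasCoeffsIn_E4 (R : Subring ℂ) : HasCoeffsIn R E₄ := qExpansion_E4_mem R

theorem hasCoeffsIn_E6 (R : Subring ℂ) : HasCoeffsIn R E₆ := qExpansion_E6_mem R

/-- The discriminant as a level one modular form of weight 12. -/
noncomputable def deltaForm : ModularForm 𝒮ℒ 12 :=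
  ModularFormClass.modularForm CuspForm.discriminant

theorem deltaForm_apply (z : ℍ) : deltaForm z = ModularForm.discriminant z := rfl

theorem coe_deltaForm : (deltaForm : ℍ → ℂ) = ModularForm.discriminant := rfl

theorem hasCoeffsIn_deltaForm (R : Subring ℂ) : HasCoeffsIn R deltaForm :=
  qExpansion_discriminant_mem R

/-- Multiplication by the discriminant, from weight `k - 12` to weight `k`. -/
noncomputable def mulDelta (k : ℤ) : ModularForm 𝒮ℒ (k - 12) →ₗ[ℂ] ModularForm 𝒮ℒ k where
  toFun g := ModularForm.mcast (by ring) (deltaForm.mul g)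
  map_add' f g := by
    ext z
    simp [mul_add]
  map_smul' c g := by
    ext z
    simp [mul_left_comm]

theorem mulDelta_apply (k : ℤ) (g : ModularForm 𝒮ℒ (k - 12)) (z : ℍ) :
    mulDelta k g z = ModularForm.discriminant z * g z := rfl

theorem qExpansion_mulDelta (k : ℤ) (g : ModularForm 𝒮ℒ (k - 12)) :
    qExpansion 1 (mulDelta k g) = qExpansion 1 ModularForm.discriminant * qExpansion 1 g := by
  have h : (mulDelta k g : ℍ → ℂ) = ⇑(deltaForm.mul g) := rfl
  rw [h, ModularForm.qExpansion_mul one_pos one_mem_strictPeriods_SL, coe_deltaForm]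

theorem hasCoeffsIn_mulDelta {R : Subring ℂ} {k : ℤ}
    {g : ModularForm 𝒮ℒ (k - 12)} (hg : HasCoeffsIn R g) : HasCoeffsIn R (mulDelta k g) := by
  unfold HasCoeffsIn
  rw [qExpansion_mulDelta]
  exact Subring.mul_mem _ (qExpansion_discriminant_mem R) hg

/-- If `Δ g` has coefficients in `R`, so has `g`. -/
theorem hasCoeffsIn_of_mulDelta {R : Subring ℂ} {k : ℤ}
    {g : ModularForm 𝒮ℒ (k - 12)} (hg : HasCoeffsIn R (mulDelta k g)) : HasCoeffsIn R g := by
  unfold HasCoeffsIn at hg
  rw [qExpansion_mulDelta] at hg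
  exact mem_coeffSubring_of_discriminant_mul hg

/-- A level one form with vanishing constant term is a multiple of the discriminant. -/
theorem exists_eq_mulDelta {k : ℤ} (f : ModularForm 𝒮ℒ k)
    (h : PowerSeries.coeff 0 (qExpansion 1 f) = 0) :
    ∃ g : ModularForm 𝒮ℒ (k - 12), mulDelta k g = f := by
  refine ⟨CuspForm.discriminantEquiv (ModularForm.toCuspForm f h), ?_⟩
  ext z
  rw [mulDelta_apply, ModularForm.discriminant_mul_discriminantEquiv_apply]
  rfl

/-- An integral monomial in `E₄`, `E₆` of each even weight at least 4, with constant term 1. -/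
theorem exists_monomial {k : ℤ} (hk : 4 ≤ k) (hk2 : Even k) :
    ∃ G : ModularForm 𝒮ℒ k, HasCoeffsIn intSubring G ∧
      PowerSeries.coeff 0 (qExpansion 1 G) = 1 := by
  obtain ⟨a, b, hab⟩ : ∃ a b : ℕ, (a : ℤ) * 4 + (b : ℤ) * 6 = k := by
    obtain ⟨r, hr⟩ := hk2
    rcases Int.even_or_odd' r with ⟨s, hs | hs⟩
    · refine ⟨s.toNat, 0, ?_⟩
      have : 0 ≤ s := by omega
      rw [Int.toNat_of_nonneg this]
      omega
    · refine ⟨(s - 1).toNat, 1, ?_⟩
      have : 0 ≤ s - 1 := by omega
      rw [Int.toNat_of_nonneg this]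
      omega
  refine ⟨ModularForm.mcast hab ((E₄.pow a).mul (E₆.pow b)), ?_, ?_⟩
  · exact hasCoeffsIn_mcast _ (hasCoeffsIn_mul (hasCoeffsIn_pow (hasCoeffsIn_E4 _) a)
      (hasCoeffsIn_pow (hasCoeffsIn_E6 _) b))
  · rw [ModularForm.qExpansion_mcast, ModularForm.qExpansion_mul one_pos one_mem_strictPeriods_SL,
      ModularForm.qExpansion_pow one_pos one_mem_strictPeriods_SL,
      ModularForm.qExpansion_pow one_pos one_mem_strictPeriods_SL,
      PowerSeries.coeff_zero_eq_constantCoeff_apply, map_mul, map_pow, map_pow,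
      ← PowerSeries.coeff_zero_eq_constantCoeff_apply,
      ← PowerSeries.coeff_zero_eq_constantCoeff_apply,
      E_qExpansion_coeff_zero (by norm_num) ⟨2, rfl⟩, E_qExpansion_coeff_zero (by norm_num) ⟨3, rfl⟩]
    simp

theorem eq_zero_of_coe_eq_zero {k : ℤ} {f : ModularForm 𝒮ℒ k} (h : (f : ℍ → ℂ) = 0) : f = 0 := by
  ext z
  simpa using congrFun h z

theorem mulDelta_mem_span (R : Subring ℂ) (k : ℤ)
    {g : ModularForm 𝒮ℒ (k - 12)} (hg : g ∈ Submodule.span R (intForms (k - 12))) :
    mulDelta k g ∈ Submodule.span R (intForms k) := by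
  refine Submodule.span_induction (p := fun g _ => mulDelta k g ∈ Submodule.span R (intForms k))
    ?_ ?_ ?_ ?_ hg
  · intro x hx
    exact Submodule.subset_span (hasCoeffsIn_mulDelta hx)
  · rw [map_zero]
    exact Submodule.zero_mem _
  · intro x y _ _ hx hy
    rw [map_add]
    exact Submodule.add_mem _ hx hy
  · intro r x _ hx
    have : mulDelta k (r • x) = r • mulDelta k x := by
      rw [Subring.smul_def, map_smul, Subring.smul_def]
    rw [this]
    exact Submodule.smul_mem _ _ hx

theorem mem_span_intForms_aux (R : Subring ℂ) :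
    ∀ (n : ℕ) (k : ℤ), k < 12 * n → ∀ f : ModularForm 𝒮ℒ k, HasCoeffsIn R f →
      f ∈ Submodule.span R (intForms k) := by
  intro n
  induction n with
  | zero =>
    intro k hk f _
    have hk' : k < 0 := by simpa using hk
    rw [eq_zero_of_coe_eq_zero (ModularFormClass.levelOne_neg_weight_eq_zero hk' f)]
    exact Submodule.zero_mem _
  | succ n ih =>
    intro k hk f hf
    rcases lt_trichotomy k 0 with hneg | rfl | hpos
    · rw [eq_zero_of_coe_eq_zero (ModularFormClass.levelOne_neg_weight_eq_zero hneg f)]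
      exact Submodule.zero_mem _
    · -- weight zero: constants
      obtain ⟨c, hc⟩ := ModularFormClass.levelOne_weight_zero_const f
      have hf1 : f = c • (1 : ModularForm 𝒮ℒ 0) := by
        ext z
        simp [hc]
      have hcR : c ∈ R := by
        have h0 := hf 0
        rw [hf1, show ((c • (1 : ModularForm 𝒮ℒ 0) : ModularForm 𝒮ℒ 0) : ℍ → ℂ) =
          c • ⇑(1 : ModularForm 𝒮ℒ 0) from rfl,
          ModularForm.qExpansion_smul one_pos one_mem_strictPeriods_SL c (1 : ModularForm 𝒮ℒ 0),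
          ModularForm.qExpansion_one] at h0
        simpa using h0
      have : f = (⟨c, hcR⟩ : R) • (1 : ModularForm 𝒮ℒ 0) := by
        rw [Subring.smul_def]
        exact hf1
      rw [this]
      exact Submodule.smul_mem _ _ (Submodule.subset_span (hasCoeffsIn_one intSubring))
    · rcases Int.even_or_odd k with he | ho
      · by_cases h2 : k = 2
        · subst h2
          have h := ModularForm.levelOne_weight_two_rank_zero
          rw [rank_zero_iff_forall_zero] at h
          rw [h f]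
          exact Submodule.zero_mem _
        · have hk4 : 4 ≤ k := by
            obtain ⟨r, hr⟩ := he
            omega
          obtain ⟨G, hG, hG0⟩ := exists_monomial hk4 he
          have hc : PowerSeries.coeff 0 (qExpansion 1 f) ∈ R := hf 0
          set c : ℂ := PowerSeries.coeff 0 (qExpansion 1 f) with hcdef
          have hsubR : HasCoeffsIn R (f - c • G) :=
            hasCoeffsIn_sub hf (hasCoeffsIn_smul hc (hasCoeffsIn_of_int hG))
          have h0 : PowerSeries.coeff 0
              (qExpansion 1 ((f - c • G : ModularForm 𝒮ℒ k) : ℍ → ℂ)) = 0 := by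
            rw [show ((f - c • G : ModularForm 𝒮ℒ k) : ℍ → ℂ) = ⇑f - ⇑(c • G) from rfl,
              ModularForm.qExpansion_sub one_pos one_mem_strictPeriods_SL f (c • G),
              show ((c • G : ModularForm 𝒮ℒ k) : ℍ → ℂ) = c • ⇑G from rfl,
              ModularForm.qExpansion_smul one_pos one_mem_strictPeriods_SL c G, map_sub,
              PowerSeries.coeff_smul, hG0]
            simp [hcdef]
          obtain ⟨g, hg⟩ := exists_eq_mulDelta (f - c • G) h0
          have hgR : HasCoeffsIn R g := hasCoeffsIn_of_mulDelta (hg ▸ hsubR)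
          have hgspan := ih (k - 12) (by push_cast at hk; omega) g hgR
          have h1 : mulDelta k g ∈ Submodule.span R (intForms k) :=
            mulDelta_mem_span R k hgspan
          have h2 : c • G ∈ Submodule.span R (intForms k) := by
            have : c • G = (⟨c, hc⟩ : R) • G := by rw [Subring.smul_def]
            rw [this]
            exact Submodule.smul_mem _ _ (Submodule.subset_span hG)
          have : f = mulDelta k g + c • G := by
            rw [hg]
            abel
          rw [this]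
          exact Submodule.add_mem _ h1 h2
      · rw [ModularForm.levelOne_odd_weight_eq_zero ho f]
        exact Submodule.zero_mem _

/-- **Level one structure theorem with coefficients.** If the q-expansion of the level one form
`f` has coefficients in the subring `R` of `ℂ`, then `f` is an `R`-linear combination of level one
forms with integer q-expansions. -/
theorem mem_span_intForms (R : Subring ℂ) {k : ℤ} (f : ModularForm 𝒮ℒ k)
    (hf : HasCoeffsIn R f) : f ∈ Submodule.span R (intForms k) := by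
  obtain ⟨n, hn⟩ : ∃ n : ℕ, k < 12 * n := by
    refine ⟨k.toNat + 1, ?_⟩
    have := Int.self_le_toNat k
    push_cast
    omega
  exact mem_span_intForms_aux R n k hn f hf

/-- Level one forms are spanned over `ℂ` by forms with integer q-expansions. -/
theorem span_intForms_eq_top (k : ℤ) :
    Submodule.span ℂ (intForms k) = ⊤ := by
  rw [eq_top_iff]
  intro f _
  have hf : HasCoeffsIn ⊤ f := fun n => Subring.mem_top _
  have h := mem_span_intForms ⊤ f hf
  refine Submodule.span_induction (p := fun g _ => g ∈ Submodule.span ℂ (intForms k))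
    ?_ ?_ ?_ ?_ h
  · intro x hx
    exact Submodule.subset_span hx
  · exact Submodule.zero_mem _
  · intro x y _ _ hx hy
    exact Submodule.add_mem _ hx hy
  · intro r x _ hx
    rw [Subring.smul_def]
    exact Submodule.smul_mem _ _ hx

/-- **Conjugation of level one forms.** For every ring endomorphism `σ` of `ℂ` and every level
one form `f` there is a level one form of the same weight whose q-expansion is obtained by applying
`σ` to the coefficients of the q-expansion of `f`. -/
theorem exists_qExpansion_eq_map (σ : ℂ →+* ℂ) {k : ℤ} (f : ModularForm 𝒮ℒ k) :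
    ∃ g : ModularForm 𝒮ℒ k, qExpansion 1 g = PowerSeries.map σ (qExpansion 1 f) := by
  have h : f ∈ Submodule.span ℂ (intForms k) := by
    rw [span_intForms_eq_top k]
    exact Submodule.mem_top
  refine Submodule.span_induction
    (p := fun (f : ModularForm 𝒮ℒ k) _ => ∃ g : ModularForm 𝒮ℒ k,
      qExpansion 1 g = PowerSeries.map σ (qExpansion 1 f)) ?_ ?_ ?_ ?_ h
  · intro x hx
    refine ⟨x, ?_⟩
    ext n
    rw [PowerSeries.coeff_map]
    obtain ⟨m, hm⟩ := mem_intSubring.1 (hx n)
    rw [← hm, map_intCast]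
  · refine ⟨0, ?_⟩
    rw [show ((0 : ModularForm 𝒮ℒ k) : ℍ → ℂ) = 0 from rfl, qExpansion_zero, map_zero]
  · rintro x y _ _ ⟨gx, hgx⟩ ⟨gy, hgy⟩
    refine ⟨gx + gy, ?_⟩
    rw [show ((gx + gy : ModularForm 𝒮ℒ k) : ℍ → ℂ) = ⇑gx + ⇑gy from rfl,
      show ((x + y : ModularForm 𝒮ℒ k) : ℍ → ℂ) = ⇑x + ⇑y from rfl,
      ModularForm.qExpansion_add one_pos one_mem_strictPeriods_SL gx gy,
      ModularForm.qExpansion_add one_pos one_mem_strictPeriods_SL x y, map_add, hgx, hgy]
  · rintro c x _ ⟨gx, hgx⟩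
    refine ⟨σ c • gx, ?_⟩
    rw [show ((σ c • gx : ModularForm 𝒮ℒ k) : ℍ → ℂ) = σ c • ⇑gx from rfl,
      show ((c • x : ModularForm 𝒮ℒ k) : ℍ → ℂ) = c • ⇑x from rfl,
      ModularForm.qExpansion_smul one_pos one_mem_strictPeriods_SL (σ c) gx,
      ModularForm.qExpansion_smul one_pos one_mem_strictPeriods_SL c x, hgx]
    ext n
    simp

/-- **Bounded denominators at level one.** A level one form with rational q-expansion has a
nonzero integer multiple with integral q-expansion. -/
theorem exists_int_smul_hasCoeffsIn_int {k : ℤ} (f : ModularForm 𝒮ℒ k)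
    (hf : HasCoeffsIn ratSubring f) :
    ∃ D : ℤ, D ≠ 0 ∧ HasCoeffsIn intSubring ((D : ℂ) • f) := by
  have h := mem_span_intForms ratSubring f hf
  refine Submodule.span_induction
    (p := fun (f : ModularForm 𝒮ℒ k) _ => ∃ D : ℤ, D ≠ 0 ∧ HasCoeffsIn intSubring ((D : ℂ) • f))
    ?_ ?_ ?_ ?_ h
  · intro x hx
    refine ⟨1, one_ne_zero, ?_⟩
    rw [Int.cast_one, one_smul]
    exact hx
  · refine ⟨1, one_ne_zero, ?_⟩
    rw [smul_zero]
    exact hasCoeffsIn_zero _ k
  · rintro x y _ _ ⟨D, hD, hx⟩ ⟨E, hE, hy⟩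
    refine ⟨D * E, mul_ne_zero hD hE, ?_⟩
    have : ((D * E : ℤ) : ℂ) • (x + y) = (E : ℂ) • ((D : ℂ) • x) + (D : ℂ) • ((E : ℂ) • y) := by
      rw [smul_add, smul_smul, smul_smul]
      push_cast
      rw [mul_comm (E : ℂ) (D : ℂ)]
    rw [this]
    exact hasCoeffsIn_add (hasCoeffsIn_smul (intCast_mem_intSubring _) hx)
      (hasCoeffsIn_smul (intCast_mem_intSubring _) hy)
  · rintro ⟨r, hr⟩ x _ ⟨D, hD, hx⟩
    obtain ⟨q, rfl⟩ := mem_ratSubring.mp hr
    refine ⟨q.den * D, mul_ne_zero (by exact_mod_cast q.den_ne_zero) hD, ?_⟩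
    have : (((q.den : ℤ) * D : ℤ) : ℂ) • ((⟨(q : ℂ), hr⟩ : ratSubring) • x) =
        ((q.num : ℤ) : ℂ) • ((D : ℂ) • x) := by
      rw [Subring.smul_def, smul_smul, smul_smul]
      congr 1
      push_cast
      have hq : (q : ℂ) = (q.num : ℂ) / (q.den : ℂ) := by
        exact_mod_cast (Rat.num_div_den q).symm
      have hden : (q.den : ℂ) ≠ 0 := by exact_mod_cast q.den_ne_zero
      rw [hq]
      field_simp
    rw [this]
    exact hasCoeffsIn_smul (intCast_mem_intSubring _) hx

/-! ### Restatements in the shared vocabulary of `Fermat.Agent.S23` (`IsIntPS`, `IsRatPS`,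
`conjPS`) -/

theorem hasCoeffsIn_int_iff_isIntPS {k : ℤ} (f : ModularForm 𝒮ℒ k) :
    HasCoeffsIn intSubring f ↔ IsIntPS (qExpansion 1 f) := by
  unfold HasCoeffsIn IsIntPS
  rw [mem_coeffSubring]
  refine forall_congr' fun n => ?_
  rw [mem_intSubring]
  exact ⟨fun ⟨m, hm⟩ => ⟨m, hm.symm⟩, fun ⟨m, hm⟩ => ⟨m, hm.symm⟩⟩

theorem hasCoeffsIn_rat_iff_isRatPS {k : ℤ} (f : ModularForm 𝒮ℒ k) :
    HasCoeffsIn ratSubring f ↔ IsRatPS (qExpansion 1 f) := by
  unfold HasCoeffsIn IsRatPS
  rw [mem_coeffSubring]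
  refine forall_congr' fun n => ?_
  rw [mem_ratSubring]
  exact ⟨fun ⟨m, hm⟩ => ⟨m, hm.symm⟩, fun ⟨m, hm⟩ => ⟨m, hm.symm⟩⟩

/-- Conjugate of a level one form by a ring automorphism of `ℂ`. -/
theorem exists_qExpansion_eq_conjPS (σ : ℂ ≃+* ℂ) {k : ℤ} (f : ModularForm 𝒮ℒ k) :
    ∃ g : ModularForm 𝒮ℒ k, qExpansion 1 g = conjPS σ (qExpansion 1 f) :=
  exists_qExpansion_eq_map (σ : ℂ →+* ℂ) f

/-- Bounded denominators at level one, in terms of `IsRatPS` and `IsIntPS`. -/
theorem exists_int_smul_isIntPS {k : ℤ} (f : ModularForm 𝒮ℒ k)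
    (hf : IsRatPS (qExpansion 1 f)) :
    ∃ D : ℤ, D ≠ 0 ∧ IsIntPS ((D : ℂ) • qExpansion 1 f) := by
  obtain ⟨D, hD, h⟩ := exists_int_smul_hasCoeffsIn_int f ((hasCoeffsIn_rat_iff_isRatPS f).2 hf)
  refine ⟨D, hD, ?_⟩
  rw [hasCoeffsIn_int_iff_isIntPS, show (((D : ℂ) • f : ModularForm 𝒮ℒ k) : ℍ → ℂ) =
    (D : ℂ) • ⇑f from rfl,
    ModularForm.qExpansion_smul one_pos one_mem_strictPeriods_SL (D : ℂ) f] at h
  exact h

end LevelOne

/-! ### The interface names of the `S23` blueprint -/

/-- Level one forms of any weight are spanned (over `ℂ`) by finitely many forms with integer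
`q`-expansion. -/
theorem levelOne_span_int (k : ℤ) : ∃ s : Finset (ModularForm 𝒮ℒ k),
    (∀ e ∈ s, IsIntPS (qExpansion 1 e)) ∧
      Submodule.span ℂ (s : Set (ModularForm 𝒮ℒ k)) = ⊤ := by
  have htop := LevelOne.span_intForms_eq_top k
  have : Module.Finite ℂ (Submodule.span ℂ (LevelOne.intForms k)) := by
    rw [htop]
    infer_instance
  obtain ⟨t, hts, -, hspan, -⟩ :=
    Submodule.exists_finset_span_eq_linearIndepOn ℂ (LevelOne.intForms k)
  refine ⟨t, fun e he => ?_, ?_⟩
  · exact (LevelOne.hasCoeffsIn_int_iff_isIntPS e).1 (hts he)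
  · rw [hspan, htop]

/-- Level one forms can be conjugated by any ring automorphism of `ℂ`. -/
theorem levelOne_conj (σ : ℂ ≃+* ℂ) {k : ℤ} (f : ModularForm 𝒮ℒ k) :
    ∃ g : ModularForm 𝒮ℒ k, qExpansion 1 g = conjPS σ (qExpansion 1 f) :=
  LevelOne.exists_qExpansion_eq_conjPS σ f

end Fermat.Agent.S23
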