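import Fermat.Agent.S23.Defs
import Fermat.Agent.S23.Glue
import Fermat.Agent.S23.QAlg
import Fermat.Agent.S23.Cosets
import Fermat.Agent.S23.LevelOne
import Fermat.Agent.S23.ConjAbstract

set_option autoImplicit false

namespace Fermat.Agent.S23

open UpperHalfPlane ModularForm CongruenceSubgroup SlashInvariantForm Filter Topology
open scoped MatrixGroups ModularForm Manifold

variable {N : ℕ} [NeZero N] {k w : ℤ}

theorem conj_G0_le (N : ℕ) : G0 N ≤ 𝒮ℒ := Subgroup.map_le_range _ _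

theorem conj_one_mem_strictPeriods_G0 (N : ℕ) : (1 : ℝ) ∈ (G0 N).strictPeriods :=
  CongruenceSubgroup.one_mem_strictPeriods_Gamma0 N

/-- Restriction of a level one form to `Gamma0 N`. -/
def conjRes (N : ℕ) {a : ℤ} (c : ModularForm 𝒮ℒ a) : ModularForm (G0 N) a where
  toFun := c
  slash_action_eq' γ hγ := c.slash_action_eq' γ (conj_G0_le N hγ)
  holo' := c.holo'
  bdd_at_cusps' hc := c.bdd_at_cusps' (hc.mono (conj_G0_le N))

@[simp] theorem coe_conjRes (N : ℕ) {a : ℤ} (c : ModularForm 𝒮ℒ a) :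
    (conjRes N c : ℍ → ℂ) = c := rfl

/-- The form `c * t ^ n`, of weight `b`. -/
noncomputable def conjTerm {a b : ℤ} (c : ModularForm 𝒮ℒ a) (t : ModularForm (G0 N) w) (n : ℕ)
    (hb : a + n * w = b) : ModularForm (G0 N) b :=
  ModularForm.mcast hb ((conjRes N c).mul (t.pow n))

theorem coe_conjTerm {a b : ℤ} (c : ModularForm 𝒮ℒ a) (t : ModularForm (G0 N) w) (n : ℕ)
    (hb : a + n * w = b) : (conjTerm c t n hb : ℍ → ℂ) = (c : ℍ → ℂ) * (t : ℍ → ℂ) ^ n := by
  simp [conjTerm]

theorem conjTerm_apply {a b : ℤ} (c : ModularForm 𝒮ℒ a) (t : ModularForm (G0 N) w) (n : ℕ)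
    (hb : a + n * w = b) (z : ℍ) : conjTerm c t n hb z = c z * t z ^ n := by
  rw [coe_conjTerm]
  rfl

theorem qExpansion_conjTerm {a b : ℤ} (c : ModularForm 𝒮ℒ a) (t : ModularForm (G0 N) w) (n : ℕ)
    (hb : a + n * w = b) :
    qExpansion 1 (conjTerm c t n hb) = qExpansion 1 c * qExpansion 1 t ^ n := by
  have h1 := conj_one_mem_strictPeriods_G0 N
  rw [conjTerm, ModularForm.qExpansion_mcast, ModularForm.qExpansion_mul one_pos h1,
    ModularForm.qExpansion_pow one_pos h1]
  rfl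

end Fermat.Agent.S23

namespace Fermat.Agent.S23

open UpperHalfPlane ModularForm CongruenceSubgroup SlashInvariantForm Filter Topology
open scoped MatrixGroups ModularForm Manifold

variable {N : ℕ} [NeZero N] {k w : ℤ}

theorem conj_den_weight (w : ℤ) (μ : ℕ) (i : Fin μ) :
    w * ((i : ℕ) : ℤ) + ((μ - 1 - (i : ℕ) : ℕ) : ℤ) * w = w * ((μ : ℤ) - 1) := by
  have h : ((μ - 1 - (i : ℕ) : ℕ) : ℤ) = (μ : ℤ) - 1 - ((i : ℕ) : ℤ) := by
    have := i.2
    omega
  rw [h]
  ring

theorem conj_num_weight (k w : ℤ) (μ : ℕ) (m : ℕ) :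
    (k + w * ((μ : ℤ) - 1 - m)) + (m : ℤ) * w = k + w * ((μ : ℤ) - 1) := by
  ring

/-- The denominator built from a family of level one coefficients. -/
noncomputable def denFormOf (φ : (i : ℕ) → ModularForm 𝒮ℒ (w * i)) (t : ModularForm (G0 N) w) :
    ModularForm (G0 N) (w * ((mu N : ℤ) - 1)) :=
  ∑ i : Fin (mu N), ((mu N - (i : ℕ) : ℕ) : ℂ) •
    conjTerm (φ i) t (mu N - 1 - i) (conj_den_weight w (mu N) i)

/-- The numerator built from a family of level one coefficients. -/
noncomputable def numFormOf (c : (m : ℕ) → ModularForm 𝒮ℒ (k + w * ((mu N : ℤ) - 1 - m)))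
    (t : ModularForm (G0 N) w) : ModularForm (G0 N) (k + w * ((mu N : ℤ) - 1)) :=
  ∑ m : Fin (mu N), conjTerm (c m) t m (conj_num_weight k w (mu N) m)

theorem denFormOf_apply (φ : (i : ℕ) → ModularForm 𝒮ℒ (w * i)) (t : ModularForm (G0 N) w)
    (z : ℍ) : denFormOf φ t z = ∑ i ∈ Finset.range (mu N),
      ((mu N - i : ℕ) : ℂ) * φ i z * t z ^ (mu N - 1 - i) := by
  rw [← Fin.sum_univ_eq_sum_range (fun i => ((mu N - i : ℕ) : ℂ) * φ i z * t z ^ (mu N - 1 - i))]
  simp only [denFormOf, FunLike.coe_sum, Finset.sum_apply, FunLike.coe_smul, Pi.smul_apply,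
    conjTerm_apply, smul_eq_mul, mul_assoc]

end Fermat.Agent.S23

namespace Fermat.Agent.S23

open UpperHalfPlane ModularForm CongruenceSubgroup SlashInvariantForm Filter Topology
open scoped MatrixGroups ModularForm Manifold

variable {N : ℕ} [NeZero N] {k w : ℤ}

theorem numFormOf_apply (c : (m : ℕ) → ModularForm 𝒮ℒ (k + w * ((mu N : ℤ) - 1 - m)))
    (t : ModularForm (G0 N) w) (z : ℍ) :
    numFormOf c t z = ∑ m ∈ Finset.range (mu N), c m z * t z ^ m := by
  rw [← Fin.sum_univ_eq_sum_range (fun m => c m z * t z ^ m)]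
  simp only [numFormOf, FunLike.coe_sum, Finset.sum_apply, conjTerm_apply]

omit [NeZero N] in
theorem conj_qExpansion_sum_G0 {ι : Type*} (s : Finset ι) {a : ℤ} (F : ι → ModularForm (G0 N) a) :
    qExpansion 1 (∑ i ∈ s, F i : ModularForm (G0 N) a) = ∑ i ∈ s, qExpansion 1 (F i) :=
  map_sum (ModularForm.qExpansionAddHom one_pos (conj_one_mem_strictPeriods_G0 N) a) F s

theorem qExpansion_denFormOf (φ : (i : ℕ) → ModularForm 𝒮ℒ (w * i)) (t : ModularForm (G0 N) w) :
    qExpansion 1 (denFormOf φ t) = ∑ i : Fin (mu N), ((mu N - (i : ℕ) : ℕ) : ℂ) •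
      (qExpansion 1 (φ i) * qExpansion 1 t ^ (mu N - 1 - (i : ℕ))) := by
  rw [denFormOf, conj_qExpansion_sum_G0]
  apply Finset.sum_congr rfl
  intro i _
  rw [FunLike.coe_smul, ModularForm.qExpansion_smul one_pos (conj_one_mem_strictPeriods_G0 N),
    qExpansion_conjTerm]

theorem qExpansion_numFormOf (c : (m : ℕ) → ModularForm 𝒮ℒ (k + w * ((mu N : ℤ) - 1 - m)))
    (t : ModularForm (G0 N) w) :
    qExpansion 1 (numFormOf c t) = ∑ m : Fin (mu N),
      (qExpansion 1 (c m) * qExpansion 1 t ^ (m : ℕ)) := by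
  rw [numFormOf, conj_qExpansion_sum_G0]
  apply Finset.sum_congr rfl
  intro i _
  rw [qExpansion_conjTerm]

theorem conjPS_natCast_smul (σ : ℂ ≃+* ℂ) (n : ℕ) (a : PowerSeries ℂ) :
    conjPS σ ((n : ℂ) • a) = (n : ℂ) • conjPS σ a := by
  ext j
  simp [conjPS]

theorem qExpansion_denFormOf_conj (σ : ℂ ≃+* ℂ) (φ φσ : (i : ℕ) → ModularForm 𝒮ℒ (w * i))
    (t : ModularForm (G0 N) w) (ht : conjPS σ (qExpansion 1 t) = qExpansion 1 t)
    (hφ : ∀ i, qExpansion 1 (φσ i) = conjPS σ (qExpansion 1 (φ i))) :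
    qExpansion 1 (denFormOf φσ t) = conjPS σ (qExpansion 1 (denFormOf φ t)) := by
  rw [qExpansion_denFormOf, qExpansion_denFormOf, conjPS_sum]
  apply Finset.sum_congr rfl
  intro i _
  rw [conjPS_natCast_smul, conjPS_mul, conjPS_pow, ht, hφ]

theorem qExpansion_numFormOf_conj (σ : ℂ ≃+* ℂ)
    (c cσ : (m : ℕ) → ModularForm 𝒮ℒ (k + w * ((mu N : ℤ) - 1 - m)))
    (t : ModularForm (G0 N) w) (ht : conjPS σ (qExpansion 1 t) = qExpansion 1 t)
    (hc : ∀ m, qExpansion 1 (cσ m) = conjPS σ (qExpansion 1 (c m))) :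
    qExpansion 1 (numFormOf cσ t) = conjPS σ (qExpansion 1 (numFormOf c t)) := by
  rw [qExpansion_numFormOf, qExpansion_numFormOf, conjPS_sum]
  apply Finset.sum_congr rfl
  intro i _
  rw [conjPS_mul, conjPS_pow, ht, hc]

/-- An integral power series is fixed by conjugation. -/
theorem conjPS_of_isIntPS (σ : ℂ ≃+* ℂ) {a : PowerSeries ℂ} (ha : IsIntPS a) :
    conjPS σ a = a := by
  ext j
  obtain ⟨m, hm⟩ := ha j
  rw [conjPS_coeff, hm, map_intCast]

end Fermat.Agent.S23

namespace Fermat.Agent.S23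

open UpperHalfPlane ModularForm CongruenceSubgroup SlashInvariantForm Filter Topology
open scoped MatrixGroups ModularForm Manifold

variable {N : ℕ} [NeZero N] {k w : ℤ}

/-- A function in `PerAlg h` tends at infinity to the constant coefficient of its q-expansion. -/
theorem conj_tendsto_coeff_zero {h : ℝ} (hh : 0 < h) {F : ℍ → ℂ} (hF : F ∈ PerAlg h) :
    Tendsto F atImInfty (𝓝 (PowerSeries.coeff 0 (qExpansion h F))) := by
  obtain ⟨hper, hhol, hbdd⟩ := hF
  have hanal := analyticAt_cuspFunction_zero hh hper hhol hbdd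
  rw [qExpansion_coeff_zero hh hanal hper, ← cuspFunction_apply_zero hh hanal hper]
  exact (hanal.continuousAt.tendsto.comp (qParam_tendsto_atImInfty hh)).congr
    (fun τ => eq_cuspFunction τ hh.ne' hper)

theorem conj_coeff_zero_eq_of_tendsto {h : ℝ} (hh : 0 < h) {F : ℍ → ℂ} (hF : F ∈ PerAlg h) {c : ℂ}
    (hc : Tendsto F atImInfty (𝓝 c)) : PowerSeries.coeff 0 (qExpansion h F) = c :=
  tendsto_nhds_unique (conj_tendsto_coeff_zero hh hF) hc

/-- The Lagrange denominator tends to `1` at infinity as soon as `t` tends to `1` and its other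
conjugates tend to `0`. -/
theorem lagrangeDen_tendsto_one (t : ModularForm (G0 N) w) (h1 : Tendsto t atImInfty (𝓝 1))
    (h2 : ∀ q : Q0 N, q ≠ q0 N → Tendsto (quotientFunc t q) atImInfty (𝓝 0)) :
    Tendsto (lagrangeDen t) atImInfty (𝓝 1) := by
  have h3 : Tendsto (fun z => ∏ q ∈ Finset.univ.erase (q0 N),
      (t z - quotientFunc t q z)) atImInfty
      (𝓝 (∏ q ∈ Finset.univ.erase (q0 N), ((1 : ℂ) - 0))) :=
    tendsto_finsetProd _ (fun q hq => h1.sub (h2 q (Finset.ne_of_mem_erase hq)))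
  have h4 : (∏ q ∈ Finset.univ.erase (q0 N), ((1 : ℂ) - 0)) = 1 := by simp
  rw [h4] at h3
  exact h3

theorem coe_denFormOf_charCoeff (t : ModularForm (G0 N) w) :
    (denFormOf (fun i => charCoeff t i) t : ℍ → ℂ) = lagrangeDen t :=
  funext fun z => by rw [denFormOf_apply, lagrangeDen_eq_sum]

theorem lagrangeDen_mem_PerAlg_one (t : ModularForm (G0 N) w) : lagrangeDen t ∈ PerAlg 1 := by
  rw [← coe_denFormOf_charCoeff]
  exact coe_mem_PerAlg_one _

/-- The constant coefficient of the q-expansion of the Lagrange denominator. -/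
theorem lagrangeDen_coeff_zero_of_tendsto (t : ModularForm (G0 N) w)
    (h1 : Tendsto t atImInfty (𝓝 1))
    (h2 : ∀ q : Q0 N, q ≠ q0 N → Tendsto (quotientFunc t q) atImInfty (𝓝 0)) :
    PowerSeries.coeff 0 (qExpansion 1 (lagrangeDen t)) = 1 :=
  conj_coeff_zero_eq_of_tendsto one_pos (lagrangeDen_mem_PerAlg_one t)
    (lagrangeDen_tendsto_one t h1 h2)

/-- Variant: hypotheses in terms of constant coefficients of q-expansions. -/
theorem lagrangeDen_coeff_zero_of_coeff (t : ModularForm (G0 N) w)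
    (h1 : PowerSeries.coeff 0 (qExpansion 1 t) = 1)
    (hmem : ∀ q : Q0 N, quotientFunc t q ∈ PerAlg (N : ℝ))
    (h2 : ∀ q : Q0 N, q ≠ q0 N →
      PowerSeries.coeff 0 (qExpansion (N : ℝ) (quotientFunc t q)) = 0) :
    PowerSeries.coeff 0 (qExpansion 1 (lagrangeDen t)) = 1 := by
  apply lagrangeDen_coeff_zero_of_tendsto
  · have := conj_tendsto_coeff_zero one_pos (coe_mem_PerAlg_one t)
    rwa [h1] at this
  · intro q hq
    have hN : (0 : ℝ) < N := by exact_mod_cast Nat.pos_of_ne_zero (NeZero.ne N)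
    have := conj_tendsto_coeff_zero hN (hmem q)
    rwa [h2 q hq] at this

theorem conj_mu_pos (N : ℕ) [NeZero N] : 0 < mu N := by
  unfold mu
  exact Nat.card_pos

/-- Conjugation of cusp forms on `Gamma0 N` by a field automorphism of `ℂ`, given a primitive
element `t` with `σ`-stable q-expansion whose Lagrange denominator does not vanish at infinity. -/
theorem cuspForm_conj_of (σ : ℂ ≃+* ℂ) (t : ModularForm (G0 N) w)
    (ht : conjPS σ (qExpansion 1 t) = qExpansion 1 t)
    (hden : PowerSeries.coeff 0 (qExpansion 1 (lagrangeDen t)) ≠ 0) (f : CuspForm (G0 N) k) :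
    ∃ g : CuspForm (G0 N) k, qExpansion 1 g = conjPS σ (qExpansion 1 f) := by
  classical
  let fM : ModularForm (G0 N) k := ModularFormClass.modularForm f
  let p := fun i => charCoeff fM i
  let φ := fun i => charCoeff t i
  let c := fun m => lagrangeCoeff fM t m
  choose pσ hpσ using fun i => levelOne_conj σ (p i)
  choose φσ hφσ using fun i => levelOne_conj σ (φ i)
  choose cσ hcσ using fun m => levelOne_conj σ (c m)
  refine conj_of_data (conj_one_mem_strictPeriods_G0 N) σ (conj_mu_pos N) f p pσ (charCoeff_zero fM)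
    ?_ ?_ hpσ (denFormOf φ t) (denFormOf φσ t) (numFormOf c t) (numFormOf cσ t) ?_
    (qExpansion_denFormOf_conj σ φ φσ t ht hφσ) (qExpansion_numFormOf_conj σ c cσ t ht hcσ) ?_
  · intro i hi
    exact charCoeff_isZeroAtImInfty fM (fun q => Interp.isZeroAtImInfty_quotientFunc f q) i hi
  · intro z
    exact charCoeff_root fM z
  · intro z
    rw [denFormOf_apply, numFormOf_apply, ← lagrangeDen_eq_sum]
    exact lagrange_identity fM t z
  · rw [coe_denFormOf_charCoeff]
    exact hden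

/-- Galois stability of the space of cusp forms, given a suitable primitive element `t`. -/
theorem galoisStable_of (N : ℕ) [NeZero N] (k : ℤ) {w : ℤ} (t : ModularForm (G0 N) w)
    (ht : IsIntPS (qExpansion 1 t))
    (hden : PowerSeries.coeff 0 (qExpansion 1 (lagrangeDen t)) ≠ 0) : GaloisStable N k := by
  intro σ f
  obtain ⟨g, hg⟩ := cuspForm_conj_of σ t (conjPS_of_isIntPS σ ht) hden f
  refine ⟨g, fun n => ?_⟩
  have := congrArg (PowerSeries.coeff n) hg
  rw [conjPS_coeff] at this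
  exact this

end Fermat.Agent.S23
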