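import Fermat.Agent.S23.QAlg

/-!
S23 project, module ConjBasic: basic properties of the conjugates `quotientFunc f q` of a
modular form on `Gamma0 N` under `SL(2,ℤ)`: they are `N`-periodic, holomorphic, bounded at `i∞`
(and vanish there for cusp forms); explicit description as `SL(2,ℤ)`-translates.
-/

set_option autoImplicit false
set_option linter.unusedSectionVars false

namespace Fermat.Agent.S23

open UpperHalfPlane ModularForm CongruenceSubgroup SlashInvariantForm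
open scoped MatrixGroups ModularForm Manifold Pointwise
open Matrix.SpecialLinearGroup ConjAct

variable {N : ℕ} [NeZero N] {k : ℤ}

/-- `T ^ N`, mapped to `GL (Fin 2) ℝ`, is the translation by `N`. -/
lemma ConjBasic.mapGL_T_pow (n : ℕ) :
    mapGL ℝ (ModularGroup.T ^ (n : ℤ)) = Matrix.GeneralLinearGroup.upperRightHom (n : ℝ) := by
  apply Units.ext
  rw [mapGL_coe_matrix]
  have h := ModularGroup.coe_T_zpow (n : ℤ)
  ext i j
  rw [Matrix.SpecialLinearGroup.map_apply_coe, RingHom.mapMatrix_apply, Matrix.map_apply, h]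
  fin_cases i <;> fin_cases j <;> simp

omit [NeZero N] in
lemma ConjBasic.Gamma_le_Gamma0 : Gamma N ≤ Gamma0 N := by
  intro γ hγ
  rw [Gamma_mem] at hγ
  rw [Gamma0_mem]
  exact hγ.2.2.1

omit [NeZero N] in
/-- every `SL(2,ℤ)`-conjugate of `Gamma0 N` contains the translation by `N`. -/
lemma ConjBasic.natCast_mem_strictPeriods_conj (γ : SL(2, ℤ)) :
    (N : ℝ) ∈ (toConjAct (mapGL ℝ γ) • G0 N).strictPeriods := by
  rw [Subgroup.mem_strictPeriods_iff, Subgroup.mem_pointwise_smul_iff_inv_smul_mem,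
    ← ConjBasic.mapGL_T_pow, ← map_inv, ConjAct.toConjAct_smul, inv_inv, ← map_inv, ← map_mul,
    ← map_mul]
  refine Subgroup.mem_map_of_mem _ (ConjBasic.Gamma_le_Gamma0 ?_)
  have h1 : ModularGroup.T ^ (N : ℤ) ∈ Gamma N := by
    have := ModularGroup_T_pow_mem_Gamma (N : ℤ) (N : ℤ) dvd_rfl
    simpa using this
  have h2 := (Gamma_normal (N := N)).conj_mem _ h1 γ⁻¹
  simpa using h2

section

variable {F : Type*} [FunLike F ℍ ℂ]

/-- slashing by the inverse of `γ ∈ SL(2,ℤ)` gives an `N`-periodic function. -/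
theorem ConjBasic.slash_inv_periodic [SlashInvariantFormClass F (G0 N) k] (f : F) (γ : SL(2, ℤ)) :
    Function.Periodic (((f : ℍ → ℂ) ∣[k] (mapGL ℝ γ)⁻¹) ∘ ofComplex) (N : ℝ) := by
  have h := ConjBasic.natCast_mem_strictPeriods_conj (N := N) γ
  have h2 : (N : ℝ) ∈ (toConjAct ((mapGL ℝ γ)⁻¹)⁻¹ • G0 N).strictPeriods := by
    rwa [inv_inv]
  exact SlashInvariantFormClass.periodic_comp_ofComplex
    (SlashInvariantForm.translate f (mapGL ℝ γ)⁻¹) h2

theorem ConjBasic.slash_inv_mem_PerAlg [ModularFormClass F (G0 N) k] (f : F) (γ : SL(2, ℤ)) :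
    ((f : ℍ → ℂ) ∣[k] (mapGL ℝ γ)⁻¹) ∈ PerAlg (N : ℝ) := by
  refine ⟨ConjBasic.slash_inv_periodic f γ, (ModularFormClass.holo f).slash k _, ?_⟩
  have h := ModularFormClass.bdd_at_infty_slash (k := k) f γ⁻¹
  rwa [ModularForm.SL_slash, map_inv] at h

/-- conjugates of a modular form on `Gamma0 N` are `N`-periodic, holomorphic, bounded. -/
theorem quotientFunc_mem_PerAlg [ModularFormClass F (G0 N) k] (f : F) (q : Q0 N) :
    quotientFunc f q ∈ PerAlg (N : ℝ) := by
  induction q using Quotient.inductionOn with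
  | h r =>
    obtain ⟨r, γ, rfl⟩ := r
    exact ConjBasic.slash_inv_mem_PerAlg f γ

end


/-- the `SL(2,ℤ)`-coset of `γ` in `Q0 N`. -/
def ConjBasic.mkQ (N : ℕ) (γ : SL(2, ℤ)) : Q0 N :=
  QuotientGroup.mk ⟨mapGL ℝ γ, γ, rfl⟩

omit [NeZero N] in
theorem ConjBasic.exists_mkQ (q : Q0 N) : ∃ γ : SL(2, ℤ), q = ConjBasic.mkQ N γ := by
  induction q using Quotient.inductionOn with
  | h r =>
    obtain ⟨r, γ, rfl⟩ := r
    exact ⟨γ, rfl⟩

omit [NeZero N] in
theorem ConjBasic.mkQ_one : ConjBasic.mkQ N 1 = q0 N := by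
  unfold ConjBasic.mkQ q0
  congr 1
  apply Subtype.ext
  simp

omit [NeZero N] in
/-- the coset of `γ` is the base coset iff `γ ∈ Gamma0 N`. -/
theorem ConjBasic.mkQ_eq_q0_iff (γ : SL(2, ℤ)) : ConjBasic.mkQ N γ = q0 N ↔ γ ∈ Gamma0 N := by
  unfold ConjBasic.mkQ q0
  rw [QuotientGroup.eq, Subgroup.mem_subgroupOf]
  simp only [mul_one, Subgroup.coe_inv, inv_mem_iff]
  constructor
  · rintro ⟨δ, hδ, hδγ⟩
    have : δ = γ := mapGL_injective hδγ
    exact this ▸ hδ
  · intro h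
    exact Subgroup.mem_map_of_mem _ h

omit [NeZero N] in
theorem ConjBasic.mkQ_eq_mkQ_iff (γ δ : SL(2, ℤ)) :
    ConjBasic.mkQ N γ = ConjBasic.mkQ N δ ↔ γ⁻¹ * δ ∈ Gamma0 N := by
  unfold ConjBasic.mkQ
  rw [QuotientGroup.eq, Subgroup.mem_subgroupOf]
  simp only [Subgroup.coe_mul, Subgroup.coe_inv]
  rw [← map_inv, ← map_mul]
  constructor
  · rintro ⟨ε, hε, hεγ⟩
    have : ε = γ⁻¹ * δ := mapGL_injective hεγ
    exact this ▸ hε
  · intro h
    exact Subgroup.mem_map_of_mem _ h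

section

variable {F : Type*} [FunLike F ℍ ℂ]

omit [NeZero N] in
theorem ConjBasic.quotientFunc_mkQ [SlashInvariantFormClass F (G0 N) k] (f : F) (γ : SL(2, ℤ)) :
    quotientFunc f (ConjBasic.mkQ N γ) = (f : ℍ → ℂ) ∣[k] γ⁻¹ := by
  unfold ConjBasic.mkQ
  rw [ModularForm.SL_slash, map_inv]
  rfl

omit [NeZero N] in
/-- the conjugate attached to the base coset is the form itself. -/
theorem quotientFunc_q0 [SlashInvariantFormClass F (G0 N) k] (f : F) :
    quotientFunc f (q0 N) = f := by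
  rw [← ConjBasic.mkQ_one, ConjBasic.quotientFunc_mkQ, inv_one]
  exact SlashAction.slash_one _ _

/-- every conjugate is an `SL(2,ℤ)`-translate. -/
theorem ConjBasic.exists_quotientFunc_eq_slash [SlashInvariantFormClass F (G0 N) k] (f : F)
    (q : Q0 N) : ∃ γ : SL(2, ℤ), q = ConjBasic.mkQ N γ ∧
      quotientFunc f q = (f : ℍ → ℂ) ∣[k] γ⁻¹ := by
  obtain ⟨γ, rfl⟩ := ConjBasic.exists_mkQ q
  exact ⟨γ, rfl, ConjBasic.quotientFunc_mkQ f γ⟩

/-- conjugates of a cusp form vanish at `i∞`. -/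
theorem quotientFunc_isZeroAtImInfty [CuspFormClass F (G0 N) k] (f : F) (q : Q0 N) :
    IsZeroAtImInfty (quotientFunc f q) := by
  obtain ⟨γ, rfl⟩ := ConjBasic.exists_mkQ q
  rw [ConjBasic.quotientFunc_mkQ]
  exact CuspFormClass.zero_at_infty_slash f γ⁻¹

end


/-- the Lagrange denominator is `N`-periodic, holomorphic and bounded at `i∞`. -/
theorem lagrangeDen_mem_PerAlg {w : ℤ} (t : ModularForm (G0 N) w) :
    lagrangeDen t ∈ PerAlg (N : ℝ) := by
  have h : lagrangeDen t =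
      ∏ q ∈ Finset.univ.erase (q0 N), ((t : ℍ → ℂ) - quotientFunc t q) := by
    funext z
    simp [lagrangeDen, Finset.prod_apply]
  rw [h]
  exact Subalgebra.prod_mem _ fun q _ =>
    Subalgebra.sub_mem _ (PerAlg_one_le N (coe_mem_PerAlg_one t)) (quotientFunc_mem_PerAlg t q)

end Fermat.Agent.S23
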