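import Mathlib
import Fermat.Agent.S23.IntSeries
import Fermat.Prelude.Thm_UpperHalfPlane_qExpansion_coeff_nat_mul
import Fermat.Prelude.Thm_UpperHalfPlane_qExpansion_prod

/-!
# Conjugates of the function `u(z) = Δ(z)^N / Δ(N z)` under `SL(2, ℤ)`

For `γ ∈ SL(2, ℤ)` we show `u ∣[12 (N - 1)] γ = d ^ 12 • Δ(z)^N / Δ((a z + b) / d)` with `a d = N`,
and deduce: holomorphy, `N`-periodicity, boundedness at `i∞`, vanishing at `i∞` when
`γ ∉ Γ₀(N)`, and that the `q_N`-expansion has coefficients in any subring containing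
`exp (2 π i / N)`.
-/

set_option autoImplicit false

noncomputable section

open UpperHalfPlane ModularForm Complex Matrix.SpecialLinearGroup Filter Function
open scoped MatrixGroups Real Topology Manifold

namespace Fermat.Agent.S23.UConj

local notation "Δ" => ModularForm.discriminant
local notation "𝕢" => Periodic.qParam


/-- the map `z ↦ (a z + b) / d` on the upper half plane -/
def affMap (a d : ℕ) (b : ℤ) (ha : 0 < a) (hd : 0 < d) (z : ℍ) : ℍ :=
  ⟨((a : ℂ) * z + b) / d, by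
    have h1 : (((a : ℂ) * z + b) / d).im = (a : ℝ) * z.im / d := by
      have : ((a : ℂ) * z + b) / d = (((a : ℝ) / d : ℝ) : ℂ) * z + (((b : ℝ) / d : ℝ) : ℂ) := by
        push_cast; ring
      rw [this]
      simp only [add_im, mul_im, ofReal_re, ofReal_im, zero_mul, add_zero, UpperHalfPlane.coe_im]
      ring
    rw [h1]
    have : 0 < z.im := z.im_pos
    positivity⟩

theorem coe_affMap (a d : ℕ) (b : ℤ) (ha : 0 < a) (hd : 0 < d) (z : ℍ) :
    (affMap a d b ha hd z : ℂ) = ((a : ℂ) * z + b) / d := rfl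

theorem exists_triangular (N : ℕ) (hN : 0 < N) (γ : SL(2, ℤ)) :
    ∃ (a d : ℕ) (b : ℤ) (ha : 0 < a) (hd : 0 < d) (γ' : SL(2, ℤ)), a * d = N ∧
      (d = 1 → γ ∈ CongruenceSubgroup.Gamma0 N) ∧
      ∀ z : ℍ, affMap N 1 0 hN one_pos (γ • z) = γ' • affMap a d b ha hd z ∧
        denom γ z = denom γ' (affMap a d b ha hd z) * d := by
  set p := γ 0 0 with hp
  set q := γ 0 1 with hq
  set r := γ 1 0 with hr
  set s := γ 1 1 with hs
  have hdet : p * s - q * r = 1 := by
    have := γ.det_coe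
    rw [Matrix.det_fin_two] at this
    simpa [hp, hq, hr, hs] using this
  set g : ℕ := Int.gcd (N * p) r with hg
  have hgpos : 0 < g := by
    rw [hg, Int.gcd_pos_iff]
    by_contra hcon
    push Not at hcon
    obtain ⟨h1, h2⟩ := hcon
    have hp0 : p = 0 := by
      rcases mul_eq_zero.mp h1 with h | h
      · exact absurd (by exact_mod_cast h) hN.ne'
      · exact h
    rw [hp0, h2] at hdet
    simp at hdet
  obtain ⟨p', hp'⟩ : (g : ℤ) ∣ N * p := Int.gcd_dvd_left _ _
  obtain ⟨r', hr'⟩ : (g : ℤ) ∣ r := Int.gcd_dvd_right _ _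
  set x := Int.gcdA (N * p) r
  set y := Int.gcdB (N * p) r
  have hbez : (g : ℤ) = N * p * x + r * y := Int.gcd_eq_gcd_ab _ _
  have hgne : (g : ℤ) ≠ 0 := by exact_mod_cast hgpos.ne'
  have h3 : p' * x + r' * y = 1 := by
    apply mul_left_cancel₀ hgne
    rw [mul_one]
    calc (g : ℤ) * (p' * x + r' * y) = (g * p') * x + (g * r') * y := by ring
      _ = N * p * x + r * y := by rw [← hp', ← hr']
      _ = g := hbez.symm
  set b : ℤ := x * N * q + y * s with hb
  set dz : ℤ := -r' * N * q + p' * s with hdz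
  have hgd : (g : ℤ) * dz = N := by
    have : (g : ℤ) * dz = -(g * r') * N * q + (g * p') * s := by rw [hdz]; ring
    rw [this, ← hp', ← hr']
    linear_combination (N : ℤ) * hdet
  have hdzpos : 0 < dz := by
    have : (0 : ℤ) < g * dz := by rw [hgd]; exact_mod_cast hN
    exact (mul_pos_iff_of_pos_left (by exact_mod_cast hgpos)).mp this
  obtain ⟨d, hd⟩ : ∃ d : ℕ, (d : ℤ) = dz := ⟨dz.toNat, Int.toNat_of_nonneg hdzpos.le⟩
  have hdpos : 0 < d := by exact_mod_cast hd ▸ hdzpos
  have hgdN : g * d = N := by exact_mod_cast hd ▸ hgd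
  let γ' : SL(2, ℤ) := ⟨!![p', -y; r', x], by
    rw [Matrix.det_fin_two_of]; linear_combination h3⟩
  refine ⟨g, d, b, hgpos, hdpos, γ', hgdN, ?_, ?_⟩
  · intro hd1
    rw [CongruenceSubgroup.Gamma0_mem]
    rw [hd1, mul_one] at hgdN
    rw [← hr, hr', hgdN]
    simp
  · intro z
    -- key complex identities
    have e1 : (N : ℂ) * ((p : ℂ) * z + q) = p' * ((g : ℂ) * z + b) - y * d := by
      have h1 : ((N : ℤ) : ℂ) * (p : ℂ) = (g : ℤ) * p' := by exact_mod_cast congrArg (Int.cast (R := ℂ)) hp'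
      have h3' : (p' : ℂ) * x + r' * y = 1 := by exact_mod_cast congrArg (Int.cast (R := ℂ)) h3
      have hd' : (d : ℂ) = -r' * N * q + p' * s := by
        have := congrArg (Int.cast (R := ℂ)) (hd.trans hdz)
        push_cast at this
        exact this
      have hb' : (b : ℂ) = x * N * q + y * s := by rw [hb]; push_cast; ring
      push_cast at h1
      rw [hd', hb']
      linear_combination (z : ℂ) * h1 - (N : ℂ) * q * h3'
    have e2 : (r : ℂ) * z + s = r' * ((g : ℂ) * z + b) + x * d := by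
      have h2 : (r : ℂ) = (g : ℤ) * r' := by exact_mod_cast congrArg (Int.cast (R := ℂ)) hr'
      have h3' : (p' : ℂ) * x + r' * y = 1 := by exact_mod_cast congrArg (Int.cast (R := ℂ)) h3
      have hd' : (d : ℂ) = -r' * N * q + p' * s := by
        have := congrArg (Int.cast (R := ℂ)) (hd.trans hdz)
        push_cast at this
        exact this
      have hb' : (b : ℂ) = x * N * q + y * s := by rw [hb]; push_cast; ring
      push_cast at h2
      rw [hd', hb']
      linear_combination (z : ℂ) * h2 - (s : ℂ) * h3'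
    have hdne : (d : ℂ) ≠ 0 := by exact_mod_cast hdpos.ne'
    have hden : denom γ z = (r : ℂ) * z + s := by
      rw [ModularGroup.denom_apply]
    have hden' : denom γ' (affMap g d b hgpos hdpos z) =
        (r' : ℂ) * (((g : ℂ) * z + b) / d) + x := by
      rw [ModularGroup.denom_apply, coe_affMap]
      simp [γ']
    constructor
    · apply UpperHalfPlane.ext
      rw [coe_affMap, coe_specialLinearGroup_apply, coe_specialLinearGroup_apply, coe_affMap]
      have hne : (r : ℂ) * z + s ≠ 0 := by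
        rw [← hden]; exact denom_ne_zero γ z
      have hne' : (r' : ℂ) * (((g : ℂ) * z + b) / d) + x ≠ 0 := by
        rw [← hden']; exact denom_ne_zero γ' _
      simp only [γ', algebraMap_int_eq, Int.coe_castRingHom, ← hp, ← hq, ← hr, ← hs]
      simp only [Matrix.cons_val', Matrix.cons_val_zero, Matrix.cons_val_one, Matrix.cons_val_fin_one,
        Matrix.of_apply, ofReal_intCast, Int.cast_neg, ofReal_neg]
      push_cast
      rw [add_zero, div_one, mul_div_assoc', div_eq_div_iff hne hne']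
      field_simp
      linear_combination (r' * ((g : ℂ) * z + b) + x * d) * e1 - (p' * ((g : ℂ) * z + b) - y * d) * e2
    · rw [hden, hden', e2]
      field_simp



theorem discriminant_smul (γ : SL(2, ℤ)) (z : ℍ) : Δ (γ • z) = denom γ z ^ 12 * Δ z := by
  have h := congrFun (SlashInvariantForm.slash_action_generators_SL2Z
    discriminant_S_invariant discriminant_T_invariant γ) z
  rw [SL_slash_apply] at h
  have hne : denom γ z ≠ 0 := denom_ne_zero γ z
  rw [← h, zpow_neg, mul_comm, mul_assoc]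
  have : (denom γ z ^ (12 : ℤ))⁻¹ * denom γ z ^ 12 = 1 := by
    rw [show (denom γ z ^ (12 : ℤ)) = denom γ z ^ 12 by norm_cast]
    exact inv_mul_cancel₀ (pow_ne_zero _ hne)
  rw [this, mul_one]

/-- the function `u(z) = Δ(z)^N / Δ(N z)` -/
def uFun (N : ℕ) (hN : 0 < N) (z : ℍ) : ℂ :=
  Δ z ^ N / Δ (affMap N 1 0 hN one_pos z)

/-- the general conjugate `Δ(z)^N / Δ((a z + b)/d)` -/
def conjFun (N a d : ℕ) (b : ℤ) (ha : 0 < a) (hd : 0 < d) (z : ℍ) : ℂ :=
  Δ z ^ N / Δ (affMap a d b ha hd z)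

theorem uFun_eq_conjFun (N : ℕ) (hN : 0 < N) : uFun N hN = conjFun N N 1 0 hN one_pos := rfl

theorem uFun_slash (N : ℕ) (hN : 0 < N) (γ : SL(2, ℤ)) :
    ∃ (a d : ℕ) (b : ℤ) (ha : 0 < a) (hd : 0 < d), a * d = N ∧
      (d = 1 → γ ∈ CongruenceSubgroup.Gamma0 N) ∧
      (uFun N hN) ∣[(12 : ℤ) * (N - 1)] γ = (d : ℂ) ^ 12 • conjFun N a d b ha hd := by
  obtain ⟨a, d, b, ha, hd, γ', had, hd1, h⟩ := exists_triangular N hN γ
  refine ⟨a, d, b, ha, hd, had, hd1, ?_⟩
  funext z
  obtain ⟨h1, h2⟩ := h z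
  rw [SL_slash_apply, Pi.smul_apply, smul_eq_mul, uFun, conjFun, h1, discriminant_smul,
    discriminant_smul, h2]
  have hne : denom γ' (affMap a d b ha hd z) ≠ 0 := denom_ne_zero γ' _
  have hdne : (d : ℂ) ≠ 0 := by exact_mod_cast hd.ne'
  have hΔ1 : Δ z ≠ 0 := discriminant_ne_zero z
  have hΔ2 : Δ (affMap a d b ha hd z) ≠ 0 := discriminant_ne_zero _
  set D := denom γ' (affMap a d b ha hd z) with hD
  have hN1 : (1 : ℤ) ≤ N := by exact_mod_cast hN
  have hpow : (D * d) ^ (-((12 : ℤ) * (N - 1))) = ((D * d) ^ (12 * (N - 1)))⁻¹ := by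
    rw [zpow_neg]
    congr 1
    have : (12 : ℤ) * (N - 1) = ((12 * (N - 1) : ℕ) : ℤ) := by
      push_cast [Nat.cast_sub hN]; ring
    rw [this, zpow_natCast]
  rw [hpow]
  have hDd : D * d ≠ 0 := mul_ne_zero hne hdne
  have hsplit : ((D * d) ^ 12 * Δ z) ^ N = (D * d) ^ (12 * (N - 1)) * ((D * d) ^ 12 * Δ z ^ N) := by
    rw [mul_pow, ← pow_mul, ← mul_assoc, ← pow_add]
    congr 2
    have : 1 ≤ N := hN
    omega
  rw [hsplit]
  field_simp






theorem im_affMap (a d : ℕ) (b : ℤ) (ha : 0 < a) (hd : 0 < d) (z : ℍ) :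
    (affMap a d b ha hd z).im = (a : ℝ) / d * z.im := by
  change (((a : ℂ) * z + b) / d).im = _
  have : ((a : ℂ) * z + b) / d = (((a : ℝ) / d : ℝ) : ℂ) * z + (((b : ℝ) / d : ℝ) : ℂ) := by
    push_cast; ring
  rw [this]
  simp only [add_im, mul_im, ofReal_re, ofReal_im, zero_mul, add_zero, UpperHalfPlane.coe_im]

theorem tendsto_affMap (a d : ℕ) (b : ℤ) (ha : 0 < a) (hd : 0 < d) :
    Tendsto (affMap a d b ha hd) atImInfty atImInfty := by
  rw [atImInfty, tendsto_comap_iff]
  have : (UpperHalfPlane.im ∘ affMap a d b ha hd) = fun z : ℍ => (a : ℝ) / d * z.im := by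
    funext z; exact im_affMap a d b ha hd z
  rw [this]
  have hpos : (0 : ℝ) < (a : ℝ) / d := by positivity
  exact (tendsto_comap (f := UpperHalfPlane.im) (x := atTop)).const_mul_atTop hpos

/-- the infinite product factor of `Δ` -/
def prodFactor (z : ℍ) : ℂ := ∏' n : ℕ, (1 - eta_q n z) ^ 24

theorem discriminant_eq (z : ℍ) : Δ z = 𝕢 1 z * prodFactor z := discriminant_eq_q_prod z

theorem tendsto_prodFactor : Tendsto prodFactor atImInfty (𝓝 1) :=
  tendsto_atImInfty_tprod_one_sub_eta_q_pow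

theorem prodFactor_ne_zero (z : ℍ) : prodFactor z ≠ 0 := by
  have h := discriminant_ne_zero z
  rw [discriminant_eq] at h
  exact right_ne_zero_of_mul h


theorem conjFun_eq (N a d : ℕ) (b : ℤ) (ha : 0 < a) (hd : 0 < d) (z : ℍ) :
    conjFun N a d b ha hd z =
      (𝕢 1 z ^ N / 𝕢 1 (affMap a d b ha hd z)) *
        (prodFactor z ^ N / prodFactor (affMap a d b ha hd z)) := by
  rw [conjFun, discriminant_eq, discriminant_eq, mul_pow]
  have h1 : 𝕢 1 (affMap a d b ha hd z : ℂ) ≠ 0 := Periodic.qParam_ne_zero _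
  have h2 := prodFactor_ne_zero (affMap a d b ha hd z)
  field_simp

theorem norm_qRatio (N a d : ℕ) (b : ℤ) (ha : 0 < a) (hd : 0 < d) (z : ℍ) :
    ‖𝕢 1 z ^ N / 𝕢 1 (affMap a d b ha hd z)‖ =
      Real.exp (-2 * π * ((N : ℝ) - (a : ℝ) / d) * z.im) := by
  rw [norm_div, norm_pow, Periodic.norm_qParam, Periodic.norm_qParam, ← Real.exp_nat_mul,
    ← Real.exp_sub]
  congr 1
  have := im_affMap a d b ha hd z
  rw [UpperHalfPlane.coe_im] at *
  rw [UpperHalfPlane.coe_im, this]
  ring

theorem tendsto_prodRatio (N a d : ℕ) (b : ℤ) (ha : 0 < a) (hd : 0 < d) :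
    Tendsto (fun z => prodFactor z ^ N / prodFactor (affMap a d b ha hd z)) atImInfty (𝓝 1) := by
  have h1 : Tendsto (fun z => prodFactor z ^ N) atImInfty (𝓝 (1 ^ N)) := tendsto_prodFactor.pow N
  have h2 : Tendsto (fun z => prodFactor (affMap a d b ha hd z)) atImInfty (𝓝 1) :=
    tendsto_prodFactor.comp (tendsto_affMap a d b ha hd)
  have := h1.div h2 one_ne_zero
  rw [one_pow, div_one] at this
  exact this

theorem conjFun_isBoundedAtImInfty (N a d : ℕ) (b : ℤ) (ha : 0 < a) (hd : 0 < d)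
    (h : (a : ℝ) / d ≤ N) : IsBoundedAtImInfty (conjFun N a d b ha hd) := by
  have hfun : conjFun N a d b ha hd = (fun z : ℍ => 𝕢 1 z ^ N / 𝕢 1 (affMap a d b ha hd z)) *
      (fun z : ℍ => prodFactor z ^ N / prodFactor (affMap a d b ha hd z)) := by
    funext z; exact conjFun_eq N a d b ha hd z
  rw [hfun]
  apply BoundedAtFilter.mul
  · apply Asymptotics.IsBigO.of_bound 1
    filter_upwards with z
    rw [norm_qRatio]
    simp only [Pi.one_apply, norm_one, mul_one]
    rw [Real.exp_le_one_iff]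
    have : 0 < z.im := z.im_pos
    have h2 : 0 ≤ ((N : ℝ) - (a : ℝ) / d) := by linarith
    have h3 : 0 ≤ 2 * π * ((N : ℝ) - (a : ℝ) / d) * z.im := by positivity
    linarith
  · exact (tendsto_prodRatio N a d b ha hd).isBigO_one ℝ

theorem conjFun_isZeroAtImInfty (N a d : ℕ) (b : ℤ) (ha : 0 < a) (hd : 0 < d)
    (h : (a : ℝ) / d < N) : IsZeroAtImInfty (conjFun N a d b ha hd) := by
  have hfun : conjFun N a d b ha hd = fun z : ℍ => (𝕢 1 z ^ N / 𝕢 1 (affMap a d b ha hd z)) *
      (prodFactor z ^ N / prodFactor (affMap a d b ha hd z)) := by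
    funext z; exact conjFun_eq N a d b ha hd z
  rw [hfun, IsZeroAtImInfty, ZeroAtFilter]
  have h0 : Tendsto (fun z : ℍ => 𝕢 1 z ^ N / 𝕢 1 (affMap a d b ha hd z)) atImInfty (𝓝 0) := by
    rw [tendsto_zero_iff_norm_tendsto_zero]
    have : (fun z : ℍ => ‖𝕢 1 z ^ N / 𝕢 1 (affMap a d b ha hd z)‖) =
        fun z : ℍ => Real.exp (-(2 * π * ((N : ℝ) - (a : ℝ) / d)) * z.im) := by
      funext z; rw [norm_qRatio]; congr 1; ring
    rw [this]
    have hc : 0 < 2 * π * ((N : ℝ) - (a : ℝ) / d) := by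
      have : 0 < (N : ℝ) - (a : ℝ) / d := by linarith
      positivity
    have h1 : Tendsto (fun z : ℍ => (2 * π * ((N : ℝ) - (a : ℝ) / d)) * z.im) atImInfty atTop :=
      (tendsto_comap (f := UpperHalfPlane.im) (x := atTop)).const_mul_atTop hc
    have h2 := Real.tendsto_exp_neg_atTop_nhds_zero.comp h1
    refine h2.congr fun z => ?_
    simp only [Function.comp_apply]
    congr 1; ring
  have := h0.mul (tendsto_prodRatio N a d b ha hd)
  simpa using this







theorem im_aff_pos (a d : ℕ) (b : ℤ) (ha : 0 < a) (hd : 0 < d) {w : ℂ} (hw : 0 < w.im) :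
    0 < (((a : ℂ) * w + b) / d).im := (affMap a d b ha hd ⟨w, hw⟩).im_pos

theorem affMap_ofComplex (a d : ℕ) (b : ℤ) (ha : 0 < a) (hd : 0 < d) {w : ℂ} (hw : 0 < w.im) :
    affMap a d b ha hd (ofComplex w) = ofComplex (((a : ℂ) * w + b) / d) := by
  rw [ofComplex_apply_of_im_pos hw, ofComplex_apply_of_im_pos (im_aff_pos a d b ha hd hw)]
  rfl

theorem differentiableOn_discriminant :
    DifferentiableOn ℂ (Δ ∘ ofComplex) {z | 0 < z.im} :=
  UpperHalfPlane.mdifferentiable_iff.mp CuspForm.discriminant.holo'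

theorem mdifferentiable_comp_affMap (a d : ℕ) (b : ℤ) (ha : 0 < a) (hd : 0 < d) {F : ℍ → ℂ}
    (hF : MDiff F) : MDiff (fun z => F (affMap a d b ha hd z)) := by
  rw [UpperHalfPlane.mdifferentiable_iff] at hF ⊢
  have h1 : DifferentiableOn ℂ (fun w : ℂ => (F ∘ ofComplex) (((a : ℂ) * w + b) / d))
      {z | 0 < z.im} := by
    have hlin : DifferentiableOn ℂ (fun w : ℂ => ((a : ℂ) * w + b) / d) {z | 0 < z.im} := by
      intro w _
      apply DifferentiableAt.differentiableWithinAt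
      fun_prop
    exact DifferentiableOn.comp (g := F ∘ ofComplex) (t := {z | 0 < z.im}) hF hlin
      (fun w hw => im_aff_pos a d b ha hd hw)
  refine h1.congr fun w hw => ?_
  simp only [Function.comp_apply]
  rw [affMap_ofComplex a d b ha hd hw]

theorem mdifferentiable_conjFun (N a d : ℕ) (b : ℤ) (ha : 0 < a) (hd : 0 < d) :
    MDiff (conjFun N a d b ha hd) := by
  have h1 : MDiff (fun z : ℍ => Δ z ^ N) := by
    have : MDiff (Δ : ℍ → ℂ) := CuspForm.discriminant.holo'
    exact this.pow N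
  have h2 : MDiff (fun z : ℍ => Δ (affMap a d b ha hd z)) :=
    mdifferentiable_comp_affMap a d b ha hd CuspForm.discriminant.holo'
  intro z
  exact (h1 z).div (h2 z) (discriminant_ne_zero _)

theorem periodic_discriminant : Periodic (Δ ∘ ofComplex) 1 :=
  SlashInvariantFormClass.periodic_comp_ofComplex CuspForm.discriminant one_mem_strictPeriods_SL

theorem periodic_comp_affMap (a d e : ℕ) (b : ℤ) (ha : 0 < a) (hd : 0 < d) {F : ℍ → ℂ}
    (hF : Periodic (F ∘ ofComplex) 1) (h : ℝ) (he : (a : ℝ) * h = e * d) :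
    Periodic ((fun z => F (affMap a d b ha hd z)) ∘ ofComplex) h := by
  intro w
  by_cases hw : 0 < w.im
  · have hw' : 0 < (w + h).im := by simpa using hw
    simp only [Function.comp_apply]
    rw [affMap_ofComplex a d b ha hd hw, affMap_ofComplex a d b ha hd hw']
    have : ((a : ℂ) * (w + h) + b) / d = ((a : ℂ) * w + b) / d + (e : ℕ) := by
      have hd0 : (d : ℂ) ≠ 0 := by exact_mod_cast hd.ne'
      have he' : (a : ℂ) * h = e * d := by exact_mod_cast congrArg (fun x : ℝ => (x : ℂ)) he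
      field_simp
      linear_combination he'
    rw [this]
    have hp := (hF.nat_mul e) (((a : ℂ) * w + b) / d)
    simpa using hp
  · have hw1 : w.im ≤ 0 := not_lt.mp hw
    have hw2 : (w + h).im ≤ 0 := by simpa using hw1
    simp only [Function.comp_apply]
    rw [ofComplex_apply_eq_of_im_nonpos hw2 hw1]






/-- the root of unity `exp (2 π i b / d)` -/
def rootOfUnity (b : ℤ) (d : ℕ) : ℂ := exp (2 * π * Complex.I * b / d)

theorem qParam_affMap (a d e : ℕ) (b : ℤ) (ha : 0 < a) (hd : 0 < d) (h : ℝ) (hh : 0 < h)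
    (he : (a : ℝ) * h = e * d) (z : ℍ) :
    𝕢 1 (affMap a d b ha hd z) = rootOfUnity b d * 𝕢 h z ^ e := by
  rw [coe_affMap, Periodic.qParam, Periodic.qParam, rootOfUnity, ← exp_nat_mul, ← exp_add]
  congr 1
  have hd0 : (d : ℂ) ≠ 0 := by exact_mod_cast hd.ne'
  have hh0 : (h : ℂ) ≠ 0 := by exact_mod_cast hh.ne'
  have he' : (a : ℂ) * h = e * d := by exact_mod_cast congrArg (fun x : ℝ => (x : ℂ)) he
  have key : (a : ℂ) / d = e / h := by rw [div_eq_div_iff hd0 hh0]; exact he'
  simp only [ofReal_one, div_one]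
  calc 2 * π * Complex.I * (((a : ℂ) * z + b) / d)
      = 2 * π * Complex.I * b / d + 2 * π * Complex.I * z * ((a : ℂ) / d) := by ring
    _ = 2 * π * Complex.I * b / d + 2 * π * Complex.I * z * ((e : ℂ) / h) := by rw [key]
    _ = 2 * π * Complex.I * b / d + e * (2 * π * Complex.I * z / h) := by ring

/-- coefficients of the expansion of `F ∘ affMap` -/
def affCoeff (c : ℕ → ℂ) (ζ : ℂ) (e : ℕ) (n : ℕ) : ℂ :=
  if e ∣ n then c (n / e) * ζ ^ (n / e) else 0

theorem hasSum_comp_affMap {F : ℍ → ℂ} (c : ℕ → ℂ)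
    (hF : ∀ τ : ℍ, HasSum (fun m : ℕ => c m • 𝕢 1 τ ^ m) (F τ))
    (a d e : ℕ) (b : ℤ) (ha : 0 < a) (hd : 0 < d) (hepos : 0 < e) (h : ℝ) (hh : 0 < h)
    (he : (a : ℝ) * h = e * d) (τ : ℍ) :
    HasSum (fun n : ℕ => affCoeff c (rootOfUnity b d) e n • 𝕢 h τ ^ n)
      (F (affMap a d b ha hd τ)) := by
  have h1 := hF (affMap a d b ha hd τ)
  rw [qParam_affMap a d e b ha hd h hh he τ] at h1
  have hinj : Function.Injective (fun m : ℕ => e * m) := fun m m' hmm =>
    Nat.eq_of_mul_eq_mul_left hepos hmm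
  rw [← hinj.hasSum_iff]
  · have hfun : ((fun n : ℕ => affCoeff c (rootOfUnity b d) e n • 𝕢 h τ ^ n) ∘ fun m : ℕ => e * m) =
        fun m : ℕ => c m • (rootOfUnity b d * 𝕢 h τ ^ e) ^ m := by
      funext m
      simp only [Function.comp_apply, affCoeff, dvd_mul_right, if_true,
        Nat.mul_div_cancel_left m hepos, smul_eq_mul]
      rw [mul_pow, ← pow_mul]
      ring
    rw [hfun]
    exact h1
  · intro n hn
    have : ¬ e ∣ n := fun ⟨m, hm⟩ => hn ⟨m, hm.symm⟩
    simp [affCoeff, this]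





theorem periodic_discriminant_nat (N : ℕ) : Periodic (Δ ∘ ofComplex) (N : ℝ) := by
  have := periodic_discriminant.nat_mul N
  simpa using this

theorem periodic_discriminant_comp_affMap (N a d : ℕ) (b : ℤ) (ha : 0 < a) (hd : 0 < d)
    (had : a * d = N) :
    Periodic ((fun z => Δ (affMap a d b ha hd z)) ∘ ofComplex) (N : ℝ) := by
  apply periodic_comp_affMap a d (a * a) b ha hd periodic_discriminant
  rw [← had]
  push_cast
  ring

theorem periodic_conjFun (N a d : ℕ) (b : ℤ) (ha : 0 < a) (hd : 0 < d) (had : a * d = N) :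
    Periodic (conjFun N a d b ha hd ∘ ofComplex) (N : ℝ) := by
  intro w
  have h1 := periodic_discriminant_nat N w
  have h2 := periodic_discriminant_comp_affMap N a d b ha hd had w
  simp only [Function.comp_apply, conjFun] at h1 h2 ⊢
  rw [h1, h2]

theorem div_le_of_mul_eq (N a d : ℕ) (hd : 0 < d) (had : a * d = N) : (a : ℝ) / d ≤ N := by
  rw [div_le_iff₀ (by exact_mod_cast hd)]
  have : a ≤ N * d := by
    rw [← had]
    calc a = a * 1 * 1 := by ring
      _ ≤ a * d * d := by gcongr <;> omega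
  exact_mod_cast this

theorem div_lt_of_mul_eq (N a d : ℕ) (ha : 0 < a) (hd : 1 < d) (had : a * d = N) :
    (a : ℝ) / d < N := by
  rw [div_lt_iff₀ (by exact_mod_cast (by omega : 0 < d))]
  have : a < N * d := by
    rw [← had]
    calc a = a * 1 * 1 := by ring
      _ < a * d * 1 := by
        apply Nat.mul_lt_mul_of_pos_right _ one_pos
        exact Nat.mul_lt_mul_of_pos_left hd ha
      _ ≤ a * d * d := Nat.mul_le_mul_left _ (by omega)
  exact_mod_cast this

theorem isBoundedAtImInfty_discriminant : IsBoundedAtImInfty (Δ : ℍ → ℂ) :=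
  (discriminant_isZeroAtImInfty).isBoundedAtImInfty

theorem mdifferentiable_discriminant : MDiff (Δ : ℍ → ℂ) := CuspForm.discriminant.holo'

theorem isBoundedAtImInfty_discriminant_comp_affMap (a d : ℕ) (b : ℤ) (ha : 0 < a) (hd : 0 < d) :
    IsBoundedAtImInfty (fun z => Δ (affMap a d b ha hd z)) := by
  have h0 : Tendsto (Δ : ℍ → ℂ) atImInfty (𝓝 0) := discriminant_isZeroAtImInfty
  exact (h0.comp (tendsto_affMap a d b ha hd)).isBigO_one ℝ

theorem analyticAt_cuspFunction_conjFun (N a d : ℕ) (b : ℤ) (hN : 0 < N) (ha : 0 < a) (hd : 0 < d)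
    (had : a * d = N) : AnalyticAt ℂ (cuspFunction (N : ℝ) (conjFun N a d b ha hd)) 0 :=
  analyticAt_cuspFunction_zero (Nat.cast_pos.mpr hN) (periodic_conjFun N a d b ha hd had)
    (mdifferentiable_conjFun N a d b ha hd)
    (conjFun_isBoundedAtImInfty N a d b ha hd (div_le_of_mul_eq N a d hd had))

theorem analyticAt_cuspFunction_discriminant_comp_affMap (N a d : ℕ) (b : ℤ) (hN : 0 < N)
    (ha : 0 < a) (hd : 0 < d) (had : a * d = N) :
    AnalyticAt ℂ (cuspFunction (N : ℝ) (fun z => Δ (affMap a d b ha hd z))) 0 :=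
  analyticAt_cuspFunction_zero (Nat.cast_pos.mpr hN)
    (periodic_discriminant_comp_affMap N a d b ha hd had)
    (mdifferentiable_comp_affMap a d b ha hd mdifferentiable_discriminant)
    (isBoundedAtImInfty_discriminant_comp_affMap a d b ha hd)

theorem analyticAt_cuspFunction_discriminant (N : ℕ) (hN : 0 < N) :
    AnalyticAt ℂ (cuspFunction (N : ℝ) (Δ : ℍ → ℂ)) 0 :=
  analyticAt_cuspFunction_zero (Nat.cast_pos.mpr hN) (periodic_discriminant_nat N)
    mdifferentiable_discriminant isBoundedAtImInfty_discriminant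

/-- the identity `FunLike` structure on plain functions (not an instance) -/
@[reducible] def funLikeFun : FunLike (ℍ → ℂ) ℍ ℂ := ⟨fun f => f, fun _ _ h => h⟩

theorem qExpansion_coeff_unique' {f : ℍ → ℂ} {c : ℕ → ℂ} {h : ℝ} (hh : 0 < h)
    (hf : AnalyticAt ℂ (cuspFunction h f) 0)
    (hs : ∀ τ : ℍ, HasSum (fun m => c m • 𝕢 h τ ^ m) (f τ)) (m : ℕ) :
    c m = (qExpansion h f).coeff m :=
  @qExpansion_coeff_unique (ℍ → ℂ) funLikeFun h f c hh hf hs m

/-- coefficients of the `q`-expansion of `Δ` -/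
def deltaCoeff (m : ℕ) : ℂ := (qExpansion 1 (Δ : ℍ → ℂ)).coeff m

theorem hasSum_discriminant (τ : ℍ) : HasSum (fun m : ℕ => deltaCoeff m • 𝕢 1 τ ^ m) (Δ τ) :=
  hasSum_qExpansion one_pos periodic_discriminant mdifferentiable_discriminant
    isBoundedAtImInfty_discriminant τ

theorem qExpansion_discriminant_comp_affMap_coeff (N a d : ℕ) (b : ℤ) (hN : 0 < N)
    (ha : 0 < a) (hd : 0 < d) (had : a * d = N) (n : ℕ) :
    (qExpansion (N : ℝ) (fun z => Δ (affMap a d b ha hd z))).coeff n =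
      affCoeff deltaCoeff (rootOfUnity b d) (a * a) n := by
  have hNpos : (0 : ℝ) < (N : ℝ) := Nat.cast_pos.mpr hN
  have he : (a : ℝ) * (N : ℝ) = ((a * a : ℕ) : ℝ) * d := by
    rw [← had]
    push_cast
    ring
  have hsum : ∀ τ : ℍ, HasSum
      (fun n : ℕ => affCoeff deltaCoeff (rootOfUnity b d) (a * a) n • 𝕢 (N : ℝ) τ ^ n)
      ((fun z => Δ (affMap a d b ha hd z)) τ) := fun τ =>
    hasSum_comp_affMap (F := (Δ : ℍ → ℂ)) deltaCoeff hasSum_discriminant a d (a * a) b ha hd
      (Nat.mul_pos ha ha) (N : ℝ) hNpos he τ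
  exact (qExpansion_coeff_unique' hNpos
    (analyticAt_cuspFunction_discriminant_comp_affMap N a d b hN ha hd had) hsum n).symm

theorem qExpansion_discriminant_nat_coeff (N : ℕ) (hN : 0 < N) (n : ℕ) :
    (qExpansion (N : ℝ) (Δ : ℍ → ℂ)).coeff n = if N ∣ n then deltaCoeff (n / N) else 0 := by
  have := UpperHalfPlane.qExpansion_coeff_nat_mul one_pos periodic_discriminant
    mdifferentiable_discriminant isBoundedAtImInfty_discriminant hN n
  rwa [mul_one] at this

theorem conjFun_mul (N a d : ℕ) (b : ℤ) (ha : 0 < a) (hd : 0 < d) :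
    conjFun N a d b ha hd * (fun z => Δ (affMap a d b ha hd z)) = ∏ _i ∈ Finset.range N, (Δ : ℍ → ℂ) := by
  funext z
  rw [Finset.prod_const, Finset.card_range, Pi.mul_apply, Pi.pow_apply, conjFun,
    div_mul_cancel₀ _ (discriminant_ne_zero _)]

theorem qExpansion_conjFun_mul (N a d : ℕ) (b : ℤ) (hN : 0 < N) (ha : 0 < a) (hd : 0 < d)
    (had : a * d = N) :
    qExpansion (N : ℝ) (conjFun N a d b ha hd) *
        qExpansion (N : ℝ) (fun z => Δ (affMap a d b ha hd z)) =
      qExpansion (N : ℝ) (Δ : ℍ → ℂ) ^ N := by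
  rw [← qExpansion_mul (analyticAt_cuspFunction_conjFun N a d b hN ha hd had)
    (analyticAt_cuspFunction_discriminant_comp_affMap N a d b hN ha hd had), conjFun_mul,
    UpperHalfPlane.qExpansion_prod _ (fun _ _ => analyticAt_cuspFunction_discriminant N hN),
    Finset.prod_const, Finset.card_range]


section Division

open PowerSeries Fermat.Agent.S23.IntSeries



/-- Division in a coefficient subring: if `A * B = C`, `B` and `C` have coefficients in `R`, and the
lowest coefficient of `B` (in degree `m`) is invertible in `R`, then `A` has coefficients in `R`. -/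
theorem mem_coeffSubring_of_mul_eq {S : Type*} [CommRing S] {R : Subring S}
    {A B C : PowerSeries S} (m : ℕ)
    (hAB : A * B = C) (hB : B ∈ coeffSubring R) (hC : C ∈ coeffSubring R)
    (hB0 : ∀ j < m, coeff j B = 0) {u : S} (hu : u ∈ R) (hu1 : coeff m B * u = 1) :
    A ∈ coeffSubring R := by
  set B' : PowerSeries S := PowerSeries.mk fun n => coeff (n + m) B with hB'
  have hBeq : B = X ^ m * B' := by
    ext n
    rw [coeff_X_pow_mul']
    split_ifs with h
    · rw [hB', coeff_mk, Nat.sub_add_cancel h]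
    · exact hB0 n (not_le.mp h)
  have hB'mem : B' ∈ coeffSubring R := fun n => by
    rw [hB', coeff_mk]; exact hB _
  have hAB' : A * B' ∈ coeffSubring R := fun n => by
    have h1 : C = X ^ m * (A * B') := by
      rw [← hAB, hBeq]; ring
    have h2 := hC (n + m)
    rwa [h1, coeff_X_pow_mul] at h2
  have hF : PowerSeries.C u * B' ∈ coeffSubring R :=
    (coeffSubring R).mul_mem (C_mem_coeffSubring hu) hB'mem
  have hF1 : constantCoeff (PowerSeries.C u * B') = 1 := by
    rw [map_mul, constantCoeff_C, ← coeff_zero_eq_constantCoeff_apply, hB', coeff_mk, zero_add,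
      mul_comm]
    exact hu1
  refine mem_coeffSubring_of_mul_mem hF hF1 ?_
  have : PowerSeries.C u * B' * A = PowerSeries.C u * (A * B') := by ring
  rw [this]
  exact (coeffSubring R).mul_mem (C_mem_coeffSubring hu) hAB'


end Division


section Integrality

open Fermat.Agent.S23.IntSeries




theorem rootOfUnity_eq_pow (N a d : ℕ) (b : ℤ) (ha : 0 < a) (hd : 0 < d) (had : a * d = N) :
    rootOfUnity b d = rootOfUnity 1 N ^ (a * (b % d).toNat) := by
  have hdz : (d : ℤ) ≠ 0 := by exact_mod_cast hd.ne'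
  have hr0 : 0 ≤ b % d := Int.emod_nonneg b hdz
  have hr : (((b % d).toNat : ℕ) : ℤ) = b % d := Int.toNat_of_nonneg hr0
  have hb : b % d + d * (b / d) = b := Int.emod_add_mul_ediv b d
  rw [rootOfUnity, rootOfUnity, ← exp_nat_mul, exp_eq_exp_iff_exists_int]
  refine ⟨b / d, ?_⟩
  have hdc : (d : ℂ) ≠ 0 := by exact_mod_cast hd.ne'
  have hac : (a : ℂ) ≠ 0 := by exact_mod_cast ha.ne'
  have hrc : (((b % d).toNat : ℕ) : ℂ) = ((b % d : ℤ) : ℂ) := by
    have := congrArg (fun x : ℤ => (x : ℂ)) hr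
    simp only [Int.cast_natCast] at this
    exact this
  have hbc : (b : ℂ) = ((b % d : ℤ) : ℂ) + d * ((b / d : ℤ) : ℂ) := by
    conv_lhs => rw [← hb]
    push_cast
    ring
  rw [← had]
  push_cast
  rw [hrc, hbc]
  field_simp

theorem rootOfUnity_mem {R : Subring ℂ} (N a d : ℕ) (b : ℤ) (ha : 0 < a) (hd : 0 < d)
    (had : a * d = N) (hR : rootOfUnity 1 N ∈ R) : rootOfUnity b d ∈ R := by
  rw [rootOfUnity_eq_pow N a d b ha hd had]
  exact pow_mem hR _

theorem rootOfUnity_pow_self (b : ℤ) (d : ℕ) (hd : 0 < d) : rootOfUnity b d ^ d = 1 := by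
  rw [rootOfUnity, ← exp_nat_mul]
  have hdc : (d : ℂ) ≠ 0 := by exact_mod_cast hd.ne'
  have : (d : ℂ) * (2 * π * Complex.I * b / d) = b * (2 * π * Complex.I) := by
    field_simp
  rw [this]
  exact exp_int_mul_two_pi_mul_I b

theorem rootOfUnity_mul_pow (b : ℤ) (d : ℕ) (hd : 0 < d) :
    rootOfUnity b d * rootOfUnity b d ^ (d - 1) = 1 := by
  rw [← pow_succ', Nat.sub_add_cancel hd, rootOfUnity_pow_self b d hd]

theorem deltaCoeff_eq (m : ℕ) : deltaCoeff m = ((PowerSeries.coeff m DeltaZ : ℤ) : ℂ) := by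
  rw [deltaCoeff, qExpansion_discriminant, PowerSeries.coeff_map]
  simp

theorem deltaCoeff_mem (R : Subring ℂ) (m : ℕ) : deltaCoeff m ∈ R := by
  rw [deltaCoeff_eq]
  exact intCast_mem R _

theorem deltaCoeff_zero : deltaCoeff 0 = 0 := by
  rw [deltaCoeff_eq, coeff_zero_DeltaZ]
  simp

theorem deltaCoeff_one : deltaCoeff 1 = 1 := by
  rw [deltaCoeff_eq, coeff_one_DeltaZ]
  simp

theorem qExpansion_discriminant_nat_mem (R : Subring ℂ) (N : ℕ) (hN : 0 < N) :
    qExpansion (N : ℝ) (Δ : ℍ → ℂ) ∈ coeffSubring R := by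
  intro n
  rw [qExpansion_discriminant_nat_coeff N hN n]
  split_ifs
  · exact deltaCoeff_mem R _
  · exact R.zero_mem

/-- The `q_N`-expansion of `Δ(z)^N / Δ((a z + b)/d)` has coefficients in any subring of `ℂ`
containing `exp (2 π i / N)`. -/
theorem qExpansion_conjFun_mem (R : Subring ℂ) (N a d : ℕ) (b : ℤ) (hN : 0 < N) (ha : 0 < a)
    (hd : 0 < d) (had : a * d = N) (hR : rootOfUnity 1 N ∈ R) :
    qExpansion (N : ℝ) (conjFun N a d b ha hd) ∈ coeffSubring R := by
  have hζ : rootOfUnity b d ∈ R := rootOfUnity_mem N a d b ha hd had hR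
  have haa : 0 < a * a := Nat.mul_pos ha ha
  refine mem_coeffSubring_of_mul_eq (a * a) (qExpansion_conjFun_mul N a d b hN ha hd had) ?_
    (pow_mem (qExpansion_discriminant_nat_mem R N hN) N) ?_ (pow_mem hζ (d - 1)) ?_
  · intro n
    rw [qExpansion_discriminant_comp_affMap_coeff N a d b hN ha hd had n, affCoeff]
    split_ifs
    · exact R.mul_mem (deltaCoeff_mem R _) (pow_mem hζ _)
    · exact R.zero_mem
  · intro j hj
    rw [qExpansion_discriminant_comp_affMap_coeff N a d b hN ha hd had j, affCoeff]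
    split_ifs with hdiv
    · have hj0 : j = 0 := Nat.eq_zero_of_dvd_of_lt hdiv hj
      subst hj0
      rw [Nat.zero_div, deltaCoeff_zero, zero_mul]
    · rfl
  · rw [qExpansion_discriminant_comp_affMap_coeff N a d b hN ha hd had (a * a), affCoeff,
      if_pos (dvd_refl _), Nat.div_self haa, deltaCoeff_one, one_mul, pow_one]
    exact rootOfUnity_mul_pow b d hd


end Integrality




section Final

open Fermat.Agent.S23.IntSeries

variable (N : ℕ) (hN : 0 < N) (γ : SL(2, ℤ))

theorem mdifferentiable_smul_conjFun (c : ℂ) (a d : ℕ) (b : ℤ) (ha : 0 < a) (hd : 0 < d) :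
    MDiff (c • conjFun N a d b ha hd) := by
  intro z
  exact (mdifferentiable_conjFun N a d b ha hd z).const_smul c

theorem periodic_smul_conjFun (c : ℂ) (a d : ℕ) (b : ℤ) (ha : 0 < a) (hd : 0 < d)
    (had : a * d = N) : Periodic ((c • conjFun N a d b ha hd) ∘ ofComplex) (N : ℝ) := by
  intro w
  have := periodic_conjFun N a d b ha hd had w
  simp only [Function.comp_apply, Pi.smul_apply] at this ⊢
  rw [this]

theorem isBoundedAtImInfty_smul_conjFun (c : ℂ) (a d : ℕ) (b : ℤ) (ha : 0 < a) (hd : 0 < d)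
    (had : a * d = N) : IsBoundedAtImInfty (c • conjFun N a d b ha hd) :=
  (conjFun_isBoundedAtImInfty N a d b ha hd (div_le_of_mul_eq N a d hd had)).const_smul_left c

theorem isZeroAtImInfty_smul_conjFun (c : ℂ) (a d : ℕ) (b : ℤ) (ha : 0 < a) (hd : 1 < d)
    (had : a * d = N) : IsZeroAtImInfty (c • conjFun N a d b ha (by omega)) :=
  ZeroAtFilter.smul c
    (conjFun_isZeroAtImInfty N a d b ha (by omega) (div_lt_of_mul_eq N a d ha hd had))

/-- `u ∣[12 (N - 1)] γ` is holomorphic. -/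
theorem mdifferentiable_uFun_slash : MDiff (uFun N hN ∣[(12 : ℤ) * (N - 1)] γ) := by
  obtain ⟨a, d, b, ha, hd, -, -, heq⟩ := uFun_slash N hN γ
  rw [heq]
  exact mdifferentiable_smul_conjFun N _ a d b ha hd

/-- `u ∣[12 (N - 1)] γ` has period `N`. -/
theorem periodic_uFun_slash :
    Periodic ((uFun N hN ∣[(12 : ℤ) * (N - 1)] γ) ∘ ofComplex) (N : ℝ) := by
  obtain ⟨a, d, b, ha, hd, had, -, heq⟩ := uFun_slash N hN γ
  rw [heq]
  exact periodic_smul_conjFun N _ a d b ha hd had

/-- `u ∣[12 (N - 1)] γ` is bounded at `i∞` (i.e. `u` is bounded at every cusp). -/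
theorem isBoundedAtImInfty_uFun_slash :
    IsBoundedAtImInfty (uFun N hN ∣[(12 : ℤ) * (N - 1)] γ) := by
  obtain ⟨a, d, b, ha, hd, had, -, heq⟩ := uFun_slash N hN γ
  rw [heq]
  exact isBoundedAtImInfty_smul_conjFun N _ a d b ha hd had

/-- `u ∣[12 (N - 1)] γ` vanishes at `i∞` when `γ ∉ Γ₀(N)`. -/
theorem isZeroAtImInfty_uFun_slash (hγ : γ ∉ CongruenceSubgroup.Gamma0 N) :
    IsZeroAtImInfty (uFun N hN ∣[(12 : ℤ) * (N - 1)] γ) := by
  obtain ⟨a, d, b, ha, hd, had, hd1, heq⟩ := uFun_slash N hN γ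
  rw [heq]
  have hd2 : 1 < d := by
    rcases Nat.lt_or_ge 1 d with h | h
    · exact h
    · exact absurd (hd1 (by omega)) hγ
  exact isZeroAtImInfty_smul_conjFun N _ a d b ha hd2 had

theorem analyticAt_cuspFunction_uFun_slash :
    AnalyticAt ℂ (cuspFunction (N : ℝ) (uFun N hN ∣[(12 : ℤ) * (N - 1)] γ)) 0 :=
  analyticAt_cuspFunction_zero (Nat.cast_pos.mpr hN) (periodic_uFun_slash N hN γ)
    (mdifferentiable_uFun_slash N hN γ) (isBoundedAtImInfty_uFun_slash N hN γ)

theorem qExpansion_uFun_slash_coeff_zero (hγ : γ ∉ CongruenceSubgroup.Gamma0 N) :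
    (qExpansion (N : ℝ) (uFun N hN ∣[(12 : ℤ) * (N - 1)] γ)).coeff 0 = 0 := by
  rw [qExpansion_coeff_zero (Nat.cast_pos.mpr hN) (analyticAt_cuspFunction_uFun_slash N hN γ)
    (periodic_uFun_slash N hN γ)]
  exact (isZeroAtImInfty_uFun_slash N hN γ hγ).valueAtInfty_eq_zero

/-- The `q_N`-expansion of `u ∣[12 (N - 1)] γ` has coefficients in any subring of `ℂ`
containing `exp (2 π i / N)`. -/
theorem qExpansion_uFun_slash_mem (R : Subring ℂ) (hR : rootOfUnity 1 N ∈ R) :
    qExpansion (N : ℝ) (uFun N hN ∣[(12 : ℤ) * (N - 1)] γ) ∈ coeffSubring R := by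
  obtain ⟨a, d, b, ha, hd, had, -, heq⟩ := uFun_slash N hN γ
  rw [heq, qExpansion_smul (analyticAt_cuspFunction_conjFun N a d b hN ha hd had)]
  exact smul_mem_coeffSubring (pow_mem (natCast_mem R d) 12)
    (qExpansion_conjFun_mem R N a d b hN ha hd had hR)

/-- The ring `ℤ[exp (2 π i / N)]`. -/
def cycloSubring (N : ℕ) : Subring ℂ := Subring.closure {rootOfUnity 1 N}

theorem rootOfUnity_mem_cycloSubring : rootOfUnity 1 N ∈ cycloSubring N :=
  Subring.subset_closure (Set.mem_singleton _)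

theorem isIntegral_rootOfUnity (b : ℤ) (d : ℕ) (hd : 0 < d) : IsIntegral ℤ (rootOfUnity b d) :=
  IsIntegral.of_pow hd (by rw [rootOfUnity_pow_self b d hd]; exact isIntegral_one)

theorem cycloSubring_le_algIntSubring (M : ℕ) (hM : 0 < M) : cycloSubring M ≤ algIntSubring := by
  rw [cycloSubring, Subring.closure_le, Set.singleton_subset_iff]
  exact mem_algIntSubring.mpr (isIntegral_rootOfUnity 1 M hM)

theorem qExpansion_uFun_slash_mem_cyclo :
    qExpansion (N : ℝ) (uFun N hN ∣[(12 : ℤ) * (N - 1)] γ) ∈ coeffSubring (cycloSubring N) :=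
  qExpansion_uFun_slash_mem N hN γ _ (rootOfUnity_mem_cycloSubring N)

theorem qExpansion_uFun_slash_isIntegral (n : ℕ) :
    IsIntegral ℤ ((qExpansion (N : ℝ) (uFun N hN ∣[(12 : ℤ) * (N - 1)] γ)).coeff n) :=
  mem_algIntSubring.mp
    (cycloSubring_le_algIntSubring N hN (qExpansion_uFun_slash_mem_cyclo N hN γ n))

end Final


end Fermat.Agent.S23.UConj

end
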