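-- Integrality of the q-expansion of u = Delta^N / Delta(N z), using IntSeries.
import Fermat.Agent.S23.UFunction
import Fermat.Agent.S23.IntSeries

set_option autoImplicit false
open UpperHalfPlane

namespace Fermat.Agent.S23

open UFunction

/-- The `q`-expansion of `u = Δ^N / Δ(N z)` has integer coefficients. -/
theorem uFun_isIntPS (N : ℕ) [NeZero N] : IsIntPS (qExpansion 1 (uFun N)) := by
  rw [isIntPS_iff_exists_map]
  obtain ⟨Q, -, hQ⟩ :=
    exists_int_qExpansion_uFun N (isIntPS_iff_exists_map.mp discriminant_isIntPS)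
  exact ⟨Q, hQ⟩

/-- The constant term of the `q`-expansion of `u` is `1`. -/
theorem uFun_coeff_zero (N : ℕ) [NeZero N] : PowerSeries.coeff 0 (qExpansion 1 (uFun N)) = 1 :=
  qExpansion_uFun_coeff_zero N

end Fermat.Agent.S23
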