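import Fermat.Agent.S23.BoundedCore
import Fermat.Agent.S23.Cosets
import Fermat.Agent.S23.ConjBasic
import Fermat.Agent.S23.Conj
import Fermat.Agent.S23.UFunction
import Fermat.Agent.S23.UFunctionInt
import Fermat.Agent.S23.UConj
import Fermat.Agent.S23.Glue

set_option autoImplicit false

/-!
Final assembly for project S22/S23: the primitive element `u = Delta(z)^N / Delta(N z)` as an
unconditional modular form on `Gamma0 N`, the facts on its conjugates indexed by the coset space,
bounded denominators, Galois stability and the integral structure of the space of cusp forms on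
`Gamma0 N` (any weight).
-/

namespace Fermat.Agent.S23.Bounded

open UpperHalfPlane ModularForm CongruenceSubgroup SlashInvariantForm PowerSeries IntSeries
open scoped MatrixGroups ModularForm Manifold

variable {N : ℕ} [NeZero N] {k : ℤ}

/-- the two definitions of `u` agree -/
theorem uFun_eq (N : ℕ) [NeZero N] : UFunction.uFun N = UConj.uFun N (NeZero.pos N) := by
  funext z
  unfold UFunction.uFun UConj.uFun
  congr 2
  apply UpperHalfPlane.ext
  rw [UFunction.coe_scale, UConj.coe_affMap]
  simp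

theorem uFun_bdd (N : ℕ) [NeZero N] (γ : SL(2, ℤ)) :
    IsBoundedAtImInfty (UFunction.uFun N ∣[12 * ((N : ℤ) - 1)] γ) := by
  rw [uFun_eq]
  exact UConj.isBoundedAtImInfty_uFun_slash N (NeZero.pos N) γ

/-- `u = Delta(z)^N / Delta(N z)` as a modular form on `Gamma0 N`. -/
noncomputable def uT (N : ℕ) [NeZero N] : ModularForm (G0 N) (12 * ((N : ℤ) - 1)) :=
  UFunction.uForm N (uFun_bdd N)

theorem coe_uT (N : ℕ) [NeZero N] : (uT N : ℍ → ℂ) = UFunction.uFun N := rfl

theorem uT_isIntPS (N : ℕ) [NeZero N] : IsIntPS (qExpansion 1 (uT N)) := uFun_isIntPS N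

theorem uT_coeff_zero (N : ℕ) [NeZero N] : coeff 0 (qExpansion 1 (uT N)) = 1 :=
  uFun_coeff_zero N

theorem uT_conj_isAlgIntPS (q : Q0 N) :
    IsAlgIntPS (qExpansion (N : ℝ) (quotientFunc (uT N) q)) := by
  obtain ⟨γ, -, h⟩ := ConjBasic.exists_quotientFunc_eq_slash (uT N) q
  rw [h, coe_uT, uFun_eq]
  intro n
  exact UConj.qExpansion_uFun_slash_isIntegral N (NeZero.pos N) γ⁻¹ n

theorem uT_conj_coeff_zero (q : Q0 N) (hq : q ≠ q0 N) :
    coeff 0 (qExpansion (N : ℝ) (quotientFunc (uT N) q)) = 0 := by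
  obtain ⟨γ, hγ, h⟩ := ConjBasic.exists_quotientFunc_eq_slash (uT N) q
  rw [h, coe_uT, uFun_eq]
  apply UConj.qExpansion_uFun_slash_coeff_zero N (NeZero.pos N) γ⁻¹
  intro hmem
  apply hq
  rw [hγ, ConjBasic.mkQ_eq_q0_iff]
  simpa using inv_mem hmem

/-- **Bounded denominators** for a cusp form with rational q-expansion. -/
theorem exists_int_multiple_smul (f : CuspForm (G0 N) k) (hf : IsRatPS (qExpansion 1 f)) :
    ∃ M : ℕ, M ≠ 0 ∧ IsIntPS ((M : ℂ) • qExpansion 1 f) := by
  let fM : ModularForm (G0 N) k := ModularFormClass.modularForm f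
  exact exists_int_multiple_core (uT N) (fun q => quotientFunc_mem_PerAlg (uT N) q)
    (uT_isIntPS N) (uT_coeff_zero N) uT_conj_isAlgIntPS uT_conj_coeff_zero f hf (mu N)
    (fun m => k + (12 * ((N : ℤ) - 1)) * ((mu N : ℤ) - 1 - m))
    (fun m => lagrangeCoeff fM (uT N) m) (fun z => lagrange_identity fM (uT N) z)

/-- blueprint form of the bounded denominators statement -/
theorem exists_int_multiple (f : CuspForm (G0 N) k) (hf : IsRatPS (qExpansion 1 f)) :
    ∃ M : ℕ, M ≠ 0 ∧ IsIntPS (qExpansion 1 ((M : ℂ) • f)) := by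
  obtain ⟨M, hM, h⟩ := exists_int_multiple_smul f hf
  refine ⟨M, hM, ?_⟩
  rw [qExpansion_smul_cuspForm]
  exact h

theorem boundedDenominators (N : ℕ) [NeZero N] (k : ℤ) : BoundedDenominators N k := by
  intro f hf
  obtain ⟨M, hM, h⟩ := exists_int_multiple_smul (N := N) f (fun n => hf n)
  refine ⟨M, hM, fun n => ?_⟩
  obtain ⟨m, hm⟩ := h n
  refine ⟨m, ?_⟩
  rw [← hm, coeff_smul, smul_eq_mul]
  rfl

theorem galoisStable (N : ℕ) [NeZero N] (k : ℤ) : GaloisStable N k := by
  apply galoisStable_of N k (uT N) (uT_isIntPS N)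
  rw [lagrangeDen_coeff_zero_of_coeff (uT N) (uT_coeff_zero N)
    (fun q => quotientFunc_mem_PerAlg (uT N) q) uT_conj_coeff_zero]
  exact one_ne_zero

/-- **Integral structure** of the space of cusp forms of any weight on `Gamma0 N`. -/
theorem hasIntegralStructure (N : ℕ) [NeZero N] (k : ℤ) : CuspForm.HasIntegralStructure N k :=
  hasIntegralStructure_of N k (galoisStable N k) (boundedDenominators N k)

end Fermat.Agent.S23.Bounded
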