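import Fermat.Agent.S23.UConj
import Fermat.Agent.S23.UFunctionInt
import Fermat.Agent.S23.ConjBasic

/-!
# The modular form `u = Δ(z)^N / Δ(N z)` on `Γ₀(N)` (unconditional) and its conjugates

Glue between `UFunction` (definition, `Γ₀(N)`-invariance, integral `q`-expansion), `UConj`
(behaviour of `u ∣ γ` for all `γ ∈ SL(2, ℤ)`) and `ConjBasic` (conjugates indexed by cosets).
-/

set_option autoImplicit false

namespace Fermat.Agent.S23

open UpperHalfPlane ModularForm CongruenceSubgroup SlashInvariantForm Filter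
open scoped MatrixGroups ModularForm Manifold Topology

variable {N : ℕ} [NeZero N]

theorem UForm.scale_eq_affMap (N : ℕ) [NeZero N] (z : ℍ) :
    UFunction.scale N z = UConj.affMap N 1 0 (NeZero.pos N) one_pos z := by
  apply UpperHalfPlane.ext
  rw [UFunction.coe_scale, UConj.coe_affMap]
  simp

theorem UForm.uFun_eq (N : ℕ) [NeZero N] : UFunction.uFun N = UConj.uFun N (NeZero.pos N) := by
  funext z
  rw [UFunction.uFun, UConj.uFun, UForm.scale_eq_affMap]

/-- `u` is bounded at all cusps. -/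
theorem UForm.isBoundedAtImInfty_uFun_slash (N : ℕ) [NeZero N] (γ : SL(2, ℤ)) :
    IsBoundedAtImInfty (UFunction.uFun N ∣[12 * ((N : ℤ) - 1)] γ) := by
  rw [UForm.uFun_eq]
  exact UConj.isBoundedAtImInfty_uFun_slash N _ γ

/-- The modular form `u(z) = Δ(z)^N / Δ(N z)` of weight `12 (N - 1)` on `Γ₀(N)`. -/
noncomputable def uForm (N : ℕ) [NeZero N] : ModularForm (G0 N) (12 * ((N : ℤ) - 1)) :=
  UFunction.uForm N (UForm.isBoundedAtImInfty_uFun_slash N)

theorem coe_uForm : (uForm N : ℍ → ℂ) = UFunction.uFun N := rfl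

theorem coe_uForm' : (uForm N : ℍ → ℂ) = UConj.uFun N (NeZero.pos N) := UForm.uFun_eq N

theorem uForm_isIntPS : IsIntPS (qExpansion 1 (uForm N)) := uFun_isIntPS N

theorem uForm_coeff_zero : PowerSeries.coeff 0 (qExpansion 1 (uForm N)) = 1 := uFun_coeff_zero N

theorem tendsto_uForm : Tendsto (uForm N) atImInfty (𝓝 1) := UFunction.tendsto_uFun N

/-- `u ∣ γ` vanishes at `i∞` for `γ ∉ Γ₀(N)`. -/
theorem uForm_slash_isZeroAtImInfty (γ : SL(2, ℤ)) (hγ : γ ∉ Gamma0 N) :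
    IsZeroAtImInfty ((uForm N : ℍ → ℂ) ∣[12 * ((N : ℤ) - 1)] γ) := by
  rw [coe_uForm']
  exact UConj.isZeroAtImInfty_uFun_slash N _ γ hγ

theorem uForm_slash_tendsto_zero (γ : SL(2, ℤ)) (hγ : γ ∉ Gamma0 N) :
    Tendsto ((uForm N : ℍ → ℂ) ∣[12 * ((N : ℤ) - 1)] γ) atImInfty (𝓝 0) :=
  uForm_slash_isZeroAtImInfty γ hγ

/-- The `q_N`-expansion of `u ∣ γ` has coefficients in any subring containing `exp (2 π i / N)`. -/
theorem uForm_slash_mem_coeffSubring (R : Subring ℂ) (hR : UConj.rootOfUnity 1 N ∈ R)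
    (γ : SL(2, ℤ)) :
    qExpansion (N : ℝ) ((uForm N : ℍ → ℂ) ∣[12 * ((N : ℤ) - 1)] γ) ∈ IntSeries.coeffSubring R := by
  rw [coe_uForm']
  exact UConj.qExpansion_uFun_slash_mem N _ γ R hR

theorem uForm_slash_coeff_zero (γ : SL(2, ℤ)) (hγ : γ ∉ Gamma0 N) :
    PowerSeries.coeff 0 (qExpansion (N : ℝ) ((uForm N : ℍ → ℂ) ∣[12 * ((N : ℤ) - 1)] γ)) = 0 := by
  rw [coe_uForm']
  exact UConj.qExpansion_uFun_slash_coeff_zero N _ γ hγ

/-- The `q_N`-expansions of all conjugates of `u` have coefficients in any subring of `ℂ`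
containing `exp (2 π i / N)` (e.g. `UConj.cycloSubring N = ℤ[ζ_N]`). -/
theorem uForm_conj_mem_coeffSubring (R : Subring ℂ) (hR : UConj.rootOfUnity 1 N ∈ R) (q : Q0 N) :
    qExpansion (N : ℝ) (quotientFunc (uForm N) q) ∈ IntSeries.coeffSubring R := by
  obtain ⟨γ, -, hγ⟩ := ConjBasic.exists_quotientFunc_eq_slash (uForm N) q
  rw [hγ]
  exact uForm_slash_mem_coeffSubring R hR γ⁻¹

theorem uForm_conj_mem_cyclo (q : Q0 N) :
    qExpansion (N : ℝ) (quotientFunc (uForm N) q) ∈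
      IntSeries.coeffSubring (UConj.cycloSubring N) :=
  uForm_conj_mem_coeffSubring _ (UConj.rootOfUnity_mem_cycloSubring N) q

theorem uForm_conj_isAlgIntPS (q : Q0 N) :
    IsAlgIntPS (qExpansion (N : ℝ) (quotientFunc (uForm N) q)) := fun n =>
  IntSeries.mem_algIntSubring.mp
    (UConj.cycloSubring_le_algIntSubring N (NeZero.pos N) (uForm_conj_mem_cyclo q n))

theorem uForm_conj_coeff_zero (q : Q0 N) (hq : q ≠ q0 N) :
    PowerSeries.coeff 0 (qExpansion (N : ℝ) (quotientFunc (uForm N) q)) = 0 := by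
  obtain ⟨γ, hqγ, hγ⟩ := ConjBasic.exists_quotientFunc_eq_slash (uForm N) q
  rw [hγ]
  apply uForm_slash_coeff_zero
  intro hmem
  apply hq
  rw [hqγ, ConjBasic.mkQ_eq_q0_iff]
  simpa using inv_mem hmem

/-- conjugates of `u` off the base coset vanish at `i∞`. -/
theorem uForm_conj_isZeroAtImInfty (q : Q0 N) (hq : q ≠ q0 N) :
    IsZeroAtImInfty (quotientFunc (uForm N) q) := by
  obtain ⟨γ, hqγ, hγ⟩ := ConjBasic.exists_quotientFunc_eq_slash (uForm N) q
  rw [hγ]
  apply uForm_slash_isZeroAtImInfty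
  intro hmem
  apply hq
  rw [hqγ, ConjBasic.mkQ_eq_q0_iff]
  simpa using inv_mem hmem

end Fermat.Agent.S23
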