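import Fermat.Agent.S23.Defs
import Fermat.Agent.S23.IntSeries

set_option autoImplicit false

/-!
Pure power series algebra for the bounded denominators step of project S22/S23:
a rational power series `b` such that `b * d` lies in the complex span of integer power series,
where `d` has algebraic integer coefficients and constant coefficient one, has a nonzero integer
multiple with integer coefficients.
-/

namespace Fermat.Agent.S23.Bounded

open PowerSeries IntSeries

/-- A `ℚ`-linear retraction of `ℂ` onto the algebraic numbers. -/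
theorem exists_retraction :
    ∃ π : ℂ →ₗ[ℚ] ℂ, (∀ x, IsAlgebraic ℚ x → π x = x) ∧ ∀ x, IsAlgebraic ℚ (π x) := by
  let K : Submodule ℚ ℂ := Subalgebra.toSubmodule (algebraicClosure ℚ ℂ).toSubalgebra
  have hK : ∀ x : ℂ, x ∈ K ↔ IsAlgebraic ℚ x := fun x => mem_algebraicClosure_iff
  obtain ⟨K', hK'⟩ := Submodule.exists_isCompl K
  refine ⟨K.subtype ∘ₗ K.projectionOnto K' hK', ?_, ?_⟩
  · intro x hx
    have := Submodule.projectionOnto_apply_left hK' (⟨x, (hK x).2 hx⟩ : K)
    simp only [LinearMap.coe_comp, Function.comp_apply, Submodule.subtype_apply]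
    rw [this]
  · intro x
    exact (hK _).1 (K.projectionOnto K' hK' x).2

/-- power series with algebraic integer coefficients -/
theorem isAlgIntPS_iff {p : PowerSeries ℂ} : IsAlgIntPS p ↔ p ∈ coeffSubring algIntSubring := by
  unfold IsAlgIntPS
  rw [mem_coeffSubring]
  exact forall_congr' fun n => mem_algIntSubring.symm

theorem isIntPS_iff {p : PowerSeries ℂ} : IsIntPS p ↔ p ∈ coeffSubring intSubring := by
  unfold IsIntPS
  rw [mem_coeffSubring]
  refine forall_congr' fun n => ?_
  rw [mem_intSubring]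
  exact ⟨fun ⟨m, hm⟩ => ⟨m, hm.symm⟩, fun ⟨m, hm⟩ => ⟨m, hm.symm⟩⟩

theorem isRatPS_iff {p : PowerSeries ℂ} : IsRatPS p ↔ p ∈ coeffSubring ratSubring := by
  unfold IsRatPS
  rw [mem_coeffSubring]
  refine forall_congr' fun n => ?_
  rw [mem_ratSubring]
  exact ⟨fun ⟨m, hm⟩ => ⟨m, hm.symm⟩, fun ⟨m, hm⟩ => ⟨m, hm.symm⟩⟩

/-- The subring of algebraic numbers inside `ℂ`. -/
noncomputable def algSubring : Subring ℂ := (algebraicClosure ℚ ℂ).toSubalgebra.toSubring

theorem mem_algSubring {x : ℂ} : x ∈ algSubring ↔ IsAlgebraic ℚ x :=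
  mem_algebraicClosure_iff

theorem ratSubring_le_algSubring : ratSubring ≤ algSubring := by
  intro x hx
  obtain ⟨r, rfl⟩ := mem_ratSubring.1 hx
  exact mem_algSubring.2 (isAlgebraic_algebraMap (R := ℚ) (A := ℂ) r)

theorem algIntSubring_le_algSubring : algIntSubring ≤ algSubring := by
  intro x hx
  have h1 : IsIntegral ℤ x := mem_algIntSubring.1 hx
  exact mem_algSubring.2 ((IsFractionRing.isAlgebraic_iff ℤ ℚ ℂ).mp h1.isAlgebraic)

/-- Series having a nonzero integer multiple with algebraic integer coefficients. -/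
def HasAlgIntMultiple (y : PowerSeries ℂ) : Prop :=
  ∃ M : ℕ, M ≠ 0 ∧ (M : ℂ) • y ∈ coeffSubring algIntSubring

theorem hasAlgIntMultiple_zero : HasAlgIntMultiple 0 :=
  ⟨1, one_ne_zero, by rw [smul_zero]; exact (coeffSubring algIntSubring).zero_mem⟩

theorem hasAlgIntMultiple_add {x y : PowerSeries ℂ} (hx : HasAlgIntMultiple x)
    (hy : HasAlgIntMultiple y) : HasAlgIntMultiple (x + y) := by
  obtain ⟨M, hM, hx⟩ := hx
  obtain ⟨M', hM', hy⟩ := hy
  refine ⟨M * M', Nat.mul_ne_zero hM hM', ?_⟩
  have : ((M * M' : ℕ) : ℂ) • (x + y) = (M' : ℂ) • ((M : ℂ) • x) + (M : ℂ) • ((M' : ℂ) • y) := by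
    rw [smul_add, smul_smul, smul_smul, Nat.cast_mul, mul_comm (M' : ℂ)]
  rw [this]
  exact (coeffSubring algIntSubring).add_mem
    (smul_mem_coeffSubring (intSubring_le_algIntSubring (natCast_mem_intSubring M')) hx)
    (smul_mem_coeffSubring (intSubring_le_algIntSubring (natCast_mem_intSubring M)) hy)

/-- an algebraic multiple of an integer series has an integer multiple with algebraic integer
coefficients -/
theorem hasAlgIntMultiple_smul_of_isAlgebraic {a : ℂ} (ha : IsAlgebraic ℚ a)
    {e : PowerSeries ℂ} (he : e ∈ coeffSubring intSubring) : HasAlgIntMultiple (a • e) := by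
  have ha' : IsAlgebraic ℤ a := (IsFractionRing.isAlgebraic_iff ℤ ℚ ℂ).mpr ha
  obtain ⟨y, hy0, hy⟩ := ha'.exists_integral_multiple
  refine ⟨y.natAbs, Int.natAbs_ne_zero.mpr hy0, ?_⟩
  have hy' : IsIntegral ℤ ((y : ℂ) * a) := by
    have : y • a = (y : ℂ) * a := by simp
    rwa [this] at hy
  have h2 : IsIntegral ℤ ((y.natAbs : ℂ) * a) := by
    rcases Int.natAbs_eq y with h | h
    · have : ((y.natAbs : ℕ) : ℂ) = (y : ℂ) := by
        conv_rhs => rw [h]
        simp
      rw [this]
      exact hy'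
    · have : ((y.natAbs : ℕ) : ℂ) * a = -((y : ℂ) * a) := by
        conv_rhs => rw [h]
        simp
      rw [this]
      exact hy'.neg
  rw [smul_smul]
  exact smul_mem_coeffSubring (mem_algIntSubring.2 h2)
    (coeffSubring_mono intSubring_le_algIntSubring he)

/-- **Bounded denominators, algebraic core.** -/
theorem exists_int_multiple_of_mem_span {b d : PowerSeries ℂ} (hb : IsRatPS b)
    (hd : IsAlgIntPS d) (hd0 : coeff 0 d = 1) (S : Set (PowerSeries ℂ))
    (hS : ∀ e ∈ S, IsIntPS e) (hmem : b * d ∈ Submodule.span ℂ S) :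
    ∃ M : ℕ, M ≠ 0 ∧ IsIntPS ((M : ℂ) • b) := by
  obtain ⟨π, hπ1, hπ2⟩ := exists_retraction
  -- coefficientwise application of `π`
  let P : PowerSeries ℂ → PowerSeries ℂ := fun x => PowerSeries.mk fun n => π (coeff n x)
  have hP_add : ∀ x y, P (x + y) = P x + P y := by
    intro x y
    ext n
    simp [P]
  have hkey : ∀ x ∈ Submodule.span ℂ S, ∀ c : ℂ, HasAlgIntMultiple (P (c • x)) := by
    intro x hx
    refine Submodule.span_induction
      (p := fun x _ => ∀ c : ℂ, HasAlgIntMultiple (P (c • x))) ?_ ?_ ?_ ?_ hx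
    · intro e he c
      have heI : e ∈ coeffSubring intSubring := isIntPS_iff.1 (hS e he)
      have : P (c • e) = π c • e := by
        ext n
        obtain ⟨m, hm⟩ := mem_intSubring.1 (heI n)
        simp only [P, coeff_mk, coeff_smul, smul_eq_mul]
        rw [← hm]
        have h1 : c * (m : ℂ) = m • c := by simp [mul_comm]
        rw [h1, map_zsmul]
        simp [mul_comm]
      rw [this]
      exact hasAlgIntMultiple_smul_of_isAlgebraic (hπ2 c) heI
    · intro c
      have : P (c • 0) = 0 := by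
        ext n
        simp [P]
      rw [this]
      exact hasAlgIntMultiple_zero
    · intro x y _ _ hx hy c
      rw [smul_add, hP_add]
      exact hasAlgIntMultiple_add (hx c) (hy c)
    · intro a x _ hx c
      rw [smul_smul]
      exact hx (c * a)
  -- `b * d` has algebraic coefficients, so `P` fixes it
  have hbd : b * d ∈ coeffSubring algSubring :=
    (coeffSubring algSubring).mul_mem
      (coeffSubring_mono ratSubring_le_algSubring (isRatPS_iff.1 hb))
      (coeffSubring_mono algIntSubring_le_algSubring (isAlgIntPS_iff.1 hd))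
  have hfix : P ((1 : ℂ) • (b * d)) = b * d := by
    ext n
    simp only [P, coeff_mk, one_smul]
    exact hπ1 _ (mem_algSubring.1 (hbd n))
  obtain ⟨M, hM, hMbd⟩ := hkey _ hmem 1
  rw [hfix] at hMbd
  refine ⟨M, hM, isIntPS_iff.2 ?_⟩
  have hdI : d ∈ coeffSubring algIntSubring := isAlgIntPS_iff.1 hd
  have hd1 : constantCoeff d = 1 := by
    rw [← coeff_zero_eq_constantCoeff_apply]
    exact hd0
  have h1 : d * ((M : ℂ) • b) ∈ coeffSubring algIntSubring := by
    have : d * ((M : ℂ) • b) = (M : ℂ) • (b * d) := by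
      rw [mul_smul_comm, mul_comm]
    rw [this]
    exact hMbd
  have h2 : (M : ℂ) • b ∈ coeffSubring algIntSubring :=
    mem_coeffSubring_of_mul_mem hdI hd1 h1
  have h3 : (M : ℂ) • b ∈ coeffSubring ratSubring :=
    smul_mem_coeffSubring (intSubring_le_ratSubring (natCast_mem_intSubring M)) (isRatPS_iff.1 hb)
  exact mem_coeffSubring_int_of_algInt_of_rat h2 h3

/-- Finset version, in the shape requested by the blueprint. -/
theorem int_multiple_of_finset_span {b d : PowerSeries ℂ} (hb : IsRatPS b) (hd : IsAlgIntPS d)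
    (hd0 : coeff 0 d = 1) (s : Finset (PowerSeries ℂ)) (hs : ∀ e ∈ s, IsIntPS e)
    (hmem : b * d ∈ Submodule.span ℂ (s : Set (PowerSeries ℂ))) :
    ∃ M : ℕ, M ≠ 0 ∧ IsIntPS ((M : ℂ) • b) :=
  exists_int_multiple_of_mem_span hb hd hd0 (s : Set (PowerSeries ℂ))
    (fun e he => hs e (Finset.mem_coe.1 he)) hmem

end Fermat.Agent.S23.Bounded
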