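import Fermat.Agent.S23.Defs
import Fermat.Agent.S23.QAlg
import Fermat.Agent.S23.IntSeries
import Fermat.Agent.S23.LevelOne
import Fermat.Agent.S23.BoundedAlg

set_option autoImplicit false

/-!
Bounded denominators for cusp forms on `Gamma0 N` with rational q-expansion: the core argument,
with the needed properties of the auxiliary form `t` (in the application
`t = Delta(z)^N / Delta(N z)`) and of the Lagrange interpolation coefficients taken as explicit
hypotheses.
-/

namespace Fermat.Agent.S23.Bounded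

open UpperHalfPlane ModularForm CongruenceSubgroup SlashInvariantForm PowerSeries IntSeries
open scoped MatrixGroups ModularForm Manifold

variable {N : ℕ} [NeZero N] {k w : ℤ}

/-- level one forms are `1`-periodic, holomorphic, bounded. -/
theorem levelOne_mem_PerAlg_one {k : ℤ} (g : ModularForm 𝒮ℒ k) : (g : ℍ → ℂ) ∈ PerAlg 1 := by
  have hΓ : (1 : ℝ) ∈ (𝒮ℒ).strictPeriods := one_mem_strictPeriods_SL
  have : Fact (IsCusp OnePoint.infty 𝒮ℒ) := ⟨(𝒮ℒ).isCusp_of_mem_strictPeriods one_pos hΓ⟩
  exact ⟨SlashInvariantFormClass.periodic_comp_ofComplex g hΓ, ModularFormClass.holo g,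
    ModularFormClass.bdd_at_infty g⟩

/-- The set of power series with integer coefficients. -/
def intSet : Set (PowerSeries ℂ) := {e | IsIntPS e}

theorem mem_intSet {e : PowerSeries ℂ} : e ∈ intSet ↔ IsIntPS e := Iff.rfl

theorem intSet_mul {x y : PowerSeries ℂ} (hx : x ∈ intSet) (hy : y ∈ intSet) : x * y ∈ intSet :=
  isIntPS_iff.2 ((coeffSubring intSubring).mul_mem (isIntPS_iff.1 hx) (isIntPS_iff.1 hy))

theorem intSet_pow {x : PowerSeries ℂ} (hx : x ∈ intSet) (n : ℕ) : x ^ n ∈ intSet :=
  isIntPS_iff.2 ((coeffSubring intSubring).pow_mem (isIntPS_iff.1 hx) n)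

/-- the complex span of the integer series is stable under multiplication by integer series -/
theorem span_intSet_mul {x y : PowerSeries ℂ} (hx : x ∈ Submodule.span ℂ intSet)
    (hy : y ∈ intSet) : x * y ∈ Submodule.span ℂ intSet := by
  refine Submodule.span_induction
    (p := fun x _ => x * y ∈ Submodule.span ℂ intSet) ?_ ?_ ?_ ?_ hx
  · intro e he
    exact Submodule.subset_span (intSet_mul he hy)
  · rw [zero_mul]
    exact Submodule.zero_mem _
  · intro a b _ _ ha hb
    rw [add_mul]
    exact Submodule.add_mem _ ha hb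
  · intro c a _ ha
    rw [smul_mul_assoc]
    exact Submodule.smul_mem _ _ ha

/-- the q-expansion of a level one form lies in the complex span of the integer series -/
theorem qExpansion_levelOne_mem_span {k : ℤ} (g : ModularForm 𝒮ℒ k) :
    qExpansion 1 g ∈ Submodule.span ℂ intSet := by
  have h : g ∈ Submodule.span ℂ (LevelOne.intForms k) := by
    rw [LevelOne.span_intForms_eq_top k]
    exact Submodule.mem_top
  refine Submodule.span_induction
    (p := fun (g : ModularForm 𝒮ℒ k) _ => qExpansion 1 g ∈ Submodule.span ℂ intSet)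
    ?_ ?_ ?_ ?_ h
  · intro x hx
    exact Submodule.subset_span ((LevelOne.hasCoeffsIn_int_iff_isIntPS x).1 hx)
  · rw [show ((0 : ModularForm 𝒮ℒ k) : ℍ → ℂ) = 0 from rfl, qExpansion_zero]
    exact Submodule.zero_mem _
  · intro x y _ _ hx hy
    rw [show ((x + y : ModularForm 𝒮ℒ k) : ℍ → ℂ) = ⇑x + ⇑y from rfl,
      ModularForm.qExpansion_add one_pos one_mem_strictPeriods_SL x y]
    exact Submodule.add_mem _ hx hy
  · intro c x _ hx
    rw [show ((c • x : ModularForm 𝒮ℒ k) : ℍ → ℂ) = c • ⇑x from rfl,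
      ModularForm.qExpansion_smul one_pos one_mem_strictPeriods_SL c x]
    exact Submodule.smul_mem _ _ hx

/-- **Step A.** A pointwise identity `F * D = ∑ m, c m * T ^ m` between `1`-periodic functions
gives the same identity for q-expansions. -/
theorem qExpansion_identity {F D T : ℍ → ℂ} (hF : F ∈ PerAlg 1) (hD : D ∈ PerAlg 1)
    (hT : T ∈ PerAlg 1) (μ : ℕ) (c : ℕ → ℍ → ℂ) (hc : ∀ m, c m ∈ PerAlg 1)
    (h : ∀ z, F z * D z = ∑ m ∈ Finset.range μ, c m z * T z ^ m) :
    qExpansion 1 F * qExpansion 1 D =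
      ∑ m ∈ Finset.range μ, qExpansion 1 (c m) * qExpansion 1 T ^ m := by
  have key : (⟨F, hF⟩ : PerAlg 1) * ⟨D, hD⟩ =
      ∑ m ∈ Finset.range μ, (⟨c m, hc m⟩ : PerAlg 1) * (⟨T, hT⟩ : PerAlg 1) ^ m := by
    apply Subtype.ext
    funext z
    have h1 : ((∑ m ∈ Finset.range μ, (⟨c m, hc m⟩ : PerAlg 1) * (⟨T, hT⟩ : PerAlg 1) ^ m :
        PerAlg 1) : ℍ → ℂ) = ∑ m ∈ Finset.range μ, c m * T ^ m := by
      rw [AddSubmonoidClass.coe_finsetSum]
      rfl
    rw [h1]
    simp only [MulMemClass.coe_mul, Pi.mul_apply, Finset.sum_apply, Pi.pow_apply]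
    exact h z
  have := congrArg (qExpHom 1 one_pos) key
  simpa only [map_mul, map_sum, map_pow, qExpHom_apply] using this

theorem expand_mem_coeffSubring {R : Subring ℂ} {p : PowerSeries ℂ} (hp : p ∈ coeffSubring R)
    {M : ℕ} (hM : M ≠ 0) : p.expand M hM ∈ coeffSubring R := by
  intro n
  rw [PowerSeries.coeff_expand]
  split_ifs
  · exact hp _
  · exact R.zero_mem

theorem coeff_expand_mul (p : PowerSeries ℂ) {M : ℕ} (hM : M ≠ 0) (n : ℕ) :
    coeff (M * n) (p.expand M hM) = coeff n p := by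
  rw [PowerSeries.coeff_expand, if_pos (dvd_mul_right M n),
    Nat.mul_div_cancel_left n (Nat.pos_of_ne_zero hM)]

/-- **Step C1.** The Lagrange denominator is `N`-periodic, holomorphic and bounded, and its
q-expansion (with respect to the period `N`) is the product of the q-expansions of the factors. -/
theorem qExpansion_lagrangeDen_natCast (t : ModularForm (G0 N) w)
    (hq : ∀ q : Q0 N, quotientFunc t q ∈ PerAlg (N : ℝ)) :
    lagrangeDen t ∈ PerAlg (N : ℝ) ∧
    qExpansion (N : ℝ) (lagrangeDen t) = ∏ q ∈ Finset.univ.erase (q0 N),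
      (qExpansion (N : ℝ) t - qExpansion (N : ℝ) (quotientFunc t q)) := by
  have hN : (0 : ℝ) < (N : ℝ) := Nat.cast_pos.mpr (NeZero.pos N)
  have ht : (t : ℍ → ℂ) ∈ PerAlg (N : ℝ) := PerAlg_one_le N (coe_mem_PerAlg_one t)
  let P : PerAlg (N : ℝ) := ∏ q ∈ Finset.univ.erase (q0 N),
    ((⟨t, ht⟩ : PerAlg (N : ℝ)) - ⟨quotientFunc t q, hq q⟩)
  have hP : ((P : PerAlg (N : ℝ)) : ℍ → ℂ) = lagrangeDen t := by
    funext z
    simp only [P, SubmonoidClass.coe_finsetProd, Finset.prod_apply, lagrangeDen]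
    rfl
  refine ⟨hP ▸ P.2, ?_⟩
  have h1 : qExpHom (N : ℝ) hN P = qExpansion (N : ℝ) (lagrangeDen t) := by
    rw [qExpHom_apply, hP]
  rw [← h1]
  simp only [P, map_prod, map_sub, qExpHom_apply]

/-- **Step C2.** The q-expansion of the Lagrange denominator has algebraic integer coefficients
and constant coefficient `1`. -/
theorem qExpansion_lagrangeDen_props (t : ModularForm (G0 N) w)
    (hq : ∀ q : Q0 N, quotientFunc t q ∈ PerAlg (N : ℝ))
    (ht_int : IsIntPS (qExpansion 1 t)) (ht0 : coeff 0 (qExpansion 1 t) = 1)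
    (hconj_int : ∀ q : Q0 N, IsAlgIntPS (qExpansion (N : ℝ) (quotientFunc t q)))
    (hconj0 : ∀ q : Q0 N, q ≠ q0 N → coeff 0 (qExpansion (N : ℝ) (quotientFunc t q)) = 0)
    (hD1 : lagrangeDen t ∈ PerAlg 1) :
    IsAlgIntPS (qExpansion 1 (lagrangeDen t)) ∧ coeff 0 (qExpansion 1 (lagrangeDen t)) = 1 := by
  have hN0 : N ≠ 0 := NeZero.ne N
  have hE := (qExpansion_lagrangeDen_natCast t hq).2
  have hE' := qExpansion_natCast_eq_expand hD1 hN0
  have htN : qExpansion (N : ℝ) t = (qExpansion 1 t).expand N hN0 :=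
    qExpansion_natCast_eq_expand (coe_mem_PerAlg_one t) hN0
  have htN_mem : qExpansion (N : ℝ) t ∈ coeffSubring algIntSubring := by
    rw [htN]
    exact expand_mem_coeffSubring
      (coeffSubring_mono intSubring_le_algIntSubring (isIntPS_iff.1 ht_int)) hN0
  have htN0 : coeff 0 (qExpansion (N : ℝ) t) = 1 := by
    rw [htN]
    have := coeff_expand_mul (qExpansion 1 t) hN0 0
    rw [Nat.mul_zero] at this
    rw [this, ht0]
  have hmem : qExpansion (N : ℝ) (lagrangeDen t) ∈ coeffSubring algIntSubring := by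
    rw [hE]
    refine Subring.prod_mem _ fun q _ => ?_
    exact (coeffSubring algIntSubring).sub_mem htN_mem (isAlgIntPS_iff.1 (hconj_int q))
  have hconst : coeff 0 (qExpansion (N : ℝ) (lagrangeDen t)) = 1 := by
    rw [hE, coeff_zero_eq_constantCoeff_apply, map_prod]
    refine Finset.prod_eq_one fun q hq' => ?_
    have hne : q ≠ q0 N := (Finset.mem_erase.1 hq').1
    rw [map_sub, ← coeff_zero_eq_constantCoeff_apply, ← coeff_zero_eq_constantCoeff_apply,
      htN0, hconj0 q hne, sub_zero]
  constructor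
  · rw [isAlgIntPS_iff]
    intro n
    have := hmem (N * n)
    rwa [hE', coeff_expand_mul] at this
  · have := coeff_expand_mul (qExpansion 1 (lagrangeDen t)) hN0 0
    rw [Nat.mul_zero, ← hE', hconst] at this
    exact this.symm

/-- slashing with a unipotent upper triangular matrix is a translation -/
theorem slash_upperRightHom_apply (F : ℍ → ℂ) (k : ℤ) (h : ℝ) (τ : ℍ) :
    (F ∣[k] (Matrix.GeneralLinearGroup.upperRightHom h)) τ = F (h +ᵥ τ) := by
  have hsm : Matrix.GeneralLinearGroup.upperRightHom h • τ = h +ᵥ τ := by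
    ext
    simp [σ, num, denom, coe_vadd, UpperHalfPlane.coe_smul, add_comm]
  simp_rw [ModularForm.slash_def, hsm]
  simp [σ, denom, Matrix.GeneralLinearGroup.val_det_apply]

theorem upperRightHom_one_mem_SL :
    Matrix.GeneralLinearGroup.upperRightHom (1 : ℝ) ∈ 𝒮ℒ :=
  Subgroup.mem_strictPeriods_iff.1 one_mem_strictPeriods_SL

theorem upperRightHom_one_mem_G0 (N : ℕ) :
    Matrix.GeneralLinearGroup.upperRightHom (1 : ℝ) ∈ G0 N :=
  Subgroup.mem_strictPeriods_iff.1 (one_mem_strictPeriods_G0 N)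

/-- the translation by one, as an element of the subgroup `𝒮ℒ` of `GL (Fin 2) ℝ`. -/
noncomputable def transl : 𝒮ℒ :=
  ⟨Matrix.GeneralLinearGroup.upperRightHom (1 : ℝ), upperRightHom_one_mem_SL⟩

omit [NeZero N] in
/-- translation by one permutes the conjugates -/
theorem quotientFunc_vadd_one (t : ModularForm (G0 N) w) (q : Q0 N) (τ : ℍ) :
    quotientFunc t q ((1 : ℝ) +ᵥ τ) = quotientFunc t (transl⁻¹ • q) τ := by
  rw [← slash_upperRightHom_apply (quotientFunc t q) w 1 τ,
    quotientFunc_smul t upperRightHom_one_mem_SL q]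
  rfl

omit [NeZero N] in
/-- the translation fixes the base coset -/
theorem transl_inv_smul_q0 : (transl⁻¹ : 𝒮ℒ) • q0 N = q0 N := by
  unfold q0
  rw [MulAction.Quotient.smul_mk, QuotientGroup.eq]
  simp only [smul_eq_mul, mul_one, inv_inv, Subgroup.mem_subgroupOf]
  exact upperRightHom_one_mem_G0 N

/-- the Lagrange denominator is invariant under translation by one -/
theorem lagrangeDen_vadd_one (t : ModularForm (G0 N) w) (τ : ℍ) :
    lagrangeDen t ((1 : ℝ) +ᵥ τ) = lagrangeDen t τ := by
  unfold lagrangeDen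
  have ht : t ((1 : ℝ) +ᵥ τ) = t τ :=
    SlashInvariantForm.vAdd_apply_of_mem_strictPeriods t τ (one_mem_strictPeriods_G0 N)
  simp only [ht, quotientFunc_vadd_one]
  refine Finset.prod_equiv (MulAction.toPerm (transl⁻¹ : 𝒮ℒ)) ?_ ?_
  · intro q
    simp only [Finset.mem_erase, Finset.mem_univ, and_true, MulAction.toPerm_apply, ne_eq]
    rw [not_iff_not]
    constructor
    · intro h
      rw [h, transl_inv_smul_q0]
    · intro h
      apply (MulAction.toPerm (transl⁻¹ : 𝒮ℒ)).injective
      simp only [MulAction.toPerm_apply]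
      rw [h, transl_inv_smul_q0]
  · intro q _
    simp only [MulAction.toPerm_apply]

/-- **Step C0.** The Lagrange denominator is `1`-periodic, holomorphic and bounded. -/
theorem lagrangeDen_mem_PerAlg_one (t : ModularForm (G0 N) w)
    (hq : ∀ q : Q0 N, quotientFunc t q ∈ PerAlg (N : ℝ)) : lagrangeDen t ∈ PerAlg 1 := by
  obtain ⟨_, h2, h3⟩ := (qExpansion_lagrangeDen_natCast t hq).1
  refine ⟨?_, h2, h3⟩
  intro x
  simp only [Function.comp_apply, Complex.ofReal_one]
  by_cases hx : 0 < x.im
  · have hx1 : 0 < (x + 1).im := by simpa using hx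
    rw [ofComplex_apply_of_im_pos hx1, ofComplex_apply_of_im_pos hx]
    convert lagrangeDen_vadd_one t ⟨x, hx⟩ using 2
    ext
    simp [add_comm]
  · have hx' : x.im ≤ 0 := not_lt.mp hx
    have hx1 : (x + 1).im ≤ 0 := by simpa using hx'
    rw [ofComplex_apply_of_im_nonpos hx1, ofComplex_apply_of_im_nonpos hx']

/-- **Bounded denominators, core statement.** Let `t` be a modular form on `Gamma0 N` with
integer q-expansion with constant coefficient `1`, all of whose other conjugates have
q-expansions (in `q^(1/N)`) with algebraic integer coefficients and vanishing constant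
coefficient. If `f` is a cusp form with rational q-expansion for which `f * lagrangeDen t` is a
combination of powers of `t` with level one coefficients, then a nonzero integer multiple of `f`
has integer q-expansion. -/
theorem exists_int_multiple_core (t : ModularForm (G0 N) w)
    (hq : ∀ q : Q0 N, quotientFunc t q ∈ PerAlg (N : ℝ))
    (ht_int : IsIntPS (qExpansion 1 t)) (ht0 : coeff 0 (qExpansion 1 t) = 1)
    (hconj_int : ∀ q : Q0 N, IsAlgIntPS (qExpansion (N : ℝ) (quotientFunc t q)))
    (hconj0 : ∀ q : Q0 N, q ≠ q0 N → coeff 0 (qExpansion (N : ℝ) (quotientFunc t q)) = 0)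
    (f : CuspForm (G0 N) k) (hf : IsRatPS (qExpansion 1 f))
    (μ : ℕ) (wt : ℕ → ℤ) (c : ∀ m : ℕ, ModularForm 𝒮ℒ (wt m))
    (hc : ∀ z, f z * lagrangeDen t z = ∑ m ∈ Finset.range μ, c m z * t z ^ m) :
    ∃ M : ℕ, M ≠ 0 ∧ IsIntPS ((M : ℂ) • qExpansion 1 f) := by
  have hD1 := lagrangeDen_mem_PerAlg_one t hq
  obtain ⟨hd, hd0⟩ := qExpansion_lagrangeDen_props t hq ht_int ht0 hconj_int hconj0 hD1
  have hid := qExpansion_identity (coe_mem_PerAlg_one f) hD1 (coe_mem_PerAlg_one t) μ
    (fun m => (c m : ℍ → ℂ)) (fun m => levelOne_mem_PerAlg_one (c m)) hc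
  have hmem : qExpansion 1 f * qExpansion 1 (lagrangeDen t) ∈ Submodule.span ℂ intSet := by
    rw [hid]
    refine Submodule.sum_mem _ fun m _ => ?_
    exact span_intSet_mul (qExpansion_levelOne_mem_span (c m)) (intSet_pow ht_int m)
  exact exists_int_multiple_of_mem_span hf hd hd0 intSet (fun e he => he) hmem

omit [NeZero N] in
/-- the q-expansion of a scalar multiple of a cusp form -/
theorem qExpansion_smul_cuspForm (a : ℂ) (f : CuspForm (G0 N) k) :
    qExpansion 1 (a • f) = a • qExpansion 1 f :=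
  ModularForm.qExpansion_smul one_pos (one_mem_strictPeriods_G0 N) a f

omit [NeZero N] in
/-- the same, with the scalar multiplication performed in the space of cusp forms -/
theorem qExpansion_smul_cuspForm' (a : ℂ) (f : CuspForm (G0 N) k) :
    qExpansion 1 ⇑(a • f) = a • qExpansion 1 f := by
  have h1 : ⇑(a • f) = a • ⇑f := by
    ext z
    simp
  rw [h1]
  exact qExpansion_smul_cuspForm a f

end Fermat.Agent.S23.Bounded
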