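import Mathlib
import Fermat.Agent.S23.Defs
import Fermat.Agent.S23.Glue

/-!
helper89 (P-S2223, glue for the final step).  Conversions from the `qExpansion`/`PowerSeries`
formulations used by the modules of the blueprint (`IsIntPS`, `IsRatPS`, `conjPS`) to the
`qCoeff` formulations `GaloisStable`, `BoundedDenominators` of `Glue.lean`.
-/

set_option autoImplicit false

open UpperHalfPlane ModularFormClass
open scoped MatrixGroups

namespace Fermat.Agent.S23

namespace BoundedGlue

theorem qCoeff_eq_coeff (f : ℍ → ℂ) (n : ℕ) :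
    qCoeff f n = PowerSeries.coeff n (qExpansion 1 f) := rfl

/-- `IsRatPS` of the `q`-expansion, in terms of `qCoeff`. -/
theorem isRatPS_iff_qCoeff (f : ℍ → ℂ) :
    IsRatPS (qExpansion 1 f) ↔ ∀ n : ℕ, ∃ r : ℚ, qCoeff f n = (r : ℂ) := Iff.rfl

/-- `IsIntPS` of the `q`-expansion, in terms of `qCoeff`. -/
theorem isIntPS_iff_qCoeff (f : ℍ → ℂ) :
    IsIntPS (qExpansion 1 f) ↔ ∀ n : ℕ, ∃ m : ℤ, qCoeff f n = (m : ℂ) := Iff.rfl

end BoundedGlue

open BoundedGlue

/-- `BoundedDenominators` from the power series formulation (blueprint name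
`exists_int_multiple`). -/
theorem boundedDenominators_of_exists_int_multiple (N : ℕ) [NeZero N] (k : ℤ)
    (h : ∀ f : CuspForm (G0 N) k, IsRatPS (qExpansion 1 f) →
      ∃ M : ℕ, M ≠ 0 ∧ IsIntPS (qExpansion 1 ((M : ℂ) • f))) :
    BoundedDenominators N k := by
  intro f hf
  obtain ⟨M, hM0, hM⟩ := h f hf
  refine ⟨M, hM0, fun n => ?_⟩
  obtain ⟨m, hm⟩ := hM n
  refine ⟨m, ?_⟩
  rw [← qCoeff_smul (M : ℂ) f n]
  exact hm

/-- `BoundedDenominators` from the power series formulation, with the scalar multiplication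
performed on the power series (the shape produced by `Bounded.exists_int_multiple_core` and
`BoundedSpan.exists_int_multiple_of_lagrangeDen`). -/
theorem boundedDenominators_of_exists_int_smul (N : ℕ) (k : ℤ)
    (h : ∀ f : CuspForm (G0 N) k, IsRatPS (qExpansion 1 f) →
      ∃ M : ℕ, M ≠ 0 ∧ IsIntPS ((M : ℂ) • qExpansion 1 f)) :
    BoundedDenominators N k := by
  intro f hf
  obtain ⟨M, hM0, hM⟩ := h f hf
  refine ⟨M, hM0, fun n => ?_⟩
  obtain ⟨m, hm⟩ := hM n
  refine ⟨m, ?_⟩
  rw [qCoeff_eq_coeff, ← hm, PowerSeries.coeff_smul, smul_eq_mul]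

/-- `GaloisStable` from the power series formulation (blueprint name `cuspForm_conj`). -/
theorem galoisStable_of_cuspForm_conj (N : ℕ) (k : ℤ)
    (h : ∀ (σ : ℂ ≃+* ℂ) (f : CuspForm (G0 N) k),
      ∃ g : CuspForm (G0 N) k, qExpansion 1 g = conjPS σ (qExpansion 1 f)) :
    GaloisStable N k := by
  intro σ f
  obtain ⟨g, hg⟩ := h σ f
  refine ⟨g, fun n => ?_⟩
  rw [qCoeff_eq_coeff, hg, qCoeff_eq_coeff, PowerSeries.coeff_map]
  rfl

end Fermat.Agent.S23
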