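import Mathlib
import Fermat.Prelude.Def_CuspForm_HeckeAlgebra
import Fermat.Prelude.Def_CuspForm_IntegralStructure
import Fermat.Prelude.Thm_ModularFormClass_qCoeff_heckeT
import Fermat.Prelude.Thm_ModularFormClass_qCoeff_heckeU
import Fermat.Agent.S23.Glue

set_option autoImplicit false

open UpperHalfPlane ModularFormClass
open scoped MatrixGroups

namespace Fermat.Agent.S23

local notation "Γ₀(" N ")" => CongruenceSubgroup.Gamma0 N

theorem qCoeff_heckeTLin {N : ℕ} {k : ℤ} {p : ℕ} (hp : p.Prime) (hpN : ¬ p ∣ N)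
    (f : CuspForm Γ₀(N) k) (n : ℕ) :
    qCoeff ⇑(CuspForm.heckeTLin k hp hpN f) n =
      ModularForm.coeffHeckeT k p (qCoeff ⇑f) n := by
  rw [CuspForm.coe_heckeTLin_apply]
  exact ModularFormClass.qCoeff_heckeT f (one_mem_strictPeriods N) hp.ne_zero n

theorem qCoeff_heckeULin {N : ℕ} [NeZero N] {k : ℤ} {p : ℕ} (hp : p.Prime) (hpN : p ∣ N)
    (f : CuspForm Γ₀(N) k) (n : ℕ) :
    qCoeff ⇑(CuspForm.heckeULin k hpN f) n =
      ModularForm.coeffHeckeU p (qCoeff ⇑f) n := by
  rw [CuspForm.coe_heckeULin_apply]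
  exact ModularFormClass.qCoeff_heckeU f (one_mem_strictPeriods N) hp.ne_zero n

theorem qCoeff_sub {N : ℕ} {k : ℤ} (f g : CuspForm Γ₀(N) k) (n : ℕ) :
    qCoeff ⇑(f - g) n = qCoeff ⇑f n - qCoeff ⇑g n := by
  have := congrFun (map_sub (qMap N k) f g) n
  simpa [qMap_apply] using this

theorem qCoeff_zsmul {N : ℕ} {k : ℤ} (c : ℤ) (f : CuspForm Γ₀(N) k) (n : ℕ) :
    qCoeff ⇑(c • f) n = (c : ℂ) * qCoeff ⇑f n := by
  have h : c • f = (c : ℂ) • f := by
    rw [Int.cast_smul_eq_zsmul]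
  rw [h, qCoeff_smul]

/-- Every q-expansion coefficient of index `n ≥ 1` is the first coefficient of a Hecke translate. -/
theorem exists_hecke_qCoeff (N : ℕ) [NeZero N] (k : ℤ) (hk : 1 ≤ k) (n : ℕ) (hn : 1 ≤ n) :
    ∃ T ∈ CuspForm.heckeAlgebra N k ∅, ∀ g : CuspForm Γ₀(N) k,
      qCoeff ⇑g n = qCoeff ⇑(T g) 1 := by
  induction n using Nat.strong_induction_on with
  | _ n ih =>
  rcases eq_or_lt_of_le hn with h1 | h1
  · subst h1
    exact ⟨1, Subalgebra.one_mem _, fun g => rfl⟩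
  · have hn1 : n ≠ 1 := by omega
    set p := n.minFac with hp_def
    have hp : p.Prime := Nat.minFac_prime hn1
    obtain ⟨m, hm⟩ : p ∣ n := Nat.minFac_dvd n
    have hm1 : 1 ≤ m := by
      rcases Nat.eq_zero_or_pos m with h0 | h0
      · subst h0; omega
      · exact h0
    have hmn : m < n := by
      rw [hm]
      have := hp.two_le
      nlinarith
    obtain ⟨Tm, hTm, hTm'⟩ := ih m hmn hm1
    by_cases hpN : p ∣ N
    · refine ⟨Tm * CuspForm.heckeULin k hpN, Subalgebra.mul_mem _ hTm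
        (CuspForm.heckeULin_mem_heckeAlgebra hp hpN (by simp)), fun g => ?_⟩
      rw [Module.End.mul_apply, ← hTm', qCoeff_heckeULin hp hpN, ModularForm.coeffHeckeU_apply,
        hm, mul_comm]
    · by_cases hpm : p ∣ m
      · obtain ⟨m', hm'⟩ := hpm
        have hm'1 : 1 ≤ m' := by
          rcases Nat.eq_zero_or_pos m' with h0 | h0
          · subst h0; omega
          · exact h0
        have hm'n : m' < n := by
          have := hp.two_le
          nlinarith
        obtain ⟨Tm', hTm'1, hTm'2⟩ := ih m' hm'n hm'1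
        have hk1 : (0 : ℤ) ≤ k - 1 := by omega
        refine ⟨Tm * CuspForm.heckeTLin k hp hpN - ((p : ℤ) ^ (k - 1).toNat) • Tm',
          Subalgebra.sub_mem _ (Subalgebra.mul_mem _ hTm
            (CuspForm.heckeTLin_mem_heckeAlgebra hp hpN (by simp)))
            (Subalgebra.zsmul_mem _ hTm'1 _), fun g => ?_⟩
        rw [LinearMap.sub_apply, Module.End.mul_apply, LinearMap.smul_apply, qCoeff_sub,
          qCoeff_zsmul, ← hTm', ← hTm'2, qCoeff_heckeTLin hp hpN,
          ModularForm.coeffHeckeT_of_dvd k ⟨m', hm'⟩]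
        have e1 : m * p = n := by rw [hm, mul_comm]
        have e2 : m / p = m' := by
          rw [hm', Nat.mul_div_cancel_left _ hp.pos]
        have e3 : ((p : ℂ) ^ (k - 1)) = (((p : ℤ) ^ (k - 1).toNat : ℤ) : ℂ) := by
          push_cast
          rw [← zpow_natCast, Int.toNat_of_nonneg hk1]
        rw [e1, e2, e3]
        ring
      · refine ⟨Tm * CuspForm.heckeTLin k hp hpN, Subalgebra.mul_mem _ hTm
          (CuspForm.heckeTLin_mem_heckeAlgebra hp hpN (by simp)), fun g => ?_⟩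
        rw [Module.End.mul_apply, ← hTm', qCoeff_heckeTLin hp hpN,
          ModularForm.coeffHeckeT_of_not_dvd k hpm, hm, mul_comm]

/-- A finitely generated group of complex numbers that are all rational has bounded
denominators. -/
theorem bounded_denominators_of_fg (J : Submodule ℤ ℂ) (hJ : J.FG)
    (hrat : ∀ x ∈ J, ∃ r : ℚ, x = (r : ℂ)) :
    ∃ M : ℕ, M ≠ 0 ∧ ∀ x ∈ J, ∃ m : ℤ, (M : ℂ) * x = (m : ℂ) := by
  obtain ⟨s, hs⟩ := hJ
  classical
  have hs' : ∀ x ∈ s, ∃ r : ℚ, x = (r : ℂ) := fun x hx =>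
    hrat x (hs ▸ Submodule.subset_span hx)
  choose! r hr using hs'
  refine ⟨∏ x ∈ s, (r x).den, ?_, ?_⟩
  · exact Finset.prod_ne_zero_iff.mpr fun x _ => (r x).den_nz
  · intro x hx
    rw [← hs] at hx
    refine Submodule.span_induction ?_ ?_ ?_ ?_ hx
    · intro y hy
      obtain ⟨c, hc⟩ := Finset.dvd_prod_of_mem (fun x => (r x).den) hy
      have hy' : y = ((r y : ℚ) : ℂ) := hr y hy
      set q := r y with hq
      refine ⟨c * q.num, ?_⟩
      have h2 : ((q : ℚ) : ℂ) = (q.num : ℂ) / (q.den : ℂ) := by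
        conv_lhs => rw [← Rat.num_div_den q]
        push_cast
        rfl
      have h3 : (q.den : ℂ) ≠ 0 := by exact_mod_cast q.den_nz
      have h4 : ((∏ x ∈ s, (r x).den : ℕ) : ℂ) = (q.den : ℂ) * (c : ℂ) := by
        rw [hc]; push_cast; ring
      rw [h4, hy', h2]
      push_cast
      field_simp
    · exact ⟨0, by simp⟩
    · rintro a b _ _ ⟨ma, hma⟩ ⟨mb, hmb⟩
      exact ⟨ma + mb, by rw [mul_add, hma, hmb]; push_cast; ring⟩
    · rintro c a _ ⟨ma, hma⟩
      refine ⟨c * ma, ?_⟩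
      rw [zsmul_eq_mul, mul_left_comm, hma]
      push_cast
      ring

/-- Bounded denominators follow from finite generation of the Hecke algebra. -/
theorem boundedDenominators_of_finite_heckeAlgebra (N : ℕ) [NeZero N] (k : ℤ) (hk : 1 ≤ k)
    (h : Module.Finite ℤ (CuspForm.heckeAlgebra N k ∅)) : BoundedDenominators N k := by
  intro f hf
  have hper := one_mem_strictPeriods N
  -- the functional T ↦ a_1(T f)
  let ψ : CuspForm.heckeAlgebra N k ∅ →ₗ[ℤ] ℂ :=
    { toFun := fun T => qCoeff ⇑((T : Module.End ℂ (CuspForm Γ₀(N) k)) f) 1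
      map_add' := fun T T' => by
        simp only [Subalgebra.coe_add, LinearMap.add_apply]
        exact qCoeff_add _ _ 1
      map_smul' := fun c T => by
        show qCoeff ⇑(((c • T : CuspForm.heckeAlgebra N k ∅) :
          Module.End ℂ (CuspForm Γ₀(N) k)) f) 1 =
            c • qCoeff ⇑((T : Module.End ℂ (CuspForm Γ₀(N) k)) f) 1
        have e : ((c • T : CuspForm.heckeAlgebra N k ∅) : Module.End ℂ (CuspForm Γ₀(N) k)) =
            c • (T : Module.End ℂ (CuspForm Γ₀(N) k)) := rfl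
        rw [e, LinearMap.smul_apply, qCoeff_zsmul, zsmul_eq_mul] }
  let I : Submodule ℤ ℂ := LinearMap.range ψ
  have hI : I.FG := by
    show (LinearMap.range ψ).FG
    rw [LinearMap.range_eq_map]
    exact Submodule.FG.map ψ Module.Finite.fg_top
  let Qs : Submodule ℤ ℂ := LinearMap.range ((Algebra.linearMap ℚ ℂ).restrictScalars ℤ)
  have hJ : (I ⊓ Qs).FG := by
    have : (I ⊓ Qs) ≤ I := inf_le_left
    exact Submodule.FG.of_le hI this
  obtain ⟨M, hM0, hM⟩ := bounded_denominators_of_fg (I ⊓ Qs) hJ (by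
    rintro x ⟨_, ⟨r, rfl⟩⟩
    exact ⟨r, rfl⟩)
  refine ⟨M, hM0, fun n => ?_⟩
  rcases Nat.eq_zero_or_pos n with h0 | h0
  · subst h0
    refine ⟨0, ?_⟩
    have : qCoeff ⇑f 0 = 0 := by
      simp only [qCoeff]
      exact CuspFormClass.qExpansion_coeff_zero f one_pos hper
    rw [this]
    simp
  · obtain ⟨T, hT, hTg⟩ := exists_hecke_qCoeff N k hk n h0
    apply hM
    refine ⟨⟨⟨T, hT⟩, ?_⟩, ?_⟩
    · exact (hTg f).symm
    · obtain ⟨r, hr⟩ := hf n
      exact ⟨r, hr.symm⟩

end Fermat.Agent.S23
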