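import Fermat.Agent.S23.QAlg
import Fermat.Agent.S23.Cosets
import Fermat.Agent.S23.LevelOne
import Fermat.Agent.S23.BoundedAlg

set_option autoImplicit false

/-!
The `q`-expansion side of the bounded denominators step of project S22/S23:
for modular forms `f`, `t` on `Gamma0 N`, where `t` has an integral `q`-expansion, the series
`qExpansion 1 f * qExpansion 1 (lagrangeDen t)` lies in the complex span of the power series with
integer coefficients.  Combined with the algebraic core `Bounded.exists_int_multiple_of_mem_span`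
this gives bounded denominators as soon as the `q`-expansion of `lagrangeDen t` has algebraic integer
coefficients and constant coefficient one.
-/

namespace Fermat.Agent.S23.BoundedSpan

open UpperHalfPlane ModularForm CongruenceSubgroup SlashInvariantForm
open scoped MatrixGroups ModularForm Manifold

variable {N : ℕ} [NeZero N] {k w : ℤ}

/-- The set of power series with integer coefficients. -/
def intSet : Set (PowerSeries ℂ) := {e | IsIntPS e}

/-- level one forms are `1`-periodic, holomorphic and bounded at infinity. -/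
theorem coe_mem_PerAlg_one_SL {k : ℤ} (c : ModularForm 𝒮ℒ k) : (c : ℍ → ℂ) ∈ PerAlg 1 := by
  have hΓ : (1 : ℝ) ∈ (𝒮ℒ : Subgroup (GL (Fin 2) ℝ)).strictPeriods := one_mem_strictPeriods_SL
  have : Fact (IsCusp OnePoint.infty 𝒮ℒ) :=
    ⟨(𝒮ℒ : Subgroup (GL (Fin 2) ℝ)).isCusp_of_mem_strictPeriods one_pos hΓ⟩
  exact ⟨SlashInvariantFormClass.periodic_comp_ofComplex c hΓ, ModularFormClass.holo c,
    ModularFormClass.bdd_at_infty c⟩

/-- The Lagrange denominator is `1`-periodic, holomorphic and bounded at infinity. -/
theorem lagrangeDen_mem_PerAlg_one (t : ModularForm (G0 N) w) : lagrangeDen t ∈ PerAlg 1 := by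
  have ht : (t : ℍ → ℂ) ∈ PerAlg 1 := coe_mem_PerAlg_one t
  have h : lagrangeDen t = ∑ i ∈ Finset.range (mu N),
      (((mu N - i : ℕ) : ℂ) • (charCoeff t i : ℍ → ℂ)) * (t : ℍ → ℂ) ^ (mu N - 1 - i) := by
    funext z
    rw [lagrangeDen_eq_sum, Finset.sum_apply]
    refine Finset.sum_congr rfl fun i _ => ?_
    simp [Pi.mul_apply, Pi.pow_apply, Pi.smul_apply, smul_eq_mul]
  rw [h]
  refine Subalgebra.sum_mem _ fun i _ => ?_
  exact Subalgebra.mul_mem _ (Subalgebra.smul_mem _ (coe_mem_PerAlg_one_SL _) _)
    (Subalgebra.pow_mem _ ht _)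

/-- The Lagrange interpolation identity on `q`-expansions. -/
theorem qExpansion_lagrange_identity (f : ModularForm (G0 N) k) (t : ModularForm (G0 N) w) :
    qExpansion 1 f * qExpansion 1 (lagrangeDen t) = ∑ m ∈ Finset.range (mu N),
      qExpansion 1 (lagrangeCoeff f t m) * qExpansion 1 t ^ m := by
  have hf : (f : ℍ → ℂ) ∈ PerAlg 1 := coe_mem_PerAlg_one f
  have ht : (t : ℍ → ℂ) ∈ PerAlg 1 := coe_mem_PerAlg_one t
  have hd := lagrangeDen_mem_PerAlg_one t
  have hc : ∀ m, (lagrangeCoeff f t m : ℍ → ℂ) ∈ PerAlg 1 := fun m => coe_mem_PerAlg_one_SL _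
  have hid : (⟨f, hf⟩ : PerAlg 1) * ⟨lagrangeDen t, hd⟩ = ∑ m ∈ Finset.range (mu N),
      (⟨lagrangeCoeff f t m, hc m⟩ : PerAlg 1) * (⟨t, ht⟩ : PerAlg 1) ^ m := by
    apply Subtype.ext
    funext z
    simp only [MulMemClass.coe_mul, Pi.mul_apply, AddSubmonoidClass.coe_finsetSum,
      Finset.sum_apply, SubmonoidClass.coe_pow, Pi.pow_apply]
    exact lagrange_identity f t z
  have := congrArg (qExpHom 1 one_pos) hid
  simpa only [map_mul, map_sum, map_pow, qExpHom_apply] using this

/-- The span of the integer power series is stable under multiplication by integer power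
series. -/
theorem mul_mem_span_intSet {x p : PowerSeries ℂ} (hx : x ∈ Submodule.span ℂ intSet)
    (hp : IsIntPS p) : x * p ∈ Submodule.span ℂ intSet := by
  refine Submodule.span_induction (p := fun x _ => x * p ∈ Submodule.span ℂ intSet)
    ?_ ?_ ?_ ?_ hx
  · intro e he
    exact Submodule.subset_span (IsIntPS.mul he hp)
  · rw [zero_mul]
    exact Submodule.zero_mem _
  · intro x y _ _ hx hy
    rw [add_mul]
    exact Submodule.add_mem _ hx hy
  · intro a x _ hx
    rw [smul_mul_assoc]
    exact Submodule.smul_mem _ _ hx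

/-- The `q`-expansion of a level one form lies in the span of the integer power series. -/
theorem qExpansion_levelOne_mem_span {k : ℤ} (c : ModularForm 𝒮ℒ k) :
    qExpansion 1 c ∈ Submodule.span ℂ intSet := by
  have h : c ∈ Submodule.span ℂ (LevelOne.intForms k) := by
    rw [LevelOne.span_intForms_eq_top]
    exact Submodule.mem_top
  refine Submodule.span_induction
    (p := fun c _ => qExpansion 1 (c : ModularForm 𝒮ℒ k) ∈ Submodule.span ℂ intSet)
    ?_ ?_ ?_ ?_ h
  · intro e he
    exact Submodule.subset_span ((LevelOne.hasCoeffsIn_int_iff_isIntPS e).1 he)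
  · rw [show ((0 : ModularForm 𝒮ℒ k) : ℍ → ℂ) = 0 from rfl, qExpansion_zero]
    exact Submodule.zero_mem _
  · intro x y _ _ hx hy
    rw [show ((x + y : ModularForm 𝒮ℒ k) : ℍ → ℂ) = ⇑x + ⇑y from rfl,
      ModularForm.qExpansion_add one_pos one_mem_strictPeriods_SL x y]
    exact Submodule.add_mem _ hx hy
  · intro a x _ hx
    rw [show ((a • x : ModularForm 𝒮ℒ k) : ℍ → ℂ) = a • ⇑x from rfl,
      ModularForm.qExpansion_smul one_pos one_mem_strictPeriods_SL a x]
    exact Submodule.smul_mem _ _ hx

/-- **Span statement.** If `t` has an integral `q`-expansion then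
`qExpansion 1 f * qExpansion 1 (lagrangeDen t)` is a complex combination of integer power
series. -/
theorem qExpansion_mul_lagrangeDen_mem_span (f : ModularForm (G0 N) k)
    (t : ModularForm (G0 N) w) (ht : IsIntPS (qExpansion 1 t)) :
    qExpansion 1 f * qExpansion 1 (lagrangeDen t) ∈ Submodule.span ℂ intSet := by
  rw [qExpansion_lagrange_identity]
  refine Submodule.sum_mem _ fun m _ => ?_
  exact mul_mem_span_intSet (qExpansion_levelOne_mem_span _) (IsIntPS.pow ht m)

/-- **Bounded denominators from the Lagrange denominator.** Let `t` be a modular form on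
`Gamma0 N` with integral `q`-expansion such that the `q`-expansion of `lagrangeDen t` has algebraic
integer coefficients and constant coefficient one.  Then every modular form on `Gamma0 N` with
rational `q`-expansion has a nonzero integer multiple with integral `q`-expansion. -/
theorem exists_int_multiple_of_lagrangeDen (f : ModularForm (G0 N) k)
    (t : ModularForm (G0 N) w) (ht : IsIntPS (qExpansion 1 t))
    (hd : IsAlgIntPS (qExpansion 1 (lagrangeDen t)))
    (hd0 : PowerSeries.coeff 0 (qExpansion 1 (lagrangeDen t)) = 1)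
    (hf : IsRatPS (qExpansion 1 f)) :
    ∃ M : ℕ, M ≠ 0 ∧ IsIntPS ((M : ℂ) • qExpansion 1 f) :=
  Bounded.exists_int_multiple_of_mem_span hf hd hd0 intSet (fun _ he => he)
    (qExpansion_mul_lagrangeDen_mem_span f t ht)

end Fermat.Agent.S23.BoundedSpan
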