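import Fermat.Agent.S23.Conj
import Fermat.Agent.S23.Interp

set_option autoImplicit false

namespace Fermat.Agent.S23

open UpperHalfPlane ModularForm CongruenceSubgroup SlashInvariantForm Filter Topology
open scoped MatrixGroups ModularForm Manifold

variable {N : ℕ} [NeZero N] {k w : ℤ}

omit [NeZero N] in
/-- The class of `γ ∈ Gamma0 N` in the coset space is the base point. -/
theorem conj_mk_toSL_eq_q0 {γ : SL(2, ℤ)} (hγ : γ ∈ Gamma0 N) :
    (⟦Interp.toSL γ⟧ : Q0 N) = q0 N := by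
  show (QuotientGroup.mk (Interp.toSL γ) : Q0 N) = QuotientGroup.mk 1
  rw [QuotientGroup.eq, Subgroup.mem_subgroupOf]
  have h1 : γ⁻¹ ∈ Gamma0 N := inv_mem hγ
  have h2 : ((Interp.toSL γ)⁻¹ * 1 : 𝒮ℒ) =
      (Matrix.SpecialLinearGroup.mapGL ℝ γ⁻¹ : GL (Fin 2) ℝ) := by
    simp [Interp.toSL]
  rw [h2]
  exact Subgroup.mem_map_of_mem _ h1

omit [NeZero N] in
/-- Conjugates attached to nontrivial cosets are slashes by elements outside `Gamma0 N`. -/
theorem conj_tendsto_quotientFunc_of_not_mem (t : ModularForm (G0 N) w)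
    (h : ∀ γ : SL(2, ℤ), γ ∉ Gamma0 N → Tendsto ((t : ℍ → ℂ) ∣[w] γ) atImInfty (𝓝 0))
    (q : Q0 N) (hq : q ≠ q0 N) : Tendsto (quotientFunc t q) atImInfty (𝓝 0) := by
  induction q using Quotient.inductionOn with
  | h r =>
    obtain ⟨γ, rfl⟩ := Interp.exists_toSL r
    rw [Interp.quotientFunc_toSL]
    apply h
    intro hγ
    apply hq
    have : γ ∈ Gamma0 N := by simpa using inv_mem hγ
    exact conj_mk_toSL_eq_q0 this

/-- Galois stability from a primitive element `t` with integral q-expansion, tending to `1` at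
infinity, all of whose translates by elements outside `Gamma0 N` tend to `0` at infinity. -/
theorem galoisStable_of_tendsto (N : ℕ) [NeZero N] (k : ℤ) {w : ℤ} (t : ModularForm (G0 N) w)
    (ht : IsIntPS (qExpansion 1 t)) (h1 : Tendsto t atImInfty (𝓝 1))
    (h2 : ∀ γ : SL(2, ℤ), γ ∉ Gamma0 N → Tendsto ((t : ℍ → ℂ) ∣[w] γ) atImInfty (𝓝 0)) :
    GaloisStable N k := by
  apply galoisStable_of N k t ht
  rw [lagrangeDen_coeff_zero_of_tendsto t h1 (conj_tendsto_quotientFunc_of_not_mem t h2)]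
  exact one_ne_zero

end Fermat.Agent.S23
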