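import Mathlib

set_option autoImplicit false

open UpperHalfPlane Filter Topology
open scoped Manifold

namespace Fermat.Agent.S23

/-- Identity theorem on the upper half plane: two holomorphic functions agreeing on a nonempty
open set agree everywhere. -/
theorem eq_of_eqOn_isOpen {f g : ℍ → ℂ} (hf : MDiff f) (hg : MDiff g) {U : Set ℍ}
    (hU : IsOpen U) (hne : U.Nonempty) (h : Set.EqOn f g U) : f = g := by
  obtain ⟨τ₀, hτ₀⟩ := hne
  have hF : AnalyticOnNhd ℂ (f ∘ ofComplex) {z | 0 < z.im} :=
    (UpperHalfPlane.mdifferentiable_iff.mp hf).analyticOnNhd isOpen_upperHalfPlaneSet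
  have hG : AnalyticOnNhd ℂ (g ∘ ofComplex) {z | 0 < z.im} :=
    (UpperHalfPlane.mdifferentiable_iff.mp hg).analyticOnNhd isOpen_upperHalfPlaneSet
  have hconn : IsPreconnected {z : ℂ | 0 < z.im} := (convex_halfSpace_im_gt 0).isPreconnected
  have hev : (f ∘ ofComplex) =ᶠ[𝓝 (τ₀ : ℂ)] (g ∘ ofComplex) := by
    have hcont : ContinuousAt ofComplex (τ₀ : ℂ) :=
      (UpperHalfPlane.contMDiffAt_ofComplex (n := 0) τ₀.im_pos).continuousAt
    have hmem : U ∈ 𝓝 (ofComplex (τ₀ : ℂ)) := by
      rw [ofComplex_apply]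
      exact hU.mem_nhds hτ₀
    filter_upwards [hcont hmem] with z hz
    exact h hz
  have hEq := hF.eqOn_of_preconnected_of_eventuallyEq hG hconn (z₀ := (τ₀ : ℂ)) τ₀.im_pos hev
  funext τ
  have := hEq (show (τ : ℂ) ∈ {z : ℂ | 0 < z.im} from τ.im_pos)
  simpa [ofComplex_apply] using this

/-- Holomorphic functions on the upper half plane form a domain. -/
theorem eq_zero_or_eq_zero_of_mul_eq_zero {f g : ℍ → ℂ} (hf : MDiff f) (hg : MDiff g)
    (h : ∀ τ, f τ * g τ = 0) : f = 0 ∨ g = 0 := by
  by_cases hf0 : f = 0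
  · exact Or.inl hf0
  right
  obtain ⟨τ₀, hτ₀⟩ : ∃ τ₀, f τ₀ ≠ 0 := by
    by_contra hcon
    push Not at hcon
    exact hf0 (funext hcon)
  have hcont : Continuous f := hf.continuous
  have hopen : IsOpen {τ | f τ ≠ 0} := isOpen_ne_fun hcont continuous_const
  refine eq_of_eqOn_isOpen hg (g := 0) ?_ hopen ⟨τ₀, hτ₀⟩ ?_
  · exact mdifferentiable_const
  · intro τ hτ
    have := h τ
    rcases mul_eq_zero.mp this with h1 | h1
    · exact absurd h1 hτ
    · simpa using h1

theorem eq_zero_of_prod_mul_eq_zero {ι : Type*} (S : Finset ι) (f : ι → ℍ → ℂ)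
    (hf : ∀ s ∈ S, MDiff (f s)) (hf0 : ∀ s ∈ S, f s ≠ 0) :
    ∀ g : ℍ → ℂ, MDiff g → (∀ τ, (∏ s ∈ S, f s τ) * g τ = 0) → g = 0 := by
  classical
  induction S using Finset.induction_on with
  | empty =>
    intro g _ h
    funext τ
    simpa using h τ
  | insert s S hs ih =>
    intro g hg h
    have hfs : MDiff (f s) := hf s (Finset.mem_insert_self s S)
    have h1 : (fun τ => f s τ * g τ) = 0 := by
      apply ih (fun t ht => hf t (Finset.mem_insert_of_mem ht))
        (fun t ht => hf0 t (Finset.mem_insert_of_mem ht))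
      · exact hfs.mul hg
      · intro τ
        have := h τ
        rw [Finset.prod_insert hs] at this
        rw [← this]
        ring
    rcases eq_zero_or_eq_zero_of_mul_eq_zero hfs hg (fun τ => congrFun h1 τ) with h2 | h2
    · exact absurd h2 (hf0 s (Finset.mem_insert_self s S))
    · exact h2

/-- Vandermonde independence: if holomorphic functions `a i` satisfy
`∑ i, a i * (u q) ^ i = 0` for pairwise distinct holomorphic `u q`, then all `a i` vanish. -/
theorem eq_zero_of_forall_sum_mul_pow_eq_zero {n : ℕ} (u : Fin n → ℍ → ℂ)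
    (hu : ∀ q, MDiff (u q)) (hinj : Function.Injective u)
    (a : Fin n → ℍ → ℂ) (ha : ∀ i, MDiff (a i))
    (h : ∀ (τ : ℍ) (q : Fin n), ∑ i : Fin n, a i τ * u q τ ^ (i : ℕ) = 0) :
    ∀ i, a i = 0 := by
  classical
  intro i
  -- determinant times `a i` vanishes pointwise
  have hdet : ∀ τ, (Matrix.vandermonde (fun q => u q τ)).det * a i τ = 0 := by
    intro τ
    set V := Matrix.vandermonde (fun q => u q τ) with hV
    have hmv : V.mulVec (fun i => a i τ) = 0 := by
      funext q
      simp only [Matrix.mulVec, dotProduct, hV, Matrix.vandermonde_apply, Pi.zero_apply]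
      rw [← h τ q]
      apply Finset.sum_congr rfl
      intro j _
      ring
    have h2 : (V.adjugate * V).mulVec (fun i => a i τ) = 0 := by
      rw [← Matrix.mulVec_mulVec, hmv, Matrix.mulVec_zero]
    rw [Matrix.adjugate_mul, Matrix.smul_mulVec, Matrix.one_mulVec] at h2
    have := congrFun h2 i
    simpa using this
  -- rewrite the determinant as a product over pairs
  let S : Finset (Σ _ : Fin n, Fin n) := Finset.univ.sigma (fun i : Fin n => Finset.Ioi i)
  let f : (Σ _ : Fin n, Fin n) → ℍ → ℂ := fun x τ => u x.2 τ - u x.1 τ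
  have hprod : ∀ τ, (Matrix.vandermonde (fun q => u q τ)).det = ∏ x ∈ S, f x τ := by
    intro τ
    rw [Matrix.det_vandermonde, Finset.prod_sigma']
  apply eq_zero_of_prod_mul_eq_zero S f
  · intro x _
    exact (hu x.2).sub (hu x.1)
  · intro x hx hzero
    have hlt : x.1 < x.2 := by
      have := (Finset.mem_sigma.mp hx).2
      simpa using this
    have : u x.2 = u x.1 := by
      funext τ
      have := congrFun hzero τ
      simpa [f, sub_eq_zero] using this
    exact hlt.ne' (hinj this)
  · exact ha i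
  · intro τ
    rw [← hprod τ]
    exact hdet τ

end Fermat.Agent.S23
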