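import Fermat.Agent.S22
import Fermat.Agent.S23.BoundedOfHecke
import Fermat.Agent.S23.ConjBridge

set_option autoImplicit false

namespace Fermat.Agent.S23

open UpperHalfPlane ModularForm CongruenceSubgroup SlashInvariantForm Filter Topology
open scoped MatrixGroups ModularForm Manifold

/-- Bounded denominators, from the finiteness of the Hecke algebra (statement S22). -/
theorem boundedDenominators_of_one_le (N : ℕ) [NeZero N] (k : ℤ) (hk : 1 ≤ k) :
    BoundedDenominators N k :=
  boundedDenominators_of_finite_heckeAlgebra N k hk (Fermat.Agent.S22.result N k ∅)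

/-- Integral structure from a primitive element `t` with integral q-expansion, tending to `1` at
infinity, all of whose translates by elements outside `Gamma0 N` tend to `0` at infinity. -/
theorem hasIntegralStructure_of_primitive (N : ℕ) [NeZero N] (k : ℤ) (hk : 1 ≤ k) {w : ℤ}
    (t : ModularForm (G0 N) w) (ht : IsIntPS (qExpansion 1 t))
    (h1 : Tendsto t atImInfty (𝓝 1))
    (h2 : ∀ γ : SL(2, ℤ), γ ∉ Gamma0 N → Tendsto ((t : ℍ → ℂ) ∣[w] γ) atImInfty (𝓝 0)) :
    CuspForm.HasIntegralStructure N k :=
  hasIntegralStructure_of N k (galoisStable_of_tendsto N k t ht h1 h2)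
    (boundedDenominators_of_one_le N k hk)

end Fermat.Agent.S23
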