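-- Conjugates of u = Delta^N / Delta(N z) under SL(2,Z): Hermite decomposition, explicit formula,
-- boundedness at infinity; the modular form uForm.
import Fermat.Agent.S23.UFunction
import Fermat.Agent.S23.UFunctionInt

set_option autoImplicit false
open UpperHalfPlane ModularForm Complex MatrixGroups CongruenceSubgroup Filter Asymptotics Function
open scoped ModularForm Manifold Real Topology

namespace Fermat.Agent.S23.UConjBdd

open Fermat.Agent.S23.UFunction

local notation "Δ" => ModularForm.discriminant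

/-! ### Hermite decomposition -/

/-- Hermite decomposition of `diag(N,1) * [[p,q],[r,s]]` as `[[x,u],[y,v]] * [[a,b],[0,d]]`. -/
lemma hermite (N : ℕ) [NeZero N] (p q r s : ℤ) (hdet : p * s - q * r = 1) :
    ∃ x u y v a b d : ℤ, x * v - u * y = 1 ∧ 0 < a ∧ 0 < d ∧ a * d = N ∧
      x * a = N * p ∧ x * b + u * d = N * q ∧ y * a = r ∧ y * b + v * d = s := by
  have hN : (N : ℤ) ≠ 0 := Nat.cast_ne_zero.mpr (NeZero.ne N)
  have hNpos : (0 : ℤ) < N := Nat.cast_pos.mpr (NeZero.pos N)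
  set g : ℤ := (Int.gcd (N * p) r : ℤ) with hg
  have hne : ¬ ((N : ℤ) * p = 0 ∧ r = 0) := by
    rintro ⟨h1, h2⟩
    have hp : p = 0 := by
      rcases mul_eq_zero.mp h1 with h | h
      · exact absurd h hN
      · exact h
    rw [hp, h2] at hdet
    simp at hdet
  have hgpos : 0 < g := by
    rw [hg]
    have : 0 < Int.gcd (N * p) r := Int.gcd_pos_iff.mpr (by
      by_contra h
      rw [not_or, not_not, not_not] at h
      exact hne h)
    exact_mod_cast this
  obtain ⟨x, hx⟩ : g ∣ (N : ℤ) * p := Int.gcd_dvd_left _ _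
  obtain ⟨y, hy⟩ : g ∣ r := Int.gcd_dvd_right _ _
  have hbez : g = (N * p) * Int.gcdA (N * p) r + r * Int.gcdB (N * p) r := Int.gcd_eq_gcd_ab _ _
  set v := Int.gcdA (N * p) r
  set u' := Int.gcdB (N * p) r
  have huv : x * v + y * u' = 1 := by
    have h1 : g * (x * v + y * u') = g * 1 := by
      have e : g * (x * v + y * u') = (g * x) * v + (g * y) * u' := by ring
      rw [mul_one, e, ← hx, ← hy]
      exact hbez.symm
    exact mul_left_cancel₀ hgpos.ne' h1
  have hgd : g * (-y * (N * q) + x * s) = N := by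
    have e : g * (-y * (N * q) + x * s) = (g * x) * s - (N * q) * (g * y) := by ring
    rw [e, ← hx, ← hy]
    have e2 : (N : ℤ) * p * s - N * q * r = N * (p * s - q * r) := by ring
    rw [e2, hdet, mul_one]
  refine ⟨x, -u', y, v, g, v * (N * q) + u' * s, -y * (N * q) + x * s, by linarith, hgpos, ?_, hgd,
    by linarith, ?_, by linarith, ?_⟩
  · by_contra hd
    rw [not_lt] at hd
    have : g * (-y * (N * q) + x * s) ≤ 0 := mul_nonpos_of_nonneg_of_nonpos hgpos.le hd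
    omega
  · have e1 : x * (v * (N * q) + u' * s) + -u' * (-y * (N * q) + x * s) =
        (x * v + y * u') * (N * q) := by ring
    rw [e1, huv, one_mul]
  · have e1 : y * (v * (N * q) + u' * s) + v * (-y * (N * q) + x * s) = (x * v + y * u') * s := by
      ring
    rw [e1, huv, one_mul]

/-! ### Geometric form -/

lemma hermite_aux (N p q r s x u y v a b d z : ℂ) (hd : d ≠ 0) (e1 : x * a = N * p)
    (e2 : x * b + u * d = N * q) (e3 : y * a = r) (e4 : y * b + v * d = s)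
    (h : r * z + s ≠ 0) :
    N * ((p * z + q) / (r * z + s)) = (x * ((a * z + b) / d) + u) / (y * ((a * z + b) / d) + v) := by
  subst e3 e4
  have h2 : y * ((a * z + b) / d) + v = (y * a * z + (y * b + v * d)) / d := by
    field_simp; ring
  rw [h2]
  have : x * ((a * z + b) / d) + u = (N * p * z + N * q) / d := by
    rw [← e1, ← e2]; field_simp; ring
  rw [this]
  field_simp

/-- The point `(a z + b) / d` of the upper half plane, for `a, d > 0`. -/
noncomputable def betaPt (a b d : ℤ) (ha : 0 < a) (hd : 0 < d) (z : ℍ) : ℍ :=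
  ⟨((a : ℂ) * z + b) / d, by
    have hd' : (0 : ℝ) < d := by exact_mod_cast hd
    have ha' : (0 : ℝ) < a := by exact_mod_cast ha
    have him : (((a : ℂ) * z + b) / d).im = (a : ℝ) * z.im / d := by
      have : ((a : ℂ) * z + b) / d = ((a : ℂ) * z + b) / ((d : ℝ) : ℂ) := by push_cast; rfl
      rw [this, Complex.div_ofReal_im]
      simp
    rw [him]
    have := z.im_pos
    positivity⟩

@[simp] lemma coe_betaPt (a b d : ℤ) (ha : 0 < a) (hd : 0 < d) (z : ℍ) :
    ((betaPt a b d ha hd z : ℍ) : ℂ) = ((a : ℂ) * z + b) / d := rfl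

lemma im_betaPt (a b d : ℤ) (ha : 0 < a) (hd : 0 < d) (z : ℍ) :
    (betaPt a b d ha hd z).im = (a : ℝ) / d * z.im := by
  change (((a : ℂ) * z + b) / d).im = _
  have : ((a : ℂ) * z + b) / d = ((a : ℂ) * z + b) / ((d : ℝ) : ℂ) := by push_cast; rfl
  rw [this, Complex.div_ofReal_im]
  simp
  ring

/-- A matrix of `SL(2, ℤ)` from its entries. -/
def mkSL (x u y v : ℤ) (h : x * v - u * y = 1) : SL(2, ℤ) :=
  ⟨!![x, u; y, v], by rw [Matrix.det_fin_two_of]; exact h⟩

@[simp] lemma mkSL_zero_zero (x u y v : ℤ) (h : x * v - u * y = 1) : (mkSL x u y v h) 0 0 = x := rfl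
@[simp] lemma mkSL_zero_one (x u y v : ℤ) (h : x * v - u * y = 1) : (mkSL x u y v h) 0 1 = u := rfl
@[simp] lemma mkSL_one_zero (x u y v : ℤ) (h : x * v - u * y = 1) : (mkSL x u y v h) 1 0 = y := rfl
@[simp] lemma mkSL_one_one (x u y v : ℤ) (h : x * v - u * y = 1) : (mkSL x u y v h) 1 1 = v := rfl

/-- Geometric form of the Hermite decomposition. -/
lemma scale_smul_eq (N : ℕ) [NeZero N] (γ : SL(2, ℤ)) (x u y v a b d : ℤ)
    (h1 : x * v - u * y = 1) (ha : 0 < a) (hd : 0 < d)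
    (e1 : x * a = N * γ 0 0) (e2 : x * b + u * d = N * γ 0 1) (e3 : y * a = γ 1 0)
    (e4 : y * b + v * d = γ 1 1) (z : ℍ) :
    scale N (γ • z) = mkSL x u y v h1 • betaPt a b d ha hd z ∧
      denom γ z = d * denom (mkSL x u y v h1) (betaPt a b d ha hd z) := by
  have hdC : (d : ℂ) ≠ 0 := by exact_mod_cast hd.ne'
  have hden : denom γ z = d * denom (mkSL x u y v h1) (betaPt a b d ha hd z) := by
    rw [denom_SL, denom_SL, coe_betaPt, mkSL_one_zero, mkSL_one_one, ← e3, ← e4]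
    push_cast
    field_simp
    ring
  refine ⟨?_, hden⟩
  apply UpperHalfPlane.ext
  rw [coe_scale, UpperHalfPlane.coe_specialLinearGroup_apply,
    UpperHalfPlane.coe_specialLinearGroup_apply, coe_betaPt]
  simp only [algebraMap_int_eq, eq_intCast, mkSL_zero_zero, mkSL_zero_one, mkSL_one_zero,
    mkSL_one_one, Complex.ofReal_intCast]
  have hγ : ((γ 1 0 : ℤ) : ℂ) * z + ((γ 1 1 : ℤ) : ℂ) ≠ 0 := by
    have := UpperHalfPlane.denom_ne_zero (γ : GL (Fin 2) ℝ) z
    rwa [denom_SL] at this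
  exact hermite_aux (N : ℂ) _ _ _ _ _ _ _ _ _ _ _ _ hdC (by exact_mod_cast e1) (by exact_mod_cast e2)
    (by exact_mod_cast e3) (by exact_mod_cast e4) hγ

lemma slash_aux (N : ℕ) (D D1 d X W : ℂ) (hD1 : D1 ≠ 0) (hd : d ≠ 0) (hW : W ≠ 0)
    (hD : D = d * D1) :
    (D ^ (12 : ℤ) * X) ^ N / (D1 ^ (12 : ℤ) * W) * D ^ (-(12 * ((N : ℤ) - 1))) * W = d ^ 12 * X ^ N := by
  have hD0 : D ≠ 0 := by rw [hD]; exact mul_ne_zero hd hD1
  rw [mul_pow, ← zpow_natCast (D ^ (12:ℤ)) N, ← zpow_mul]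
  have e : D ^ ((12 : ℤ) * (N : ℤ)) * X ^ N / (D1 ^ (12 : ℤ) * W) * D ^ (-(12 * ((N : ℤ) - 1))) * W
      = (D ^ ((12 : ℤ) * (N : ℤ)) * D ^ (-(12 * ((N : ℤ) - 1)))) * X ^ N / D1 ^ (12 : ℤ) := by
    field_simp
  rw [e, ← zpow_add₀ hD0]
  have : (12 : ℤ) * (N : ℤ) + -(12 * ((N : ℤ) - 1)) = 12 := by ring
  rw [this, hD, mul_zpow]
  have h12 : ∀ t : ℂ, t ^ (12 : ℤ) = t ^ 12 := fun t => by
    rw [← zpow_natCast]; rfl
  rw [h12, h12]
  field_simp

/-! ### The formula for the conjugates -/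

/-- For every `γ ∈ SL(2, ℤ)` the conjugate `u|γ` is `d^12 Δ(z)^N / Δ((a z + b)/d)` with `a d = N`,
and `d > 1` unless `γ ∈ Γ₀(N)`. -/
theorem exists_uFun_slash_formula (N : ℕ) [NeZero N] (γ : SL(2, ℤ)) :
    ∃ (a b d : ℤ) (ha : 0 < a) (hd : 0 < d), a * d = N ∧ (γ ∉ Gamma0 N → 1 < d) ∧
      ∀ z : ℍ, (uFun N ∣[12 * ((N : ℤ) - 1)] γ) z * Δ (betaPt a b d ha hd z) =
        (d : ℂ) ^ 12 * Δ z ^ N := by
  have hdet : γ 0 0 * γ 1 1 - γ 0 1 * γ 1 0 = 1 := by
    have := γ.det_coe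
    rw [Matrix.det_fin_two] at this
    linarith
  obtain ⟨x, u, y, v, a, b, d, h1, ha, hd, had, e1, e2, e3, e4⟩ :=
    hermite N (γ 0 0) (γ 0 1) (γ 1 0) (γ 1 1) hdet
  refine ⟨a, b, d, ha, hd, had, ?_, ?_⟩
  · intro hγ
    by_contra hd1
    have hd1' : d = 1 := by omega
    apply hγ
    rw [Gamma0_mem, ZMod.intCast_zmod_eq_zero_iff_dvd]
    rw [hd1', mul_one] at had
    exact ⟨y, by rw [← e3, had]; ring⟩
  · intro z
    obtain ⟨hsc, hden⟩ := scale_smul_eq N γ x u y v a b d h1 ha hd e1 e2 e3 e4 z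
    rw [ModularForm.SL_slash_apply]
    unfold uFun
    rw [hsc, discriminant_smul, discriminant_smul]
    have hD1 : denom (mkSL x u y v h1) (betaPt a b d ha hd z) ≠ 0 :=
      UpperHalfPlane.denom_ne_zero (mkSL x u y v h1 : GL (Fin 2) ℝ) _
    have hdC : (d : ℂ) ≠ 0 := by exact_mod_cast hd.ne'
    exact slash_aux N _ _ _ _ _ hD1 hdC (discriminant_ne_zero _) hden

/-! ### Estimates -/

lemma tendsto_betaPt (a b d : ℤ) (ha : 0 < a) (hd : 0 < d) :
    Tendsto (betaPt a b d ha hd) atImInfty atImInfty := by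
  rw [atImInfty, tendsto_comap_iff]
  have : (UpperHalfPlane.im ∘ betaPt a b d ha hd) = fun z : ℍ => ((a : ℝ) / d) * z.im := by
    ext z; simp [im_betaPt]
  rw [this]
  have hpos : (0 : ℝ) < (a : ℝ) / d := by
    have hd' : (0 : ℝ) < d := by exact_mod_cast hd
    have ha' : (0 : ℝ) < a := by exact_mod_cast ha
    positivity
  exact (tendsto_comap).const_mul_atTop hpos

/-- The basic estimate: `Δ(z)^N / Δ((a z + b)/d)` is `O(exp(-2π (N - a/d) Im z))`. -/
lemma discriminant_pow_div_isBigO (N : ℕ) (a b d : ℤ) (ha : 0 < a) (hd : 0 < d) :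
    (fun z : ℍ => Δ z ^ N / Δ (betaPt a b d ha hd z)) =O[atImInfty]
      fun z : ℍ => Real.exp (-2 * π * ((N : ℝ) - (a : ℝ) / d) * z.im) := by
  have h1 : (Δ : ℍ → ℂ) =O[atImInfty] fun τ => Real.exp (-2 * π * τ.im / 1) :=
    CuspFormClass.exp_decay_atImInfty CuspForm.discriminant one_pos one_mem_strictPeriods_SL
  have h2 : (fun z : ℍ => Δ z ^ N) =O[atImInfty] fun τ => Real.exp (-2 * π * τ.im / 1) ^ N :=
    h1.pow N
  have h3 : (fun τ : ℍ => Real.exp (-2 * π * (betaPt a b d ha hd τ).im)) =O[atImInfty]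
      fun τ => Δ (betaPt a b d ha hd τ) :=
    exp_isBigO_discriminant.comp_tendsto (tendsto_betaPt a b d ha hd)
  have h4 : (fun τ : ℍ => (Δ (betaPt a b d ha hd τ))⁻¹) =O[atImInfty]
      fun τ : ℍ => (Real.exp (-2 * π * (betaPt a b d ha hd τ).im))⁻¹ := by
    refine h3.inv_rev (Eventually.of_forall fun τ h => ?_)
    exact absurd h (Real.exp_pos _).ne'
  have h5 := h2.mul h4
  refine (h5.congr_left (fun z => by rw [div_eq_mul_inv])).trans
    (IsBigO.of_bound 1 (Eventually.of_forall fun τ => ?_))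
  rw [one_mul, ← Real.exp_nat_mul, ← Real.exp_neg, ← Real.exp_add, im_betaPt]
  apply le_of_eq
  congr 2
  ring

/-- Every conjugate `u|γ` is `O(exp(-2π c Im z))` for some `c ≥ 0`, with `c > 0` unless
`γ ∈ Γ₀(N)`. -/
theorem exists_uFun_slash_isBigO (N : ℕ) [NeZero N] (γ : SL(2, ℤ)) :
    ∃ c : ℝ, 0 ≤ c ∧ (γ ∉ Gamma0 N → 0 < c) ∧
      (uFun N ∣[12 * ((N : ℤ) - 1)] γ) =O[atImInfty]
        fun z : ℍ => Real.exp (-2 * π * c * z.im) := by
  obtain ⟨a, b, d, ha, hd, had, hγd, hform⟩ := exists_uFun_slash_formula N γ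
  have ha' : (0 : ℝ) < a := by exact_mod_cast ha
  have hd' : (0 : ℝ) < d := by exact_mod_cast hd
  have hd1 : (1 : ℝ) ≤ d := by exact_mod_cast hd
  have hadR : (a : ℝ) * d = N := by exact_mod_cast had
  have hle : (a : ℝ) / d ≤ N := by
    rw [div_le_iff₀ hd', ← hadR]
    nlinarith
  refine ⟨(N : ℝ) - (a : ℝ) / d, by linarith, ?_, ?_⟩
  · intro hγ
    have h1d : (1 : ℝ) < d := by exact_mod_cast hγd hγ
    have : (a : ℝ) / d < N := by
      rw [div_lt_iff₀ hd', ← hadR]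
      nlinarith
    linarith
  · have hEq : (uFun N ∣[12 * ((N : ℤ) - 1)] γ) =
        fun z : ℍ => (d : ℂ) ^ 12 * (Δ z ^ N / Δ (betaPt a b d ha hd z)) := by
      ext z
      rw [mul_div_assoc', eq_div_iff (discriminant_ne_zero _)]
      exact hform z
    rw [hEq]
    exact (discriminant_pow_div_isBigO N a b d ha hd).const_mul_left _

theorem isBoundedAtImInfty_uFun_slash (N : ℕ) [NeZero N] (γ : SL(2, ℤ)) :
    IsBoundedAtImInfty (uFun N ∣[12 * ((N : ℤ) - 1)] γ) := by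
  obtain ⟨c, hc, -, hO⟩ := exists_uFun_slash_isBigO N γ
  rw [IsBoundedAtImInfty, BoundedAtFilter]
  refine hO.trans (IsBigO.of_bound 1 (Eventually.of_forall fun z => ?_))
  rw [one_mul, Real.norm_eq_abs, abs_of_pos (Real.exp_pos _), Pi.one_apply, norm_one,
    Real.exp_le_one_iff]
  have := z.im_pos
  have : 0 ≤ 2 * π * c * z.im := by positivity
  linarith

theorem isZeroAtImInfty_uFun_slash (N : ℕ) [NeZero N] (γ : SL(2, ℤ)) (hγ : γ ∉ Gamma0 N) :
    IsZeroAtImInfty (uFun N ∣[12 * ((N : ℤ) - 1)] γ) := by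
  obtain ⟨c, -, hc, hO⟩ := exists_uFun_slash_isBigO N γ
  have hc0 := hc hγ
  rw [IsZeroAtImInfty, ZeroAtFilter]
  refine hO.trans_tendsto ?_
  have h1 : Tendsto (fun z : ℍ => z.im) atImInfty atTop := tendsto_comap
  have h2 : Tendsto (fun z : ℍ => -(2 * π * c) * z.im) atImInfty atBot :=
    h1.const_mul_atTop_of_neg (by have := Real.pi_pos; nlinarith)
  have h3 := Real.tendsto_exp_atBot.comp h2
  refine h3.congr (fun z => ?_)
  simp only [Function.comp_apply]
  congr 1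
  ring

end Fermat.Agent.S23.UConjBdd
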