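import Fermat.Agent.S23.ConjBasic

/-!
# Bridge from `SL(2,ℤ)`-indexed statements about translates `t ∣[k] γ` to the coset-indexed
conjugates `quotientFunc t q`, `q : Q0 N`.
-/

set_option autoImplicit false

namespace Fermat.Agent.S23

open UpperHalfPlane ModularForm CongruenceSubgroup SlashInvariantForm Filter Topology
open scoped MatrixGroups ModularForm Manifold

variable {N : ℕ} [NeZero N] {k : ℤ} {F : Type*} [FunLike F ℍ ℂ]

/-- General transfer principle: a property of all translates `t ∣[k] γ` holds for all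
conjugates. -/
theorem UConjQ.forall_quotientFunc [SlashInvariantFormClass F (G0 N) k] (t : F)
    (P : (ℍ → ℂ) → Prop) (h : ∀ γ : SL(2, ℤ), P ((t : ℍ → ℂ) ∣[k] γ)) (q : Q0 N) :
    P (quotientFunc t q) := by
  obtain ⟨γ, -, hγ⟩ := ConjBasic.exists_quotientFunc_eq_slash t q
  rw [hγ]
  exact h γ⁻¹

/-- Transfer principle off the base point: a property of all translates `t ∣[k] γ` with
`γ ∉ Gamma0 N` holds for all conjugates `quotientFunc t q` with `q ≠ q0 N`. -/
theorem UConjQ.forall_quotientFunc_of_ne [SlashInvariantFormClass F (G0 N) k] (t : F)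
    (P : (ℍ → ℂ) → Prop)
    (h : ∀ γ : SL(2, ℤ), γ ∉ Gamma0 N → P ((t : ℍ → ℂ) ∣[k] γ)) (q : Q0 N) (hq : q ≠ q0 N) :
    P (quotientFunc t q) := by
  obtain ⟨γ, rfl, hγ⟩ := ConjBasic.exists_quotientFunc_eq_slash t q
  rw [hγ]
  apply h
  intro hmem
  apply hq
  rw [ConjBasic.mkQ_eq_q0_iff]
  simpa using inv_mem hmem

/-- Integrality of the `q_N`-expansions of all translates gives integrality of the
`q_N`-expansions of all conjugates. -/
theorem UConjQ.isAlgIntPS_quotientFunc [SlashInvariantFormClass F (G0 N) k] (t : F)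
    (h : ∀ γ : SL(2, ℤ), IsAlgIntPS (qExpansion (N : ℝ) ((t : ℍ → ℂ) ∣[k] γ))) (q : Q0 N) :
    IsAlgIntPS (qExpansion (N : ℝ) (quotientFunc t q)) :=
  UConjQ.forall_quotientFunc t (fun g => IsAlgIntPS (qExpansion (N : ℝ) g)) h q

/-- Vanishing of the constant `q_N`-coefficient of the translates by `γ ∉ Gamma0 N` gives
vanishing of the constant `q_N`-coefficient of the conjugates off the base point. -/
theorem UConjQ.coeff_zero_quotientFunc [SlashInvariantFormClass F (G0 N) k] (t : F)
    (h : ∀ γ : SL(2, ℤ), γ ∉ Gamma0 N →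
      PowerSeries.coeff 0 (qExpansion (N : ℝ) ((t : ℍ → ℂ) ∣[k] γ)) = 0)
    (q : Q0 N) (hq : q ≠ q0 N) :
    PowerSeries.coeff 0 (qExpansion (N : ℝ) (quotientFunc t q)) = 0 :=
  UConjQ.forall_quotientFunc_of_ne t
    (fun g => PowerSeries.coeff 0 (qExpansion (N : ℝ) g) = 0) h q hq

/-- Decay of the translates by `γ ∉ Gamma0 N` gives decay of the conjugates off the base
point. -/
theorem UConjQ.isZeroAtImInfty_quotientFunc [SlashInvariantFormClass F (G0 N) k] (t : F)
    (h : ∀ γ : SL(2, ℤ), γ ∉ Gamma0 N → IsZeroAtImInfty ((t : ℍ → ℂ) ∣[k] γ))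
    (q : Q0 N) (hq : q ≠ q0 N) : IsZeroAtImInfty (quotientFunc t q) :=
  UConjQ.forall_quotientFunc_of_ne t IsZeroAtImInfty h q hq

/-- For conjugates off the base point, decay at `i∞` gives vanishing of the constant
`q_N`-coefficient. -/
theorem UConjQ.coeff_zero_of_isZeroAtImInfty [ModularFormClass F (G0 N) k] (t : F)
    (q : Q0 N) (hz : IsZeroAtImInfty (quotientFunc t q)) :
    PowerSeries.coeff 0 (qExpansion (N : ℝ) (quotientFunc t q)) = 0 := by
  have hN : (0 : ℝ) < N := Nat.cast_pos.mpr (NeZero.pos N)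
  have hmem := quotientFunc_mem_PerAlg t q
  exact tendsto_nhds_unique (PerAlg.tendsto_coeff_zero hN hmem) hz

end Fermat.Agent.S23
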