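import Fermat.Agent.S23.QAlg
import Fermat.Agent.S23.IntSeries
import Fermat.Agent.S23.ConjBasic
import Fermat.Agent.S23.Conj

/-!
Integrality of the Lagrange denominator: if all conjugates of `t` have `q_N`-expansions with
algebraic integer coefficients, then the `q`-expansion of `lagrangeDen t` has algebraic integer
coefficients.
-/

set_option autoImplicit false

namespace Fermat.Agent.S23

open UpperHalfPlane ModularForm CongruenceSubgroup SlashInvariantForm
open scoped MatrixGroups ModularForm Manifold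

variable {N : ℕ} [NeZero N] {w : ℤ}

theorem uden_natCast_pos (N : ℕ) [NeZero N] : (0 : ℝ) < (N : ℝ) := by
  exact_mod_cast Nat.pos_of_ne_zero (NeZero.ne N)

/-- the `q_N`-expansion of a form on `Gamma0 N` is the expansion of its `q`-expansion. -/
theorem qExpansion_natCast_coe_isAlgIntPS (t : ModularForm (G0 N) w)
    (ht : IsAlgIntPS (qExpansion 1 t)) : IsAlgIntPS (qExpansion (N : ℝ) t) := by
  rw [qExpansion_natCast_eq_expand (coe_mem_PerAlg_one t) (NeZero.ne N)]
  exact ht.expand N (NeZero.ne N)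

/-- the `q_N`-expansion of the Lagrange denominator as a product. -/
theorem qExpansion_natCast_lagrangeDen (t : ModularForm (G0 N) w) :
    qExpansion (N : ℝ) (lagrangeDen t) =
      ∏ q ∈ Finset.univ.erase (q0 N),
        (qExpansion (N : ℝ) t - qExpansion (N : ℝ) (quotientFunc t q)) := by
  have hN := uden_natCast_pos N
  have h : lagrangeDen t =
      ∏ q ∈ Finset.univ.erase (q0 N), ((t : ℍ → ℂ) - quotientFunc t q) := by
    funext z
    simp [lagrangeDen, Finset.prod_apply]
  have ht : (t : ℍ → ℂ) ∈ PerAlg (N : ℝ) := PerAlg_one_le N (coe_mem_PerAlg_one t)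
  have key : (⟨lagrangeDen t, lagrangeDen_mem_PerAlg t⟩ : PerAlg (N : ℝ)) =
      ∏ q ∈ Finset.univ.erase (q0 N),
        ((⟨(t : ℍ → ℂ), ht⟩ : PerAlg (N : ℝ)) - ⟨quotientFunc t q, quotientFunc_mem_PerAlg t q⟩) := by
    apply Subtype.ext
    rw [SubmonoidClass.coe_finsetProd]
    exact h
  have := congrArg (qExpHom (N : ℝ) hN) key
  rw [map_prod] at this
  simp only [map_sub, qExpHom_apply] at this
  exact this

/-- **Integrality of the Lagrange denominator.** -/
theorem lagrangeDen_isAlgIntPS (t : ModularForm (G0 N) w)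
    (ht : IsAlgIntPS (qExpansion 1 t))
    (hconj : ∀ q : Q0 N, q ≠ q0 N → IsAlgIntPS (qExpansion (N : ℝ) (quotientFunc t q))) :
    IsAlgIntPS (qExpansion 1 (lagrangeDen t)) := by
  have h1 : IsAlgIntPS (qExpansion (N : ℝ) (lagrangeDen t)) := by
    rw [qExpansion_natCast_lagrangeDen]
    refine IsAlgIntPS.prod _ fun q hq => ?_
    exact (qExpansion_natCast_coe_isAlgIntPS t ht).sub (hconj q (Finset.ne_of_mem_erase hq))
  rw [qExpansion_natCast_eq_expand (lagrangeDen_mem_PerAlg_one t) (NeZero.ne N)] at h1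
  exact IsAlgIntPS.of_expand N (NeZero.ne N) h1

/-- variant with the hypothesis for all cosets -/
theorem lagrangeDen_isAlgIntPS' (t : ModularForm (G0 N) w)
    (hconj : ∀ q : Q0 N, IsAlgIntPS (qExpansion (N : ℝ) (quotientFunc t q))) :
    IsAlgIntPS (qExpansion 1 (lagrangeDen t)) := by
  have h0 := hconj (q0 N)
  rw [quotientFunc_q0, qExpansion_natCast_eq_expand (coe_mem_PerAlg_one t) (NeZero.ne N)] at h0
  exact lagrangeDen_isAlgIntPS t (IsAlgIntPS.of_expand N (NeZero.ne N) h0)
    fun q _ => hconj q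

end Fermat.Agent.S23
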